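import Fermat.Agent.GD.Global.ClassFormation.Invariant

/-!
# The class module of a formation
-/

set_option autoImplicit false
set_option linter.unusedSectionVars false
set_option linter.style.haveILetI false

noncomputable section

namespace Fermat.Agent.GD

universe u w

variable {L : LevelGroup.{u}} {C : Type w} [AddCommGroup C] [DistribMulAction L.G C] {p : ℕ}
  [hp : Fact p.Prime]

variable (p) in
/-- `ℤ/p^n` in `ℚ/ℤ`. -/
def circ (n : ℕ) : ZMod (p ^ n) →+ AddCircle (1 : ℚ) :=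
  ZMod.lift (p ^ n) ⟨zmultiplesHom _ (((p : ℚ) ^ n)⁻¹ : ℚ), by
    rw [zmultiplesHom_apply, ← AddCircle.coe_zsmul, zsmul_eq_mul, Int.cast_natCast, Nat.cast_pow,
      mul_inv_cancel₀ (pow_ne_zero _ (Nat.cast_ne_zero.mpr hp.out.ne_zero))]
    exact AddCircle.coe_period 1⟩

theorem circ_intCast (n : ℕ) (j : ℤ) :
    circ p n (j : ZMod (p ^ n)) = (((j : ℚ) * ((p : ℚ) ^ n)⁻¹ : ℚ) : AddCircle (1 : ℚ)) := by
  rw [circ, ZMod.lift_coe, zmultiplesHom_apply, ← AddCircle.coe_zsmul, zsmul_eq_mul]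

theorem circ_injective (n : ℕ) : Function.Injective (circ p n) := by
  rw [injective_iff_map_eq_zero]
  intro x hx
  obtain ⟨j, rfl⟩ := ZMod.intCast_surjective x
  rw [circ_intCast, AddCircle.coe_eq_zero_iff] at hx
  obtain ⟨k, hk⟩ := hx
  rw [zsmul_eq_mul, mul_one] at hk
  rw [ZMod.intCast_zmod_eq_zero_iff_dvd, Nat.cast_pow]
  refine ⟨k, ?_⟩
  have h0 : ((p : ℚ) ^ n) ≠ 0 := pow_ne_zero _ (Nat.cast_ne_zero.mpr hp.out.ne_zero)
  have : (j : ℚ) = ((p : ℤ) ^ n * k : ℤ) := by push_cast; rw [hk]; field_simp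
  exact_mod_cast this

theorem circ_cast {m n : ℕ} (h : m ≤ n) (x : ZMod (p ^ n)) :
    p ^ (n - m) • circ p n x = circ p m (ZMod.castHom (pow_dvd_pow p h) (ZMod (p ^ m)) x) := by
  obtain ⟨j, rfl⟩ := ZMod.intCast_surjective x
  rw [show ZMod.castHom (pow_dvd_pow p h) (ZMod (p ^ m)) (j : ZMod (p ^ n)) = (j : ZMod (p ^ m)) from
      map_intCast _ j, circ_intCast, circ_intCast, ← AddCircle.coe_nsmul, nsmul_eq_mul]
  congr 1
  have h0 : ∀ k, ((p : ℚ) ^ k) ≠ 0 := fun k => pow_ne_zero _ (Nat.cast_ne_zero.mpr hp.out.ne_zero)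
  push_cast
  rw [← pow_sub_mul_pow (p : ℚ) h, mul_inv]
  field_simp
  rw [mul_div_mul_left _ _ (h0 _)]

theorem pow_nsmul_circ (n : ℕ) (x : ZMod (p ^ n)) : p ^ n • circ p n x = 0 := by
  rw [← map_nsmul, nsmul_eq_mul, ZMod.natCast_self, zero_mul, map_zero]

theorem eq_zero_of_nsmul_coprime {A : Type*} [AddCommGroup A] {m k : ℕ} (h : m.Coprime k) {x : A}
    (hm : m • x = 0) (hk : k • x = 0) : x = 0 := by
  rw [← one_zsmul x, show (1 : ℤ) = m.gcdA k * m + m.gcdB k * k by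
    rw [show m.gcdA k * m + m.gcdB k * k = (m.gcd k : ℤ) by rw [Nat.gcd_eq_gcd_ab]; ring,
      h.gcd_eq_one, Nat.cast_one], add_zsmul, mul_zsmul, mul_zsmul, natCast_zsmul, natCast_zsmul,
    hm, hk, smul_zero, smul_zero, add_zero]

theorem mem_Zc_top {z : L.G × L.G → C} (hz : z ∈ L.Z2 C) : z ∈ Zc L C (⊤ : Subgroup L.G) :=
  ⟨hz.1, fun g _ h _ j _ => hz.2 g h j⟩

theorem isB2_iff {z : L.G × L.G → C} : L.IsB2 C z ↔ Triv2 (⊤ : Subgroup L.G) z :=
  ⟨fun ⟨b, hb, e⟩ => ⟨b, hb, fun g _ h _ => e ▸ rfl⟩,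
    fun ⟨b, hb, e⟩ => ⟨b, hb, funext fun y => (e y.1 trivial y.2 trivial).symm⟩⟩

/-- A cochain on an open subgroup extended by zero. -/
def extZero {X : Type*} [Zero X] (H : Subgroup L.G) (z : H × H → X) : L.G × L.G → X :=
  open scoped Classical in
  fun y => if h : y.1 ∈ H ∧ y.2 ∈ H then z (⟨y.1, h.1⟩, ⟨y.2, h.2⟩) else 0

theorem extZero_coe {X : Type*} [Zero X] (H : Subgroup L.G) (z : H × H → X) (g h : H) :
    extZero H z ((g : L.G), (h : L.G)) = z (g, h) := by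
  simp [extZero, g.2, h.2]

theorem extZero_mem_Zc {H : Subgroup L.G} (hH : L.IsOpen H) {z : H × H → C}
    (hz : z ∈ (L.sub H).Z2 C) : extZero H z ∈ Zc L C H := by
  obtain ⟨⟨_, ⟨N, hN, rfl⟩, hc⟩, hcoc⟩ := hz
  obtain ⟨N', hN', hle, hle'⟩ := level_le_of_isOpen hH hN
  refine ⟨⟨N', hN', fun g g' s hs s' hs' => ?_⟩, fun g hg h hh j hj => ?_⟩
  · by_cases h : g ∈ H ∧ g' ∈ H
    · simp only [extZero, dif_pos h,
        dif_pos (show g * s ∈ H ∧ g' * s' ∈ H from ⟨mul_mem h.1 (hle hs), mul_mem h.2 (hle hs')⟩)]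
      exact hc ⟨g, h.1⟩ ⟨g', h.2⟩ ⟨s, hle hs⟩ (hle' hs) ⟨s', hle hs'⟩ (hle' hs')
    · simp only [extZero, dif_neg h, dif_neg (show ¬(g * s ∈ H ∧ g' * s' ∈ H) from fun h' => h
        ⟨(H.mul_mem_cancel_right (hle hs)).mp h'.1, (H.mul_mem_cancel_right (hle hs')).mp h'.2⟩)]
  · have := hcoc ⟨g, hg⟩ ⟨h, hh⟩ ⟨j, hj⟩
    simp only [extZero, hg, hh, hj, mul_mem hg hh, mul_mem hh hj, and_self, dif_pos]
    exact this

theorem sub_isB2_of_triv2 {H : Subgroup L.G} {z : H × H → C} (h : Triv2 H (extZero H z)) :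
    (L.sub H).IsB2 C z := by
  obtain ⟨b, ⟨N, hN, hb⟩, e⟩ := h
  refine ⟨fun x : H => b (x : L.G), ⟨_, ⟨N, hN, rfl⟩, fun g s hs => hb g.1 s.1 hs⟩,
    funext fun (y : H × H) => ?_⟩
  obtain ⟨g, g'⟩ := y
  show _ = z (g, g')
  rw [← extZero_coe H z g g', e g g.2 g' g'.2]
  rfl

theorem triv2_of_sub_isB2 {H : Subgroup L.G} (hH : L.IsOpen H) {z : H × H → C}
    (h : (L.sub H).IsB2 C z) : Triv2 H (extZero H z) := by
  classical
  obtain ⟨b, ⟨_, ⟨N, hN, rfl⟩, hb⟩, e⟩ := h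
  obtain ⟨N', hN', hle, hle'⟩ := level_le_of_isOpen hH hN
  refine ⟨fun x => if hx : x ∈ H then b ⟨x, hx⟩ else 0, ⟨N', hN', fun g s hs => ?_⟩,
    fun g hg g' hg' => ?_⟩
  · by_cases hg : g ∈ H
    · simp only [dif_pos hg, dif_pos (mul_mem hg (hle hs))]
      exact hb ⟨g, hg⟩ ⟨s, hle hs⟩ (hle' hs)
    · simp only [dif_neg hg, dif_neg fun h => hg ((H.mul_mem_cancel_right (hle hs)).mp h)]
  · rw [show extZero H z (g, g') = z (⟨g, hg⟩, ⟨g', hg'⟩) from extZero_coe H z ⟨g, hg⟩ ⟨g', hg'⟩,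
      ← e, d₁_apply]
    simp only [dif_pos hg, dif_pos hg', dif_pos (mul_mem hg hg')]
    show _ = g • (if hx : g' ∈ H then b ⟨g', hx⟩ else 0) - _ + _
    simp only [dif_pos hg, dif_pos hg', dif_pos (mul_mem hg hg')]
    rfl

/-- Sums over cosets of functions of the transfer elements have a level. -/
theorem const₁_sum_eta {H : Subgroup L.G} [Fintype (L.G ⧸ H)] (hH : L.IsOpen H)
    {N : Subgroup L.G} (hN : L.IsLevel N) (φ : L.G ⧸ H → L.G → L.G → L.G → C)
    (hφ : ∀ s x u e, ∀ σ ∈ N, ∀ σ' ∈ N, φ s (x * σ) u (e * σ') = φ s x u e) :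
    L.Const₁ fun x => ∑ s : L.G ⧸ H, φ s x (x • s).out (L.eta H x s) := by
  obtain ⟨N', hN', hle, hle'⟩ := level_le_of_isOpen hH hN
  refine ⟨N', hN', fun x σ hσ => Finset.sum_congr rfl fun s _ => ?_⟩
  have hs : (x * σ) • s = x • s := by
    rw [mul_smul]
    congr 1
    induction s using QuotientGroup.induction_on with
    | H y =>
      rw [MulAction.Quotient.smul_mk, QuotientGroup.eq]
      refine hle ?_
      have := (L.normal N' hN').conj_mem _ (N'.inv_mem hσ) y⁻¹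
      simpa [mul_assoc] using this
  rw [hs]
  have h1 : (L.eta H (x * σ) s : L.G) = (L.eta H x s : L.G) * (s.out⁻¹ * σ * s.out) := by
    simp only [LevelGroup.eta, hs]; group
  rw [h1]
  exact hφ s x _ _ σ (hle' hσ) _ (hle' (by simpa using (L.normal N' hN').conj_mem σ hσ s.out⁻¹))

namespace Formation

variable (F : Formation L C p)

/-- The value of the invariant. -/
def Val (z : L.G × L.G → C) (q : AddCircle (1 : ℚ)) : Prop :=
  ∃ m n : ℕ, m.Coprime p ∧ ∃ a : fixPts C (⊤ : Subgroup L.G),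
    Triv2 (⊤ : Subgroup L.G) (m • z - beta (F.chi n) (a : C)) ∧
      m • q = circ p n (F.recip n a) ∧ p ^ n • q = 0

variable {F}

theorem Val.lift {z : L.G × L.G → C} {q : AddCircle (1 : ℚ)} {m n N : ℕ} (h : n ≤ N)
    {a : fixPts C (⊤ : Subgroup L.G)}
    (e : Triv2 (⊤ : Subgroup L.G) (m • z - beta (F.chi n) (a : C)))
    (eq : m • q = circ p n (F.recip n a)) (hq : p ^ n • q = 0) :
    Triv2 (⊤ : Subgroup L.G) (m • z - beta (F.chi N) ((p ^ (N - n) • a : fixPts C ⊤) : C)) ∧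
      m • q = circ p N (F.recip N (p ^ (N - n) • a)) ∧ p ^ N • q = 0 := by
  refine ⟨?_, ?_, ?_⟩
  · have h1 := e.sub (F.beta_level h (H := (⊤ : Subgroup L.G)) a.2)
    rw [sub_sub, add_sub_cancel] at h1
    exact h1
  · rw [eq, map_nsmul, map_nsmul, circ_cast h, F.recip_cast n N h]
  · rw [← Nat.sub_add_cancel h, pow_add, mul_nsmul', hq, smul_zero]

theorem Val.unique {z : L.G × L.G → C} {q q' : AddCircle (1 : ℚ)} (h : F.Val z q)
    (h' : F.Val z q') : q = q' := by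
  obtain ⟨m, n, hm, a, e, eq, hq⟩ := h
  obtain ⟨m', n', hm', a', e', eq', hq'⟩ := h'
  obtain ⟨f, fq, g⟩ := Val.lift (le_max_left n n') e eq hq
  obtain ⟨f', fq', g'⟩ := Val.lift (le_max_right n n') e' eq' hq'
  set M := max n n'
  generalize p ^ (M - n) • a = b at f fq
  generalize p ^ (M - n') • a' = b' at f' fq'
  have h1 : Triv2 (⊤ : Subgroup L.G) (beta (F.chi M) ((m' • b - m • b' : fixPts C ⊤) : C)) := by
    have h2 := (f'.nsmul m).sub (f.nsmul m')
    rw [smul_sub, smul_sub, smul_comm m m' z, sub_sub_sub_cancel_left, ← beta_nsmul, ← beta_nsmul] at h2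
    rw [AddSubgroupClass.coe_sub, AddSubgroupClass.coe_nsmul, AddSubgroupClass.coe_nsmul]
    refine h2.congr fun g _ g' _ => ?_
    simp only [beta, Pi.sub_apply, smul_sub]
  have h2 := F.recH_eq_zero_of_cls (top_open L) h1
  rw [F.recH_top, map_sub, map_nsmul, map_nsmul, sub_eq_zero] at h2
  refine sub_eq_zero.mp (eq_zero_of_nsmul_coprime ((hm'.mul_left hm).pow_right M)
    (?_ : (m' * m) • (q - q') = 0) (by rw [smul_sub, g, g', sub_zero]))
  rw [smul_sub, mul_smul, fq, mul_comm m' m, mul_smul, fq', ← map_nsmul (circ p M),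
    ← map_nsmul (circ p M), h2, sub_self]

variable (F)

theorem exists_val (z : L.Z2 C) : ∃ q, F.Val z q := by
  obtain ⟨m, n, hm, a, ha, e⟩ := F.exists_beta (top_open L) (mem_Zc_top z.2)
  let u := ZMod.unitOfCoprime m (hm.pow_right n)
  refine ⟨circ p n (((u⁻¹ : (ZMod (p ^ n))ˣ) : ZMod (p ^ n)) * F.recip n ⟨a, ha⟩), m, n, hm,
    ⟨a, ha⟩, e, ?_, pow_nsmul_circ n _⟩
  rw [← map_nsmul, nsmul_eq_mul, ← mul_assoc, ← ZMod.coe_unitOfCoprime m (hm.pow_right n),
    Units.mul_inv, one_mul]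

/-- The invariant map. -/
def inv : L.Z2 C →+ AddCircle (1 : ℚ) :=
  AddMonoidHom.mk' (fun z => (F.exists_val z).choose) fun z z' => by
    obtain ⟨m, n, hm, a, e, eq, hq⟩ := (F.exists_val z).choose_spec
    obtain ⟨m', n', hm', a', e', eq', hq'⟩ := (F.exists_val z').choose_spec
    obtain ⟨f, fq, g⟩ := Val.lift (le_max_left n n') e eq hq
    obtain ⟨f', fq', g'⟩ := Val.lift (le_max_right n n') e' eq' hq'
    refine (F.exists_val (z + z')).choose_spec.unique ⟨m' * m, max n n', hm'.mul_left hm,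
      m' • (p ^ (max n n' - n) • a) + m • (p ^ (max n n' - n') • a'), ?_, ?_, ?_⟩
    · have h2 := (f.nsmul m').add (f'.nsmul m)
      refine h2.congr fun x _ y _ => ?_
      simp only [beta, Pi.sub_apply, Pi.add_apply, Pi.smul_apply, AddSubgroup.coe_add,
        AddSubgroupClass.coe_nsmul, smul_sub, smul_add, mul_smul, smul_comm m' m]
      rw [smul_comm (carry (F.chi (max n n')) x y) m', smul_comm (carry (F.chi (max n n')) x y) m]
      abel
    · rw [map_add, map_add, map_nsmul (F.recip (max n n')) m', map_nsmul (F.recip (max n n')) m,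
        map_nsmul (circ p (max n n')) m', map_nsmul (circ p (max n n')) m, ← fq, ← fq', smul_add]
      rw [mul_smul, mul_smul, smul_comm m m']
    · rw [smul_add, g, g', add_zero]

theorem inv_eq_of_val {z : L.Z2 C} {q : AddCircle (1 : ℚ)} (h : F.Val z q) : F.inv z = q :=
  (F.exists_val z).choose_spec.unique h

/-- The invariant of a class represented in the layer. -/
theorem nsmul_inv_eq (z : L.Z2 C) {m n : ℕ} (hm : m.Coprime p)
    {a : fixPts C (⊤ : Subgroup L.G)}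
    (e : Triv2 (⊤ : Subgroup L.G) (m • (z : L.G × L.G → C) - beta (F.chi n) (a : C))) :
    m • F.inv z = circ p n (F.recip n a) := by
  let u := ZMod.unitOfCoprime m (hm.pow_right n)
  have h1 : m • circ p n (((u⁻¹ : (ZMod (p ^ n))ˣ) : ZMod (p ^ n)) * F.recip n a) =
      circ p n (F.recip n a) := by
    rw [← map_nsmul, nsmul_eq_mul, ← mul_assoc, ← ZMod.coe_unitOfCoprime m (hm.pow_right n),
      Units.mul_inv, one_mul]
  rw [F.inv_eq_of_val ⟨m, n, hm, a, e, h1, pow_nsmul_circ n _⟩, h1]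

theorem inv_d₁ (z : L.Z2 C) (h : L.IsB2 C (z : L.G × L.G → C)) : F.inv z = 0 :=
  F.inv_eq_of_val ⟨1, 0, Nat.coprime_one_left p, 0, by
    rw [one_smul, AddSubgroup.coe_zero, beta_zero, sub_zero]
    exact isB2_iff.mp h, by rw [one_smul, map_zero, map_zero], smul_zero _⟩

theorem inv_inj (z : L.Z2 C) (h : L.IsB2 C (p • (z : L.G × L.G → C))) (h0 : F.inv z = 0) :
    L.IsB2 C (z : L.G × L.G → C) := by
  obtain ⟨m, n, hm, a, e, eq, -⟩ : F.Val z (F.inv z) := (F.exists_val z).choose_spec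
  rw [h0, smul_zero] at eq
  have h1 : F.recip n a = 0 := circ_injective n (eq.symm.trans (map_zero _).symm)
  have h2 := F.triv2_of_recH (top_open L) (a := a) (by rw [F.recH_top, h1])
  have h3 := e.add h2
  rw [sub_add_cancel] at h3
  exact isB2_iff.mpr (Triv2.of_coprime hm h3 (isB2_iff.mp h))

include F in
theorem h1 (H : Subgroup L.G) (hH : L.IsOpen H) (f : H → C) (hf : f ∈ (L.sub H).Z1 C)
    (h : p • f ∈ (L.sub H).B1 C) : f ∈ (L.sub H).B1 C := by
  classical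
  obtain ⟨⟨_, ⟨N, hN, rfl⟩, hc⟩, hcoc⟩ := hf
  obtain ⟨N', hN', hle, hle'⟩ := level_le_of_isOpen hH hN
  let f' : L.G → C := fun x => if hx : x ∈ H then f ⟨x, hx⟩ else 0
  have hf' : L.Const₁ f' := ⟨N', hN', fun g s hs => by
    by_cases hg : g ∈ H
    · simp only [f', dif_pos hg, dif_pos (mul_mem hg (hle hs))]
      exact hc ⟨g, hg⟩ ⟨s, hle hs⟩ (hle' hs)
    · simp only [f', dif_neg hg, dif_neg fun h => hg ((H.mul_mem_cancel_right (hle hs)).mp h)]⟩
  have hcoc' : Coc1 H f' := fun g hg g' hg' => by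
    simp only [f', dif_pos hg, dif_pos hg', dif_pos (mul_mem hg hg')]
    exact hcoc ⟨g, hg⟩ ⟨g', hg'⟩
  obtain ⟨m, hm, ht⟩ := F.h1_primary hH hf' hcoc'
  obtain ⟨c, hc'⟩ := h
  obtain ⟨d, hd⟩ := Triv1.of_coprime hm ht ⟨c, fun g hg => by
    rw [Pi.smul_apply]
    simp only [f', dif_pos hg]
    exact (congrFun hc' ⟨g, hg⟩).symm⟩
  exact ⟨d, funext fun g => by
    obtain ⟨g, hg⟩ := g
    have := hd g hg
    simp only [f', dif_pos hg] at this
    exact this.symm⟩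

/-- The transfer of a global class. -/
theorem cor_beta {H : Subgroup L.G} (hH : L.IsOpen H) {z : H × H → C} {m n : ℕ}
    {a : fixPts C (⊤ : Subgroup L.G)}
    (e : Triv2 H (m • extZero H z - beta (F.chi n) (a : C))) :
    Triv2 (⊤ : Subgroup L.G) (m • L.cor₂ C H z - beta (F.chi n) ((H.index • a : fixPts C ⊤) : C)) := by
  classical
  haveI := hH.finiteIndex
  haveI : Fintype (L.G ⧸ H) := Fintype.ofFinite _
  obtain ⟨b, hb, e⟩ := e
  obtain ⟨N₁, hN₁, hbN⟩ := hb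
  obtain ⟨N₂, hN₂, hχN⟩ := F.chi_const n
  set β := beta (F.chi n) (a : C)
  let φ : L.G ⧸ H → L.G → L.G → L.G → C := fun s x u e => u • b e + β (u, e) - β (x, s.out)
  have hB := const₁_sum_eta hH (L.inf _ _ hN₁ hN₂) φ fun s x u e σ hσ σ' hσ' => by
    simp only [φ, β, beta, carry, hbN e σ' hσ'.1, hχN e σ' hσ'.2, hχN x σ hσ.2]
  refine ⟨_, hB, fun g _ g' _ => ?_⟩
  have hz : ∀ s : L.G ⧸ H,
      m • z (L.eta H g (g' • s), L.eta H g' s) =
        β ((L.eta H g (g' • s) : L.G), (L.eta H g' s : L.G)) +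
          L.d₁ C b ((L.eta H g (g' • s) : L.G), (L.eta H g' s : L.G)) := fun s => by
    have h1 := e _ (L.eta H g (g' • s)).2 _ (L.eta H g' s).2
    rw [Pi.sub_apply, Pi.smul_apply, extZero_coe, sub_eq_iff_eq_add'] at h1
    exact h1
  let t : L.G ⧸ H → (⊤ : Subgroup L.G) := fun s => ⟨s.out, trivial⟩
  have hcor := cor_identity (⊤ : Subgroup L.G) t (z := β) (F.beta_mem_Zc (top_open L) a.2).2
    ⟨g, trivial⟩ ⟨g', trivial⟩
  have heta : ∀ (x : L.G) (s : L.G ⧸ H),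
      ((etaT (⊤ : Subgroup L.G) t ⟨x, trivial⟩ s : (⊤ : Subgroup L.G)) : L.G) = L.eta H x s :=
    fun x s => rfl
  have hd : ∀ s : L.G ⧸ H, ((g * g') • s).out •
      L.d₁ C b ((L.eta H g (g' • s) : L.G), (L.eta H g' s : L.G)) =
      g • ((g' • s).out • b (L.eta H g' s)) - ((g * g') • s).out • b (L.eta H (g * g') s) +
        ((g * g') • s).out • b (L.eta H g (g' • s)) := fun s => by
    rw [d₁_apply, smul_add, smul_sub, ← mul_smul, ← mul_smul]
    congr 2
    · congr 1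
      simp only [LevelGroup.eta, smul_smul]; group
    · congr 2
      simp only [LevelGroup.eta, smul_smul]; group
  rw [Pi.sub_apply, Pi.smul_apply, LevelGroup.cor₂, finsum_eq_sum_of_fintype, Finset.smul_sum]
  simp only [smul_comm m, hz, smul_add, Finset.sum_add_distrib, hd]
  have hcor' : ∑ s : L.G ⧸ H, ((g * g') • s).out •
      β ((L.eta H g (g' • s) : L.G), (L.eta H g' s : L.G)) =
      Fintype.card (L.G ⧸ H) • β (g, g') +
        (g • corB (⊤ : Subgroup L.G) t β ⟨g', trivial⟩ -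
          corB (⊤ : Subgroup L.G) t β ⟨g * g', trivial⟩ +
          corB (⊤ : Subgroup L.G) t β ⟨g, trivial⟩) := hcor
  rw [hcor', show beta (F.chi n) ((H.index • a : fixPts C ⊤) : C) (g, g') =
      Fintype.card (L.G ⧸ H) • β (g, g') by
    rw [AddSubgroupClass.coe_nsmul, beta_nsmul, Subgroup.index, Nat.card_eq_fintype_card]; rfl,
    d₁_apply]
  simp only [φ, Finset.sum_add_distrib, Finset.sum_sub_distrib, smul_add, smul_sub,
    Finset.smul_sum, corB]
  rw [show ∑ s : L.G ⧸ H, ((g * g') • s).out • b (L.eta H g (g' • s)) =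
      ∑ s : L.G ⧸ H, (g • s).out • b (L.eta H g s) by
    refine Eq.trans ?_ (Equiv.sum_comp (MulAction.toPerm g')
      (fun s : L.G ⧸ H => (g • s).out • b (L.eta H g s)))
    simp only [MulAction.toPerm_apply, smul_smul]]
  have hs : ∀ (x : L.G) (s : L.G ⧸ H), (⟨x, trivial⟩ : (⊤ : Subgroup L.G)) • s = x • s :=
    fun _ _ => rfl
  simp only [t, heta, hs]
  abel

theorem inv_cor_inj (H : Subgroup L.G) (hH : L.IsOpen H) (z : H × H → C)
    (hz : z ∈ (L.sub H).Z2 C) (hpz : (L.sub H).IsB2 C (p • z))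
    (hcor : L.cor₂ C H z ∈ L.Z2 C) (h0 : F.inv ⟨_, hcor⟩ = 0) : (L.sub H).IsB2 C z := by
  haveI := hH.finiteIndex
  refine sub_isB2_of_triv2 ?_
  set z' := extZero H z
  have hz' := extZero_mem_Zc hH hz
  have hpz' : Triv2 H (p • z') := (triv2_of_sub_isB2 hH hpz).congr fun g hg g' hg' => by
    simp [z', extZero, hg, hg']
  obtain ⟨m, n₀, hm, a₀, ha₀, e₀⟩ := F.exists_beta hH hz'
  obtain ⟨v, u, hu, hv⟩ := Nat.exists_eq_pow_mul_and_not_dvd H.index_ne_zero_of_finite p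
    hp.out.ne_one
  set n := max n₀ (v + 1) with hn
  let a : fixPts C H := p ^ (n - n₀) • ⟨a₀, ha₀⟩
  have e : Triv2 H (m • z' - beta (F.chi n) (a : C)) := by
    have := e₀.sub (F.beta_level (le_max_left n₀ (v + 1)) (H := H) ha₀)
    rw [sub_sub, add_sub_cancel] at this
    exact this
  set x := F.recH n hH a
  have hx : p • x = 0 := by
    rw [← map_nsmul]
    refine F.recH_eq_zero_of_cls hH ?_
    have := (hpz'.nsmul m).sub (e.nsmul p)
    rw [smul_comm m p, smul_sub, sub_sub_cancel, ← beta_nsmul] at this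
    exact this
  obtain ⟨g, hg⟩ := F.chi_surj n 1
  obtain ⟨a₁, ha₁⟩ := F.exists_recH n (top_open L) (Subgroup.mem_top g)
  rw [hg, F.recH_top] at ha₁
  have hn1 : v + 1 ≤ n := le_max_right _ _
  obtain ⟨j, hj⟩ : ∃ j : ℕ, x = ((j * p ^ (n - 1) : ℕ) : ZMod (p ^ n)) := by
    refine ⟨x.val / p ^ (n - 1), ?_⟩
    have h1 : p ^ n ∣ p * x.val := by
      rw [← ZMod.natCast_eq_zero_iff, Nat.cast_mul, ZMod.natCast_zmod_val, ← nsmul_eq_mul, hx]
    have h2 : p * p ^ (n - 1) ∣ p * x.val := by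
      rwa [show p * p ^ (n - 1) = p ^ n by rw [← pow_succ']; congr 1; omega]
    rw [Nat.div_mul_cancel (Nat.dvd_of_mul_dvd_mul_left hp.out.pos h2), ZMod.natCast_zmod_val]
  have hcop : u.Coprime (p ^ n) :=
    Nat.Coprime.pow_right _ ((Nat.Prime.coprime_iff_not_dvd hp.out).mpr hu).symm
  set uI := ((ZMod.unitOfCoprime u hcop)⁻¹ : (ZMod (p ^ n))ˣ)
  let g₁ : fixPts C (⊤ : Subgroup L.G) := ((uI : ZMod (p ^ n)).val * j * p ^ (n - 1 - v)) • a₁
  have hg₁ : F.recH n hH ⟨g₁, fixPts_anti le_top g₁.2⟩ = x := by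
    rw [F.recH_res n (top_open L) hH le_top g₁.2, Subtype.coe_eta, F.recH_top, map_nsmul, ha₁,
      Subgroup.relIndex_top_right, hv, hj, nsmul_eq_mul, nsmul_eq_mul, mul_one,
      show (n - 1) = v + (n - 1 - v) by omega]
    push_cast
    rw [ZMod.natCast_zmod_val, ← ZMod.coe_unitOfCoprime u hcop, pow_add]
    calc _ = (↑(ZMod.unitOfCoprime u hcop) * (uI : ZMod (p ^ n))) *
        ((j : ZMod (p ^ n)) * ((p : ZMod (p ^ n)) ^ v * (p : ZMod (p ^ n)) ^ (n - 1 - v))) := by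
          rw [show v + (n - 1 - v) - v = n - 1 - v by omega]; ring
      _ = _ := by rw [Units.mul_inv, one_mul]
  have e₁ : Triv2 H (m • z' - beta (F.chi n) (g₁ : C)) := by
    have h1 := F.triv2_of_recH hH (a := a - ⟨g₁, fixPts_anti le_top g₁.2⟩)
      (by rw [map_sub, hg₁, sub_self])
    refine (e.add h1).congr fun y _ y' _ => ?_
    simp [beta, smul_sub]
  have hc := F.cor_beta hH (m := m) e₁
  have h2 := F.nsmul_inv_eq ⟨_, hcor⟩ hm hc
  rw [h0, smul_zero] at h2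
  have h3 : F.recip n (H.index • g₁) = 0 := circ_injective n (h2.symm.trans (map_zero _).symm)
  have h4 : x = 0 := by
    rw [← hg₁, F.recH_res n (top_open L) hH le_top g₁.2, Subtype.coe_eta, F.recH_top,
      Subgroup.relIndex_top_right, ← map_nsmul, h3]
  have h5 := e.add (F.triv2_of_recH hH (a := a) h4)
  rw [sub_add_cancel] at h5
  exact Triv2.of_coprime hm h5 hpz'

/-- The class module of a formation. -/
def classModule : ClassModule L C p where
  smooth := F.smooth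
  inv := F.inv
  inv_d₁ := F.inv_d₁
  inv_inj := F.inv_inj
  h1 := F.h1
  inv_cor_inj := F.inv_cor_inj

end Formation

end Fermat.Agent.GD
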