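import Fermat.Agent.GD.Global.ClassFormation.Second.Index

/-!
# The second inequality in Kummer extensions of degree `p`
-/

set_option autoImplicit false
set_option linter.style.haveILetI false

noncomputable section

namespace Fermat.Agent.GD

open Fermat.Agent.Galois (GQ)

variable (p : ℕ) [Fact p.Prime]

/-- The second inequality in Kummer extensions of degree `p`. -/
theorem second_inequality (hp2 : p ≠ 2) (T : Finset Nat.Primes) (hT : ⟨p, Fact.out⟩ ∈ T)
    (H H' : Subgroup (LT T).G) (hH' : (LT T).IsOpen H') (hle : H' ≤ H)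
    (hn : (H'.subgroupOf H).Normal) (hidx : (H'.subgroupOf H).index = p) (hμ : FixesMu p H) :
    Nat.card (fixedClasses T H ⧸ classNorms T H H') = p := by
  classical
  have hp : p.Prime := Fact.out
  obtain ⟨N, hN, hNH'⟩ := id hH'
  obtain ⟨S, hTS, hbig⟩ := exists_isBig T N hN
  obtain ⟨h0, hleS⟩ := index_classNorms_le_big (T := S) (H := (show Subgroup GQ from H))
    (H' := (show Subgroup GQ from H')) hp2 (hTS hT) (isLevel_of_subset hTS hN) hNH' hle hn hidx
    (hbig S (Finset.Subset.refl S)) hμ
  have hdvd := index_classNorms_dvd (p := p) (H := (show Subgroup GQ from H))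
    (H' := (show Subgroup GQ from H')) hTS hH' hle hn hidx
  have hT0 : (classNorms T H H').index ≠ 0 := ne_zero_of_dvd_ne_zero h0 hdvd
  have hTle : (classNorms T H H').index ≤ p := (Nat.le_of_dvd (Nat.pos_of_ne_zero h0) hdvd).trans hleS
  haveI : Finite (fixedClasses T H ⧸ classNorms T H H') := Nat.finite_of_card_ne_zero hT0
  obtain ⟨c, hc⟩ : ∃ c, c ∉ classNorms T H H' := by
    by_contra h
    push Not at h
    exact (first_inequality p T hp2 H H' hH' hle hn hidx hμ).1 (eq_top_iff.mpr fun c _ => h c)
  have hord : addOrderOf (QuotientAddGroup.mk' (classNorms T H H') c) = p := by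
    refine addOrderOf_eq_prime ?_ fun h => hc ((QuotientAddGroup.eq_zero_iff c).mp h)
    rw [← map_nsmul]
    refine (QuotientAddGroup.eq_zero_iff _).mpr (mem_classNorms_of_normSet ?_)
    exact nsmul_mem_normSet hH' hle hidx c.2
  refine le_antisymm hTle ?_
  refine Nat.le_of_dvd Nat.card_pos ?_
  have h := addOrderOf_dvd_natCard (QuotientAddGroup.mk' (classNorms T H H') c)
  rwa [hord] at h

end Fermat.Agent.GD
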