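import Fermat.Agent.GD.Engine.Core

/-!
# Classes on open subgroups: restriction, corestriction and torsion
-/

set_option autoImplicit false
set_option linter.unusedSectionVars false

noncomputable section

namespace Fermat.Agent.GD

universe u w

variable {L : LevelGroup.{u}} {C : Type w} [AddCommGroup C] [DistribMulAction L.G C]

/-- The one-cocycle condition on a subgroup. -/
def Coc1 (H : Subgroup L.G) (f : L.G → C) : Prop :=
  ∀ g ∈ H, ∀ h ∈ H, f (g * h) = f g + g • f h

/-- A coboundary on a subgroup. -/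
def Triv1 (H : Subgroup L.G) (f : L.G → C) : Prop := ∃ c : C, ∀ g ∈ H, f g = g • c - c

/-- The two-cocycle condition on a subgroup. -/
def Coc2 (H : Subgroup L.G) (z : L.G × L.G → C) : Prop :=
  ∀ g ∈ H, ∀ h ∈ H, ∀ j ∈ H, g • z (h, j) + z (g, h * j) = z (g * h, j) + z (g, h)

/-- A coboundary at some level on a subgroup. -/
def Triv2 (H : Subgroup L.G) (z : L.G × L.G → C) : Prop :=
  ∃ b, L.Const₁ b ∧ ∀ g ∈ H, ∀ h ∈ H, z (g, h) = L.d₁ C b (g, h)

theorem d₁_apply (b : L.G → C) (g h : L.G) :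
    L.d₁ C b (g, h) = g • b h - b (g * h) + b g := rfl

theorem level_le_of_isOpen {H : Subgroup L.G} (hH : L.IsOpen H) {N : Subgroup L.G}
    (hN : L.IsLevel N) : ∃ N', L.IsLevel N' ∧ N' ≤ H ∧ N' ≤ N := by
  obtain ⟨N₀, h₀, hle⟩ := hH
  exact ⟨N₀ ⊓ N, L.inf _ _ h₀ hN, inf_le_left.trans hle, inf_le_right⟩

theorem LevelGroup.IsOpen.of_le {H K : Subgroup L.G} (h : L.IsOpen H) (hle : H ≤ K) :
    L.IsOpen K := ⟨h.choose, h.choose_spec.1, h.choose_spec.2.trans hle⟩

theorem LevelGroup.IsOpen.inf {H K : Subgroup L.G} (h : L.IsOpen H) (h' : L.IsOpen K) :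
    L.IsOpen (H ⊓ K) := by
  obtain ⟨N, hN, hle⟩ := h
  obtain ⟨N', hN', hle'⟩ := h'
  exact ⟨N ⊓ N', L.inf N N' hN hN', inf_le_inf hle hle'⟩

theorem LevelGroup.IsOpen.finiteIndex {H : Subgroup L.G} (h : L.IsOpen H) : H.FiniteIndex := by
  obtain ⟨N, hN, hle⟩ := h
  have := L.finiteIndex N hN
  exact Subgroup.finiteIndex_of_le hle

theorem const₁_of_subgroup {H : Subgroup L.G} (hH : L.IsOpen H) {f : L.G → C}
    (hf : L.Const₁ f) : L.Const₁ ((H : Set L.G).indicator f) := by
  classical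
  obtain ⟨N, hN, h⟩ := hf
  obtain ⟨N', hN', hle, hle'⟩ := level_le_of_isOpen hH hN
  refine ⟨N', hN', fun g s hs => ?_⟩
  have : g * s ∈ H ↔ g ∈ H := H.mul_mem_cancel_right (hle hs)
  simp only [Set.indicator, SetLike.mem_coe, this, h g s (hle' hs)]

theorem LevelGroup.Const₁.finite_range {f : L.G → C} (hf : L.Const₁ f) : (Set.range f).Finite := by
  obtain ⟨N, hN, h⟩ := hf
  have := L.finiteIndex N hN
  refine (Set.finite_range (fun s : L.G ⧸ N => f s.out)).subset ?_
  rintro _ ⟨g, rfl⟩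
  refine ⟨g, ?_⟩
  obtain ⟨s, hs⟩ := QuotientGroup.mk_out_eq_mul N g
  simp only [hs, h g s s.2]

theorem exists_level_fix (hC : L.Smooth C) {S : Set C} (hS : S.Finite) :
    ∃ N, L.IsLevel N ∧ ∀ c ∈ S, ∀ s ∈ N, s • c = c := by
  induction S, hS using Set.Finite.induction_on with
  | empty => exact ⟨_, L.exists_level.choose_spec, by simp⟩
  | @insert a S _ _ ih =>
    obtain ⟨N, hN, h⟩ := ih
    obtain ⟨N', hN', h'⟩ := hC a
    refine ⟨N ⊓ N', L.inf N N' hN hN', fun c hc s hs => ?_⟩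
    rcases hc with rfl | hc
    · exact h' s hs.2
    · exact h c hc s hs.1

theorem LevelGroup.Const₁.exists_fix (hC : L.Smooth C) {f : L.G → C} (hf : L.Const₁ f) :
    ∃ N, L.IsLevel N ∧ (∀ g, ∀ s ∈ N, f (g * s) = f g) ∧ ∀ g, ∀ s ∈ N, s • f g = f g := by
  obtain ⟨N', hN', h'⟩ := exists_level_fix hC hf.finite_range
  obtain ⟨N, hN, h⟩ := hf
  exact ⟨N ⊓ N', L.inf N N' hN hN', fun g s hs => h g s hs.1,
    fun g s hs => h' _ ⟨g, rfl⟩ s hs.2⟩

theorem LevelGroup.Const₁.d₁ (hC : L.Smooth C) {b : L.G → C} (hb : L.Const₁ b) :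
    L.Const₂ (L.d₁ C b) := by
  obtain ⟨N, hN, h, h'⟩ := hb.exists_fix hC
  refine ⟨N, hN, fun g g' s hs s' hs' => ?_⟩
  rw [d₁_apply, d₁_apply, h g s hs, h g' s' hs', mul_smul, h' g' s hs,
    show g * s * (g' * s') = g * g' * (g'⁻¹ * s * g' * s') by group,
    h _ _ (N.mul_mem (by simpa using! (L.normal N hN).conj_mem s hs g'⁻¹) hs')]

theorem Coc2.mono {H K : Subgroup L.G} {z : L.G × L.G → C} (hz : Coc2 H z) (h : K ≤ H) :
    Coc2 K z := fun g hg g' hg' j hj => hz g (h hg) g' (h hg') j (h hj)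

theorem Coc1.mono {H K : Subgroup L.G} {f : L.G → C} (hf : Coc1 H f) (h : K ≤ H) :
    Coc1 K f := fun g hg g' hg' => hf g (h hg) g' (h hg')

theorem coc2_d₁ (H : Subgroup L.G) (b : L.G → C) : Coc2 H (L.d₁ C b) := fun g _ h _ j _ => by
  simp only [d₁_apply, smul_add, smul_sub, mul_smul, mul_assoc]
  abel

theorem Coc1.one {H : Subgroup L.G} {f : L.G → C} (hf : Coc1 H f) : f 1 = 0 := by
  have h := hf 1 H.one_mem 1 H.one_mem
  rw [mul_one, one_smul, left_eq_add] at h
  exact h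

theorem Coc2.one_left {H : Subgroup L.G} {z : L.G × L.G → C} (hz : Coc2 H z) {g : L.G}
    (hg : g ∈ H) : z (1, g) = z (1, 1) := by
  have h := hz 1 H.one_mem 1 H.one_mem g hg
  rw [one_smul, one_mul, one_mul] at h
  exact add_left_cancel h

theorem Triv2.zero (H : Subgroup L.G) : Triv2 H (0 : L.G × L.G → C) :=
  ⟨0, L.const₁_const 0, fun g _ h _ => by simp [d₁_apply]⟩

theorem Triv2.add {H : Subgroup L.G} {z z' : L.G × L.G → C} (h : Triv2 H z) (h' : Triv2 H z') :
    Triv2 H (z + z') := by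
  obtain ⟨b, hb, e⟩ := h
  obtain ⟨b', hb', e'⟩ := h'
  exact ⟨b + b', hb.comp₂ L hb' (· + ·), fun g hg j hj => by
    rw [map_add, Pi.add_apply, Pi.add_apply, e g hg j hj, e' g hg j hj]⟩

theorem Triv2.neg {H : Subgroup L.G} {z : L.G × L.G → C} (h : Triv2 H z) : Triv2 H (-z) := by
  obtain ⟨b, hb, e⟩ := h
  exact ⟨-b, hb.comp₂ L hb (fun a _ => -a), fun g hg j hj => by
    rw [map_neg, Pi.neg_apply, Pi.neg_apply, e g hg j hj]⟩

theorem Triv2.sub {H : Subgroup L.G} {z z' : L.G × L.G → C} (h : Triv2 H z) (h' : Triv2 H z') :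
    Triv2 H (z - z') := sub_eq_add_neg z z' ▸ h.add h'.neg

theorem Triv2.nsmul {H : Subgroup L.G} {z : L.G × L.G → C} (h : Triv2 H z) :
    ∀ n : ℕ, Triv2 H (n • z)
  | 0 => by rw [zero_nsmul]; exact Triv2.zero H
  | n + 1 => by rw [succ_nsmul]; exact (h.nsmul n).add h

theorem Triv2.zsmul {H : Subgroup L.G} {z : L.G × L.G → C} (h : Triv2 H z) :
    ∀ n : ℤ, Triv2 H (n • z)
  | Int.ofNat n => by rw [Int.ofNat_eq_natCast, natCast_zsmul]; exact h.nsmul n
  | Int.negSucc n => by rw [negSucc_zsmul]; exact (h.nsmul _).neg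

theorem Triv2.mono {H K : Subgroup L.G} {z : L.G × L.G → C} (hz : Triv2 H z) (h : K ≤ H) :
    Triv2 K z := by
  obtain ⟨b, hb, e⟩ := hz
  exact ⟨b, hb, fun g hg j hj => e g (h hg) j (h hj)⟩

theorem Triv2.congr {H : Subgroup L.G} {z z' : L.G × L.G → C} (h : Triv2 H z)
    (e : ∀ g ∈ H, ∀ j ∈ H, z' (g, j) = z (g, j)) : Triv2 H z' := by
  obtain ⟨b, hb, e'⟩ := h
  exact ⟨b, hb, fun g hg j hj => (e g hg j hj).trans (e' g hg j hj)⟩

theorem triv2_d₁ (H : Subgroup L.G) {b : L.G → C} (hb : L.Const₁ b) : Triv2 H (L.d₁ C b) :=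
  ⟨b, hb, fun _ _ _ _ => rfl⟩

theorem Triv2.of_coprime {H : Subgroup L.G} {z : L.G × L.G → C} {m n : ℕ} (h : m.Coprime n)
    (hm : Triv2 H (m • z)) (hn : Triv2 H (n • z)) : Triv2 H z := by
  have e : z = m.gcdA n • m • z + m.gcdB n • n • z := by
    rw [← natCast_zsmul z m, ← natCast_zsmul z n, smul_smul, smul_smul, ← add_smul,
      show m.gcdA n * m + m.gcdB n * n = (m.gcd n : ℤ) by rw [Nat.gcd_eq_gcd_ab]; ring,
      h.gcd_eq_one, Nat.cast_one, one_zsmul]
  rw [e]
  exact (hm.zsmul _).add (hn.zsmul _)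

theorem Triv1.of_coprime {H : Subgroup L.G} {f : L.G → C} {m n : ℕ} (h : m.Coprime n)
    (hm : Triv1 H (m • f)) (hn : Triv1 H (n • f)) : Triv1 H f := by
  obtain ⟨c, hc⟩ := hm
  obtain ⟨c', hc'⟩ := hn
  refine ⟨m.gcdA n • c + m.gcdB n • c', fun g hg => ?_⟩
  calc f g = (m.gcdA n * m + m.gcdB n * n) • f g := by
        rw [show m.gcdA n * m + m.gcdB n * n = (m.gcd n : ℤ) by rw [Nat.gcd_eq_gcd_ab]; ring,
          h.gcd_eq_one, Nat.cast_one, one_zsmul]
    _ = m.gcdA n • (g • c - c) + m.gcdB n • (g • c' - c') := by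
        rw [← hc g hg, ← hc' g hg, add_smul, mul_smul, mul_smul, Pi.smul_apply, Pi.smul_apply,
          natCast_zsmul, natCast_zsmul]
    _ = _ := by rw [smul_add, smul_comm g, smul_comm g, smul_sub, smul_sub]; abel

/-! ## Corestriction -/

/-- The transfer element. -/
def etaT {S : Type*} (H : Subgroup L.G) [MulAction H S] (t : S → H) (g : H) (s : S) : H :=
  (t (g • s))⁻¹ * g * t s

/-- The cochain comparing corestriction after restriction with multiplication. -/
def corB {S : Type*} [Fintype S] (H : Subgroup L.G) [MulAction H S] (t : S → H)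
    (z : L.G × L.G → C) (x : H) : C :=
  ∑ s, (z ((t (x • s) : L.G), (etaT H t x s : L.G)) - z ((x : L.G), (t s : L.G)))

/-- Corestriction after restriction is multiplication by the number of cosets. -/
theorem cor_identity {S : Type*} [Fintype S] (H : Subgroup L.G) [MulAction H S] (t : S → H)
    {z : L.G × L.G → C} (hz : Coc2 H z) (g h : H) :
    ∑ s, (t ((g * h) • s) : L.G) • z ((etaT H t g (h • s) : L.G), (etaT H t h s : L.G)) =
      Fintype.card S • z ((g : L.G), (h : L.G)) +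
        ((g : L.G) • corB H t z h - corB H t z (g * h) + corB H t z g) := by
  let Z : H → H → C := fun a b => z ((a : L.G), (b : L.G))
  have cz : ∀ a b c : H, (a : L.G) • Z b c + Z a (b * c) = Z (a * b) c + Z a b :=
    fun a b c => hz a a.2 b b.2 c c.2
  have key : ∀ s, ((t ((g * h) • s) : H) : L.G) • Z (etaT H t g (h • s)) (etaT H t h s) =
      Z g h + (g : L.G) • (Z (t (h • s)) (etaT H t h s) - Z h (t s)) +
        (Z (t (g • (h • s))) (etaT H t g (h • s)) - Z g (t (h • s))) -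
        (Z (t ((g * h) • s)) (etaT H t (g * h) s) - Z (g * h) (t s)) := by
    intro s
    set u := t ((g * h) • s)
    set v := t (h • s)
    set e1 := etaT H t g (h • s)
    set e2 := etaT H t h s
    have h1 : u * e1 = g * v := by
      simp only [u, v, e1, etaT, smul_smul]; group
    have h2 : e1 * e2 = etaT H t (g * h) s := by
      simp only [e1, e2, etaT, smul_smul]; group
    have h3 : v * e2 = h * t s := by simp only [v, e2, etaT]; group
    have A := cz u e1 e2
    have B := cz g v e2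
    have D := cz g h (t s)
    rw [h1, h2] at A
    rw [h3] at B
    rw [show t (g • (h • s)) = u by simp only [u, smul_smul]]
    rw [smul_sub, eq_sub_of_add_eq A, show Z (g * v) e2 =
      (g : L.G) • Z v e2 + Z g (h * t s) - Z g v from eq_sub_of_add_eq B.symm,
      eq_sub_of_add_eq' D]
    abel
  show ∑ s, ((t ((g * h) • s) : H) : L.G) • Z (etaT H t g (h • s)) (etaT H t h s) = _
  simp only [key, Finset.sum_add_distrib, Finset.sum_sub_distrib, Finset.sum_const,
    Finset.card_univ, ← Finset.smul_sum]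
  rw [show ∑ x, Z (t (g • h • x)) (etaT H t g (h • x)) = ∑ x, Z (t (g • x)) (etaT H t g x) from
      Equiv.sum_comp (MulAction.toPerm h) (fun s => Z (t (g • s)) (etaT H t g s)),
    show ∑ x, Z g (t (h • x)) = ∑ x, Z g (t x) from
      Equiv.sum_comp (MulAction.toPerm h) (fun s => Z g (t s))]
  simp only [corB, Finset.sum_sub_distrib, smul_sub, Finset.smul_sum, Z, Subgroup.coe_mul]
  abel

/-- A class that dies on an open subgroup is killed by the index. -/
theorem nsmul_triv2_of_triv2 (hC : L.Smooth C) {H K : Subgroup L.G} (hK : L.IsOpen K)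
    (hKH : K ≤ H) {z : L.G × L.G → C} (hz : Coc2 H z) (hzc : L.Const₂ z) (hzK : Triv2 K z) :
    Triv2 H (K.relIndex H • z) := by
  classical
  obtain ⟨b, hb, e⟩ := hzK
  set z' := z - L.d₁ C b with hz'
  have hz'c : L.Const₂ z' := hzc.comp₂ L (hb.d₁ hC) (· - ·)
  have hz'coc : Coc2 H z' := fun g hg h hh j hj => by
    simp only [z', Pi.sub_apply, smul_sub]
    rw [sub_add_sub_comm, hz g hg h hh j hj, coc2_d₁ H b g hg h hh j hj, add_sub_add_comm]
  have hz'0 : ∀ x ∈ K, ∀ y ∈ K, z' (x, y) = 0 := fun x hx y hy => sub_eq_zero.mpr (e x hx y hy)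
  have := hK.finiteIndex
  let S := H ⧸ K.subgroupOf H
  have : Fintype S := Fintype.ofFinite _
  let t : S → H := Quotient.out
  have ht : ∀ (g : H) (s : S), (etaT H t g s : L.G) ∈ K := fun g s => by
    have h1 : ((t (g • s) : H) : S) = ((g * t s : H) : S) := by
      rw [← smul_eq_mul g (t s), ← MulAction.Quotient.smul_mk]
      simp only [t, QuotientGroup.out_eq']
    have h2 := QuotientGroup.eq.mp h1
    rw [Subgroup.mem_subgroupOf] at h2
    simpa [etaT, mul_assoc] using h2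
  set B : H → C := corB H t z'
  have hB : ∀ g h : H, Fintype.card S • z' ((g : L.G), (h : L.G)) =
      -((g : L.G) • B h - B (g * h) + B g) := fun g h => by
    have h1 := cor_identity H t hz'coc g h
    rw [Finset.sum_eq_zero fun s _ => by rw [hz'0 _ (ht _ _) _ (ht _ _), smul_zero]] at h1
    exact eq_neg_of_add_eq_zero_left h1.symm
  -- the cochain has a level
  obtain ⟨N, hN, hNz⟩ := hz'c
  obtain ⟨N', hN', hN'K, hN'N⟩ := level_le_of_isOpen hK hN
  have hBc : ∀ (x : H) (σ : L.G) (hσ : σ ∈ N'), B (x * ⟨σ, hKH (hN'K hσ)⟩) = B x := by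
    intro x σ hσ
    refine Finset.sum_congr rfl fun s _ => ?_
    have hs : (x * ⟨σ, hKH (hN'K hσ)⟩ : H) • s = x • s := by
      rw [mul_smul]
      congr 1
      induction s using QuotientGroup.induction_on with
      | H y =>
        rw [MulAction.Quotient.smul_mk, QuotientGroup.eq, Subgroup.mem_subgroupOf]
        refine hN'K ?_
        have hc := (L.normal N' hN').conj_mem _ (N'.inv_mem hσ) (y : L.G)⁻¹
        simpa [mul_assoc] using hc
    simp only [etaT, hs]
    congr 1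
    · have := hNz (t (x • s) : L.G) ((etaT H t x s : H) : L.G) 1 N.one_mem
        ((t s : L.G)⁻¹ * σ * t s)
        (hN'N (by simpa using! (L.normal N' hN').conj_mem σ hσ (t s : L.G)⁻¹))
      rw [mul_one] at this
      refine Eq.trans ?_ this
      congr 2
      simp [etaT, mul_assoc]
    · have := hNz (x : L.G) (t s : L.G) σ (hN'N hσ) 1 N.one_mem
      rw [mul_one] at this
      rw [← this]
      rfl
  let Bt : L.G → C := fun x => if hx : x ∈ H then B ⟨x, hx⟩ else 0
  have hBt : L.Const₁ Bt := ⟨N', hN', fun x σ hσ => by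
    by_cases hx : x ∈ H
    · have hxs : x * σ ∈ H := mul_mem hx (hKH (hN'K hσ))
      simp only [Bt, dif_pos hx, dif_pos hxs]
      exact hBc ⟨x, hx⟩ σ hσ
    · have hxs : x * σ ∉ H := fun h => hx ((H.mul_mem_cancel_right (hKH (hN'K hσ))).mp h)
      simp only [Bt, dif_neg hx, dif_neg hxs]⟩
  have hcard : K.relIndex H = Fintype.card S := by
    rw [Subgroup.relIndex, Subgroup.index, Nat.card_eq_fintype_card]
  have h1 : Triv2 H (K.relIndex H • z') := ⟨-Bt, hBt.comp₂ L hBt (fun a _ => -a), fun g hg h hh => by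
    rw [hcard, Pi.smul_apply, hB ⟨g, hg⟩ ⟨h, hh⟩, map_neg, Pi.neg_apply, d₁_apply]
    simp [Bt, hg, hh, mul_mem hg hh]⟩
  have := h1.add ((triv2_d₁ H hb).nsmul (K.relIndex H))
  rwa [← smul_add, hz', sub_add_cancel] at this

/-- A one-cocycle that dies on an open subgroup is killed by the index. -/
theorem nsmul_triv1_of_triv1 {H K : Subgroup L.G} (hK : L.IsOpen K) (hKH : K ≤ H)
    {f : L.G → C} (hf : Coc1 H f) (hfK : Triv1 K f) : Triv1 H (K.relIndex H • f) := by
  obtain ⟨c, hc⟩ := hfK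
  have := hK.finiteIndex
  let S := H ⧸ K.subgroupOf H
  have : Fintype S := Fintype.ofFinite _
  let F : H → C := fun x => f x - ((x : L.G) • c - c)
  have hF : ∀ x y : H, F (x * y) = F x + (x : L.G) • F y := fun x y => by
    simp only [F, Subgroup.coe_mul, hf x x.2 y y.2, mul_smul, smul_sub]
    abel
  have hFK : ∀ x : H, (x : L.G) ∈ K → F x = 0 := fun x hx => sub_eq_zero.mpr (hc x hx)
  refine ⟨K.relIndex H • c - ∑ s : S, F s.out, fun g hg => ?_⟩
  have key : ∑ s : S, (g • F s.out) = ∑ s : S, F s.out - Fintype.card S • F ⟨g, hg⟩ := by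
    have h1 : ∀ s : S, g • F s.out = F ((⟨g, hg⟩ : H) • s).out - F ⟨g, hg⟩ := fun s => by
      obtain ⟨k, hk⟩ : ∃ k : K.subgroupOf H, (⟨g, hg⟩ * s.out : H) =
          ((⟨g, hg⟩ : H) • s).out * k :=
        ⟨⟨((⟨g, hg⟩ : H) • s).out⁻¹ * (⟨g, hg⟩ * s.out), QuotientGroup.eq.mp (by
          rw [QuotientGroup.out_eq', ← smul_eq_mul, ← MulAction.Quotient.smul_mk,
            QuotientGroup.out_eq'])⟩, by simp⟩
      have h2 := hF ((⟨g, hg⟩ : H) • s).out k
      rw [hFK k k.2, smul_zero, add_zero, ← hk, hF] at h2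
      exact eq_sub_of_add_eq' h2
    simp only [h1, Finset.sum_sub_distrib, Finset.sum_const, Finset.card_univ]
    rw [← Equiv.sum_comp (MulAction.toPerm (⟨g, hg⟩ : H)) (fun s : S => F s.out)]
    rfl
  rw [Pi.smul_apply, smul_sub, Finset.smul_sum, key, Subgroup.relIndex, Subgroup.index,
    Nat.card_eq_fintype_card, smul_comm g (Fintype.card S) c]
  simp only [F, smul_sub]
  abel

/-- Every class is torsion. -/
theorem exists_level_triv2 (hC : L.Smooth C) {H : Subgroup L.G} (hH : L.IsOpen H)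
    {z : L.G × L.G → C} (hz : L.Const₂ z) : ∃ N, L.IsLevel N ∧ N ≤ H ∧ Triv2 N z := by
  obtain ⟨N, hN, h⟩ := hz
  obtain ⟨N₁, hN₁, hfix⟩ := hC (z (1, 1))
  obtain ⟨N', hN', hle, hle'⟩ := level_le_of_isOpen hH (L.inf N N₁ hN hN₁)
  refine ⟨N', hN', hle, fun _ => z (1, 1), L.const₁_const _, fun g hg j hj => ?_⟩
  rw [d₁_apply, hfix g (hle' hg).2, sub_self, zero_add]
  simpa using h 1 1 g (hle' hg).1 j (hle' hj).1

theorem exists_level_triv1 {H : Subgroup L.G} (hH : L.IsOpen H) {f : L.G → C} (hfc : L.Const₁ f)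
    (hf : Coc1 H f) : ∃ N, L.IsLevel N ∧ N ≤ H ∧ Triv1 N f := by
  obtain ⟨N, hN, h⟩ := hfc
  obtain ⟨N', hN', hle, hle'⟩ := level_le_of_isOpen hH hN
  refine ⟨N', hN', hle, 0, fun g hg => ?_⟩
  rw [smul_zero, sub_zero, ← one_mul g, h 1 g (hle' hg), hf.one]

/-! ## Groups of classes -/

variable (L C) in
/-- The cocycles of level on a subgroup. -/
def Zc (H : Subgroup L.G) : AddSubgroup (L.G × L.G → C) where
  carrier := {z | L.Const₂ z ∧ Coc2 H z}
  zero_mem' := ⟨L.const₂_const 0, fun g _ h _ j _ => by simp⟩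
  add_mem' := fun {a b} ha hb => ⟨ha.1.comp₂ L hb.1 (· + ·), fun g hg h hh j hj => by
    simp only [Pi.add_apply, smul_add]
    rw [add_add_add_comm, ha.2 g hg h hh j hj, hb.2 g hg h hh j hj, add_add_add_comm]⟩
  neg_mem' := fun {a} ha => ⟨ha.1.comp₂ L ha.1 (fun x _ => -x), fun g hg h hh j hj => by
    simp only [Pi.neg_apply, smul_neg]
    rw [← neg_add, ha.2 g hg h hh j hj, neg_add]⟩

variable (L C) in
/-- The coboundaries on a subgroup. -/
def Bc (H : Subgroup L.G) : AddSubgroup (L.G × L.G → C) where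
  carrier := {z | Triv2 H z}
  zero_mem' := Triv2.zero H
  add_mem' := fun ha hb => Triv2.add ha hb
  neg_mem' := fun ha => Triv2.neg ha

variable (L C) in
/-- The classes on a subgroup. -/
abbrev Cls (H : Subgroup L.G) : Type (max u w) := Zc L C H ⧸ (Bc L C H).addSubgroupOf (Zc L C H)

/-- The class of a cocycle. -/
def mkCls {H : Subgroup L.G} : Zc L C H →+ Cls L C H := QuotientAddGroup.mk' _

theorem mkCls_eq_zero {H : Subgroup L.G} {z : Zc L C H} :
    mkCls z = 0 ↔ Triv2 H (z : L.G × L.G → C) := QuotientAddGroup.eq_zero_iff z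

/-- Restriction of classes. -/
def resCls {H K : Subgroup L.G} (h : K ≤ H) : Cls L C H →+ Cls L C K :=
  QuotientAddGroup.map _ _
    (AddSubgroup.inclusion fun _ hz => ⟨hz.1, Coc2.mono hz.2 h⟩) fun _ hz => Triv2.mono hz h

theorem resCls_mk {H K : Subgroup L.G} (h : K ≤ H) (z : Zc L C H) :
    resCls h (mkCls z) = mkCls ⟨z.1, z.2.1, z.2.2.mono h⟩ := rfl

/-- The classes dying on a subgroup. -/
def Kr {H K : Subgroup L.G} (h : K ≤ H) : AddSubgroup (Cls L C H) := (resCls h).ker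

theorem mem_Kr {H K : Subgroup L.G} (h : K ≤ H) {z : Zc L C H} :
    mkCls z ∈ Kr h ↔ Triv2 K (z : L.G × L.G → C) := by
  rw [Kr, AddMonoidHom.mem_ker, resCls_mk, mkCls_eq_zero]

/-- Dévissage of the classes dying on a subgroup. -/
theorem card_Kr_le {H K J : Subgroup L.G} (hKH : K ≤ H) (hJK : J ≤ K)
    [Finite (Kr (C := C) hKH)] [Finite (Kr (C := C) hJK)] :
    Finite (Kr (C := C) (hJK.trans hKH)) ∧
      Nat.card (Kr (C := C) (hJK.trans hKH)) ≤
        Nat.card (Kr (C := C) hKH) * Nat.card (Kr (C := C) hJK) := by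
  let f : Kr (C := C) (hJK.trans hKH) →+ Kr (C := C) hJK :=
    ((resCls hKH).comp (AddSubgroup.subtype _)).codRestrict _ fun x => by
      obtain ⟨x, hx⟩ := x
      obtain ⟨z, rfl⟩ := QuotientAddGroup.mk'_surjective _ x
      exact (mem_Kr _).mpr ((mem_Kr (z := z) _).mp hx)
  let i : f.ker → Kr (C := C) hKH := fun x => ⟨x.1.1, congrArg Subtype.val x.2⟩
  have hi : Function.Injective i := fun x y h => Subtype.ext (Subtype.ext (congrArg Subtype.val h :))
  have : Finite f.ker := Finite.of_injective i hi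
  have : Finite (Kr (C := C) (hJK.trans hKH) ⧸ f.ker) :=
    Finite.of_injective _ (QuotientAddGroup.kerLift_injective f)
  refine ⟨(AddMonoidHom.finite_iff_finite_ker_range f).mpr ⟨inferInstance, inferInstance⟩, ?_⟩
  rw [AddSubgroup.card_eq_card_quotient_mul_card_addSubgroup f.ker, mul_comm (Nat.card (Kr hKH))]
  exact Nat.mul_le_mul (Nat.card_le_card_of_injective _ (QuotientAddGroup.kerLift_injective f))
    (Nat.card_le_card_of_injective i hi)

end Fermat.Agent.GD
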