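import Fermat.Agent.GD.Global.ClassFormation.Reciprocity
import Fermat.Agent.GD.Global.ClassFormation.Coho

/-!
# Trivial classes and unit cocycles at unramified places
-/

set_option autoImplicit false
set_option linter.unusedSectionVars false
set_option linter.style.haveILetI false

noncomputable section

namespace Fermat.Agent.GD

open Fermat.Agent.Galois (GQ)

local notation "ℚb" => AlgebraicClosure ℚ

variable {T T' : Finset Nat.Primes}

theorem level_mono (h : T ⊆ T') {N : Subgroup GQ} (hN : (LT T).IsLevel N) : (LT T').IsLevel N := by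
  obtain ⟨F, hF, e, hn⟩ := hN
  exact ⟨F, hF.mono h, e, hn⟩

/-- Splitting of a trivial class: the principal part is read off at the archimedean place. -/
theorem classKer_split {w : idele T} (hw : w ∈ classKer T) :
    (∀ g : GQ, w.1 none g = g • w.1 none 1) ∧ diag (w.1 none 1) ∈ principal T ∧
      (fun v g => w.1 v g / w.1 none g) ∈ unitsOut T := by
  rw [classKer, Subgroup.mem_subgroupOf, Subgroup.mem_sup] at hw
  obtain ⟨_, ⟨x, hx, rfl⟩, u, hu, e⟩ := hw
  have hnone : ∀ g : GQ, w.1 none g = g • x := fun g => by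
    rw [← e, Pi.mul_apply, Pi.mul_apply, hu.1, mul_one]; rfl
  have hx1 : w.1 none 1 = x := by rw [hnone, one_smul]
  refine ⟨fun g => by rw [hx1, hnone], hx1 ▸ ⟨x, hx, rfl⟩, ?_⟩
  convert hu using 1
  funext v g
  rw [hnone, ← e, Pi.mul_apply, Pi.mul_apply]
  exact mul_div_cancel_left _ _

/-- A trivial class with trivial archimedean component is trivial on `T`. -/
theorem classKer_apply_eq_one {w : idele T} (hw : w ∈ classKer T) (h : w.1 none 1 = 1)
    {q : Nat.Primes} (hq : q ∈ T) (g : GQ) : w.1 (some q) g = 1 := by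
  obtain ⟨h1, -, h2⟩ := classKer_split hw
  have h3 := h2.2.1 q hq g
  simp only [h1 g, h, smul_one, div_one] at h3
  exact h3

theorem smooth_idele (T : Finset Nat.Primes) : (LT T).Smooth (Additive (idele T)) := by
  intro f
  obtain ⟨-, ⟨N, hN, h⟩, -⟩ := f.toMul.2
  exact ⟨N, hN, fun s hs => congrArg Additive.ofMul
    (Subtype.ext (funext fun v => funext fun g => h v g s hs))⟩

/-- Unit cocycles supported at unramified places have trivial classes. -/
theorem triv2_units (hTT : T ⊆ T') (u : (LT T').G × (LT T').G → idele T')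
    (hnone : ∀ y g, (u y).1 none g = 1)
    (hout : ∀ y, ∀ q : Nat.Primes, (q ∈ T ∨ q ∉ T') → ∀ g, (u y).1 (some q) g = 1)
    (hU : ∀ y q g, (u y).1 (some q) g ∈ (placeAt q).unitGroup)
    {N : Subgroup GQ} (hN : (LT T).IsLevel N)
    (hc : ∀ (g g' : (LT T').G) (s s' : (LT T').G), s ∈ N → s' ∈ N → u (g * s, g' * s') = u (g, g'))
    (hv : ∀ y v g, ∀ s ∈ N, (u y).1 v (g * s) = (u y).1 v g)
    (hcoc : Coc2 (⊤ : Subgroup (LT T').G) fun y => toClass T' (u y)) :
    Triv2 (⊤ : Subgroup (LT T').G) fun y => toClass T' (u y) := by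
  classical
  have hcocI : ∀ g h j : (LT T').G, g • u (h, j) * u (g, h * j) = u (g * h, j) * u (g, h) := by
    intro g h j
    have hker : g • u (h, j) * u (g, h * j) / (u (g * h, j) * u (g, h)) ∈ classKer T' := by
      rw [← toClass_eq_iff, toClass_mul, toClass_mul, ← smul_toClass]
      exact hcoc g trivial h trivial j trivial
    refine div_eq_one.mp (Subtype.ext (funext fun v => funext fun x => ?_))
    show _ = (1 : ℚbˣ)
    have key : ∀ v x, (g • u (h, j) * u (g, h * j) / (u (g * h, j) * u (g, h))).1 v x =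
        (u (h, j)).1 v (x * (show GQ from g)) * (u (g, h * j)).1 v x /
          ((u (g * h, j)).1 v x * (u (g, h)).1 v x) := fun v x => rfl
    rcases v with _ | q
    · rw [key, hnone, hnone, hnone, hnone, mul_one, div_one]
    by_cases hq : q ∈ T'
    · exact classKer_apply_eq_one hker
        (by rw [key, hnone, hnone, hnone, hnone, mul_one, div_one]) hq x
    · rw [key, hout _ q (Or.inr hq), hout _ q (Or.inr hq), hout _ q (Or.inr hq),
        hout _ q (Or.inr hq), mul_one, div_one]
  have hN' := level_mono hTT hN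
  set tp : Subgroup (LT T').G := ⊤
  let zf : ((LT T').sub tp).G × ((LT T').sub tp).G → Additive (idele T') :=
    fun y => Additive.ofMul (u ((y.1 : tp).1, (y.2 : tp).1))
  have hzf : zf ∈ ((LT T').sub tp).Z2 (Additive (idele T')) :=
    ⟨⟨_, ⟨N, hN', rfl⟩, fun g g' s hs s' hs' => congrArg Additive.ofMul (hc g.1 g'.1 s.1 s'.1 hs hs')⟩,
      fun g h j => congrArg Additive.ofMul (hcocI g.1 h.1 j.1)⟩
  obtain ⟨b, ⟨_, ⟨M, hM, rfl⟩, hb⟩, e⟩ := idele_h2_loc T' tp (top_open (LT T')) ⟨zf, hzf⟩ fun v g => by
    by_cases hv' : ∃ q ∈ T', q ∉ T ∧ v = some q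
    · obtain ⟨q, -, hqT, rfl⟩ := hv'
      obtain ⟨F, hF, hNF, hNn⟩ := hN
      haveI := hF.1
      let NL : Subgroup (LD (some q)).G := N.subgroupOf (decomp (some q))
      have hNL : (LD (some q)).IsLevel NL := ⟨N, ⟨F, hF.1, hNF, hNn⟩, rfl⟩
      have hI : ∀ s : (LD (some q)).G, s.1 ∈ (placeAt q).inertiaSubgroupIn ℚ → s ∈ NL := fun s hs =>
        Subgroup.mem_subgroupOf.mpr (by
          rw [hNF]; exact hF.2 q hqT (placeAt q) (placeAt_liesOverPrime q) hs)
      set H' := tp.comap (conjHom T' (some q) g)
      have hconjN : ∀ s : (LD (some q)).G, s ∈ NL → (conjHom T' (some q) g s : GQ) ∈ N := fun s hs => by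
        have := hNn.conj_mem _ (Subgroup.mem_subgroupOf.mp hs) g⁻¹
        simpa [conjHom] using! this
      let c : H' × H' → ℚbˣ := fun y =>
        (u (conjHom T' (some q) g y.1.1, conjHom T' (some q) g y.2.1)).1 (some q) g
      have hact : ∀ (x : (LD (some q)).G) (w : idele T'),
          w.1 (some q) (g * (show GQ from conjHom T' (some q) g x)) = x • w.1 (some q) g := fun x w => by
        have h1 := w.2.1 (some q) _ (show decomp (some q) from x).2 g
        refine Eq.trans (congrArg (w.1 (some q)) ?_) h1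
        show g * (g⁻¹ * (show decomp (some q) from x).1 * g⁻¹⁻¹) = _
        group
      obtain ⟨b, -, hbN, hb⟩ := units_h2 q H' NL hNL hI (fun s _ => trivial) c
        (fun x y z => by
          show x.1 • (u (conjHom T' (some q) g y.1, conjHom T' (some q) g z.1)).1 (some q) g *
            (u (conjHom T' (some q) g x.1, conjHom T' (some q) g (y.1 * z.1))).1 (some q) g =
            (u (conjHom T' (some q) g (x.1 * y.1), conjHom T' (some q) g z.1)).1 (some q) g *
            (u (conjHom T' (some q) g x.1, conjHom T' (some q) g y.1)).1 (some q) g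
          rw [map_mul, map_mul, ← hact]
          exact congrArg (fun w : idele T' => w.1 (some q) g) (hcocI _ _ _))
        (fun x y s t hs ht => congrArg (fun w : idele T' => w.1 (some q) g)
          ((congrArg u (Prod.ext (map_mul (conjHom T' (some q) g) x.1 s.1)
            (map_mul (conjHom T' (some q) g) y.1 t.1))).trans
              (hc _ _ _ _ (hconjN _ hs) (hconjN _ ht))))
        (fun y => hU _ q g)
        (fun y s hs => by
          show s • (u _).1 (some q) g = (u _).1 (some q) g
          rw [← hact]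
          exact hv _ _ g _ (hconjN s hs))
      refine ⟨fun x => Additive.ofMul (b x), ⟨_, ⟨NL, hNL, rfl⟩,
        fun x s hs => congrArg Additive.ofMul (hbN x s hs)⟩, funext fun y => ?_⟩
      exact congrArg Additive.ofMul (hb y.1 y.2).symm
    · push Not at hv'
      refine ⟨0, LevelGroup.const₁_const _ 0, funext fun y => ?_⟩
      rw [map_zero, Pi.zero_apply]
      show (0 : Additive ℚbˣ) = Additive.ofMul _
      refine (congrArg Additive.ofMul ?_).symm
      show (u _).1 v g = 1
      rcases v with _ | q
      · exact hnone _ g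
      · exact hout _ q (by by_cases h1 : q ∈ T'
                           · exact Or.inl (by_contra fun h2 => hv' q h1 h2 rfl)
                           · exact Or.inr h1) g
  refine ⟨fun x => toClassHom T' (b ⟨x, trivial⟩), ⟨M, hM, fun x s hs => congrArg (toClassHom T')
    (hb ⟨x, trivial⟩ ⟨s, trivial⟩ hs)⟩, fun x _ y _ => ?_⟩
  show toClass T' (u (x, y)) = _
  have h1 := congrArg (toClassHom T') (congrFun e (⟨x, trivial⟩, ⟨y, trivial⟩))
  rw [LevelGroup.d₁] at h1
  simp only [AddMonoidHom.coe_mk, ZeroHom.coe_mk, map_add, map_sub] at h1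
  exact h1.symm

end Fermat.Agent.GD
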