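import Fermat.Agent.GD.Global.ClassFormation.Coho

/-!
# Classes of a cyclic layer
-/

set_option autoImplicit false
set_option linter.unusedSectionVars false

noncomputable section

namespace Fermat.Agent.GD

universe u w

variable {L : LevelGroup.{u}} {C : Type w} [AddCommGroup C] [DistribMulAction L.G C]

variable (C) in
/-- The fixed points of a subgroup. -/
def fixPts (H : Subgroup L.G) : AddSubgroup C where
  carrier := {c | ∀ h ∈ H, h • c = c}
  zero_mem' := fun h _ => smul_zero h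
  add_mem' := fun hx hy h hh => by rw [smul_add, hx h hh, hy h hh]
  neg_mem' := fun hx h hh => by rw [smul_neg, hx h hh]

theorem fixPts_anti {H K : Subgroup L.G} (h : K ≤ H) : fixPts C H ≤ fixPts C K :=
  fun _ hc g hg => hc g (h hg)

/-- The norm from a subgroup. -/
def nm (H K : Subgroup L.G) (y : C) : C :=
  ∑ᶠ s : H ⧸ K.subgroupOf H, ((s.out : H) : L.G) • y

theorem finite_quot {H K : Subgroup L.G} (hK : L.IsOpen K) : Finite (H ⧸ K.subgroupOf H) :=
  have := hK.finiteIndex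
  inferInstance

theorem nm_eq_sum {H K : Subgroup L.G} {S : Type*} [Fintype S] (t : S → H)
    (ht : Function.Bijective fun s => (t s : H ⧸ K.subgroupOf H)) {y : C}
    (hy : y ∈ fixPts C K) : nm H K y = ∑ s, (t s : L.G) • y := by
  have : Finite (H ⧸ K.subgroupOf H) := Finite.of_surjective _ ht.surjective
  have : Fintype (H ⧸ K.subgroupOf H) := Fintype.ofFinite _
  rw [nm, finsum_eq_sum_of_fintype,
    ← (Equiv.ofBijective _ ht).sum_comp (fun s => ((s.out : H) : L.G) • y)]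
  refine Finset.sum_congr rfl fun s _ => ?_
  obtain ⟨k, hk⟩ := QuotientGroup.mk_out_eq_mul (K.subgroupOf H) (t s)
  show (((t s : H ⧸ K.subgroupOf H).out : H) : L.G) • y = _
  rw [hk, Subgroup.coe_mul, mul_smul, hy _ (Subgroup.mem_subgroupOf.mp k.2)]

theorem nm_add {H K : Subgroup L.G} (hK : L.IsOpen K) (y y' : C) :
    nm H K (y + y') = nm H K y + nm H K y' := by
  have := finite_quot (H := H) hK
  have : Fintype (H ⧸ K.subgroupOf H) := Fintype.ofFinite _
  simp only [nm, finsum_eq_sum_of_fintype, smul_add, Finset.sum_add_distrib]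

theorem nm_nsmul {H K : Subgroup L.G} (hK : L.IsOpen K) (n : ℕ) (y : C) :
    nm H K (n • y) = n • nm H K y := by
  have := finite_quot (H := H) hK
  have : Fintype (H ⧸ K.subgroupOf H) := Fintype.ofFinite _
  simp only [nm, finsum_eq_sum_of_fintype, Finset.smul_sum, smul_comm n]

theorem nm_mem {H K : Subgroup L.G} (hK : L.IsOpen K) {y : C} (hy : y ∈ fixPts C K) :
    nm H K y ∈ fixPts C H := by
  intro g hg
  have := finite_quot (H := H) hK
  have : Fintype (H ⧸ K.subgroupOf H) := Fintype.ofFinite _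
  conv_lhs => rw [nm, finsum_eq_sum_of_fintype, Finset.smul_sum]
  rw [nm_eq_sum (fun s : H ⧸ K.subgroupOf H => ⟨g, hg⟩ * s.out) ?_ hy]
  · simp only [Subgroup.coe_mul, mul_smul]
  · refine ⟨fun a b h => ?_, fun a => ⟨(((⟨g, hg⟩ : H)⁻¹ * a.out : H) : H ⧸ K.subgroupOf H), ?_⟩⟩
    · rw [← QuotientGroup.out_eq' a, ← QuotientGroup.out_eq' b, QuotientGroup.eq]
      simpa [mul_assoc] using QuotientGroup.eq.mp h
    · obtain ⟨k, hk⟩ := QuotientGroup.mk_out_eq_mul (K.subgroupOf H) ((⟨g, hg⟩ : H)⁻¹ * a.out)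
      conv_rhs => rw [← QuotientGroup.out_eq' a]
      rw [QuotientGroup.eq, hk]
      simp [mul_assoc]

theorem nm_of_fixed {H K : Subgroup L.G} (hK : L.IsOpen K) {y : C} (hy : y ∈ fixPts C H) :
    nm H K y = K.relIndex H • y := by
  have := finite_quot (H := H) hK
  have : Fintype (H ⧸ K.subgroupOf H) := Fintype.ofFinite _
  rw [nm, finsum_eq_sum_of_fintype, Finset.sum_congr rfl fun s _ => hy _ s.out.2, Finset.sum_const,
    Finset.card_univ, Subgroup.relIndex, Subgroup.index, Nat.card_eq_fintype_card]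

theorem nm_trans {H K J : Subgroup L.G} (hKH : K ≤ H) (hJK : J ≤ K) (hK : L.IsOpen K)
    (hJ : L.IsOpen J) {y : C} (hy : y ∈ fixPts C J) : nm H K (nm K J y) = nm H J y := by
  have := finite_quot (H := H) hK
  have : Fintype (H ⧸ K.subgroupOf H) := Fintype.ofFinite _
  have := finite_quot (H := K) hJ
  have : Fintype (K ⧸ J.subgroupOf K) := Fintype.ofFinite _
  let t : (H ⧸ K.subgroupOf H) × (K ⧸ J.subgroupOf K) → H := fun x =>
    x.1.out * Subgroup.inclusion hKH x.2.out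
  rw [nm_eq_sum t ?_ hy, Fintype.sum_prod_type, nm, finsum_eq_sum_of_fintype]
  · refine Finset.sum_congr rfl fun s _ => ?_
    rw [nm, finsum_eq_sum_of_fintype, Finset.smul_sum]
    refine Finset.sum_congr rfl fun u _ => ?_
    rw [← mul_smul]
    rfl
  · refine ⟨fun a b h => ?_, fun a => ?_⟩
    · have h0 := QuotientGroup.eq.mp h
      rw [Subgroup.mem_subgroupOf] at h0
      have h1 : a.1 = b.1 := by
        rw [← QuotientGroup.out_eq' a.1, ← QuotientGroup.out_eq' b.1, QuotientGroup.eq,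
          Subgroup.mem_subgroupOf]
        have h2 := mul_mem (mul_mem (a.2.out : K).2 (hJK h0)) (inv_mem (b.2.out : K).2)
        simpa [t, mul_assoc] using h2
      refine Prod.ext h1 ?_
      rw [← QuotientGroup.out_eq' a.2, ← QuotientGroup.out_eq' b.2, QuotientGroup.eq,
        Subgroup.mem_subgroupOf]
      simpa [t, h1, mul_assoc] using h0
    · let s : H ⧸ K.subgroupOf H := (a.out : H)
      have hs : s.out⁻¹ * a.out ∈ K.subgroupOf H := QuotientGroup.eq.mp (by simp [s])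
      let k0 : K := ⟨_, hs⟩
      obtain ⟨j, hj⟩ := QuotientGroup.mk_out_eq_mul (J.subgroupOf K) k0
      refine ⟨(s, (k0 : K ⧸ J.subgroupOf K)), ?_⟩
      show ((t (s, (k0 : K ⧸ J.subgroupOf K)) : H) : H ⧸ J.subgroupOf H) = a
      conv_rhs => rw [← QuotientGroup.out_eq' a]
      rw [QuotientGroup.eq, Subgroup.mem_subgroupOf]
      have h2 : ((j : K) : L.G)⁻¹ ∈ J := inv_mem j.2
      simp only [t, hj]
      simpa [k0, mul_assoc] using h2

/-- A character with cyclic image on a subgroup. -/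
structure IsCyc (H H' : Subgroup L.G) (d : ℕ) (χ : L.G → ZMod d) : Prop where
  add : ∀ g ∈ H, ∀ h ∈ H, χ (g * h) = χ g + χ h
  ker : ∀ g ∈ H, χ g = 0 ↔ g ∈ H'
  surj : ∃ σ ∈ H, χ σ = 1
  le : H' ≤ H
  isOpen : L.IsOpen H'
  const : L.Const₁ χ

/-- The carry of a character. -/
def carry {d : ℕ} (χ : L.G → ZMod d) (g h : L.G) : ℕ := ((χ g).val + (χ h).val) / d

/-- The class of a fixed point. -/
def beta {d : ℕ} (χ : L.G → ZMod d) (a : C) : L.G × L.G → C := fun y => carry χ y.1 y.2 • a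

theorem beta_nsmul {d : ℕ} (χ : L.G → ZMod d) (n : ℕ) (a : C) :
    beta χ (n • a) = n • beta χ a := funext fun y => by
  show carry χ y.1 y.2 • n • a = n • carry χ y.1 y.2 • a
  rw [smul_comm]

theorem beta_add {d : ℕ} (χ : L.G → ZMod d) (a a' : C) :
    beta χ (a + a') = beta χ a + beta χ a' := funext fun _ => smul_add _ a a'

theorem beta_zero {d : ℕ} (χ : L.G → ZMod d) : beta χ (0 : C) = 0 := funext fun _ => smul_zero _

theorem carry_assoc (d a b c : ℕ) :
    (a + b) / d + ((a + b) % d + c) / d = (a + b + c) / d := by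
  rcases Nat.eq_zero_or_pos d with rfl | hd
  · simp
  conv_rhs => rw [← Nat.div_add_mod (a + b) d, add_assoc, Nat.mul_add_div hd]

namespace IsCyc

variable {H H' : Subgroup L.G} {d : ℕ} [NeZero d] {χ : L.G → ZMod d} (h : IsCyc H H' d χ)

include h

theorem map_one : χ 1 = 0 := (h.ker 1 H.one_mem).mpr H'.one_mem

theorem map_pow {σ : L.G} (hσ : σ ∈ H) (hσ1 : χ σ = 1) (i : ℕ) : χ (σ ^ i) = i := by
  induction i with
  | zero => rw [pow_zero, h.map_one, Nat.cast_zero]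
  | succ i ih => rw [pow_succ, h.add _ (pow_mem hσ i) _ hσ, ih, hσ1, Nat.cast_succ]

theorem mem_of_pow {σ : L.G} (hσ : σ ∈ H) (hσ1 : χ σ = 1) : σ ^ d ∈ H' :=
  (h.ker _ (pow_mem hσ d)).mp (by rw [h.map_pow hσ hσ1, ZMod.natCast_self])

theorem map_inv {g : L.G} (hg : g ∈ H) : χ g⁻¹ = -χ g := by
  rw [eq_neg_iff_add_eq_zero, ← h.add _ (inv_mem hg) _ hg, inv_mul_cancel, h.map_one]

theorem decomp {σ : L.G} (hσ : σ ∈ H) (hσ1 : χ σ = 1) {g : L.G} (hg : g ∈ H) :
    (σ ^ (χ g).val)⁻¹ * g ∈ H' := by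
  have hp : σ ^ (χ g).val ∈ H := pow_mem hσ _
  rw [← h.ker _ (mul_mem (inv_mem hp) hg), h.add _ (inv_mem hp) _ hg, h.map_inv hp,
    h.map_pow hσ hσ1, ZMod.natCast_zmod_val, neg_add_cancel]

theorem conj_mem {g k : L.G} (hg : g ∈ H) (hk : k ∈ H') : g⁻¹ * k * g ∈ H' := by
  rw [← h.ker _ (mul_mem (mul_mem (inv_mem hg) (h.le hk)) hg),
    h.add _ (mul_mem (inv_mem hg) (h.le hk)) _ hg, h.add _ (inv_mem hg) _ (h.le hk),
    h.map_inv hg, (h.ker k (h.le hk)).mpr hk]
  ring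

theorem smul_pow_fixed {σ : L.G} (hσ : σ ∈ H) (hσ1 : χ σ = 1) {y : C} (hy : y ∈ fixPts C H')
    {g : L.G} (hg : g ∈ H) (i : ℕ) : g • σ ^ i • y = σ ^ ((χ g).val + i) • y := by
  have hk : (σ ^ i)⁻¹ * ((σ ^ (χ g).val)⁻¹ * g) * σ ^ i ∈ H' :=
    h.conj_mem (pow_mem hσ i) (h.decomp hσ hσ1 hg)
  conv_rhs => rw [← hy _ hk, ← mul_smul, pow_add]
  rw [← mul_smul]
  congr 1
  group

theorem smul_eq_pow {σ : L.G} (hσ : σ ∈ H) (hσ1 : χ σ = 1) {y : C} (hy : y ∈ fixPts C H')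
    {g : L.G} (hg : g ∈ H) : g • y = σ ^ (χ g).val • y := by
  simpa using h.smul_pow_fixed hσ hσ1 hy hg 0

theorem nm_eq_range {σ : L.G} (hσ : σ ∈ H) (hσ1 : χ σ = 1) {y : C} (hy : y ∈ fixPts C H') :
    nm H H' y = ∑ i ∈ Finset.range d, σ ^ i • y := by
  rw [nm_eq_sum (fun i : Fin d => (⟨σ ^ (i : ℕ), pow_mem hσ _⟩ : H)) ?_ hy,
    ← Fin.sum_univ_eq_sum_range (fun i => σ ^ i • y) d]
  refine ⟨fun a b hab => ?_, fun a => ?_⟩
  · have h0 := QuotientGroup.eq.mp hab
    rw [Subgroup.mem_subgroupOf] at h0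
    have h1 := (h.ker _ (h.le h0)).mpr h0
    simp only [Subgroup.coe_mul, Subgroup.coe_inv] at h1
    rw [h.add _ (inv_mem (pow_mem hσ _)) _ (pow_mem hσ _), h.map_inv (pow_mem hσ _),
      h.map_pow hσ hσ1, h.map_pow hσ hσ1, neg_add_eq_zero, ZMod.natCast_eq_natCast_iff'] at h1
    exact Fin.ext (by rwa [Nat.mod_eq_of_lt a.2, Nat.mod_eq_of_lt b.2] at h1)
  · refine ⟨⟨(χ (a.out : L.G)).val, ZMod.val_lt _⟩, ?_⟩
    conv_rhs => rw [← QuotientGroup.out_eq' a]
    exact QuotientGroup.eq.mpr (h.decomp hσ hσ1 a.out.2)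

theorem val_mul {g g' : L.G} (hg : g ∈ H) (hg' : g' ∈ H) :
    (χ (g * g')).val = ((χ g).val + (χ g').val) % d := by
  rw [h.add g hg g' hg', ZMod.val_add]

theorem beta_mem {a : C} (ha : a ∈ fixPts C H) : beta χ a ∈ Zc L C H := by
  obtain ⟨N, hN, hc⟩ := h.const
  refine ⟨⟨N, hN, fun g g' s hs s' hs' => ?_⟩, fun g hg g' hg' j hj => ?_⟩
  · simp only [beta, carry, hc g s hs, hc g' s' hs']
  · simp only [beta, carry, smul_comm g, ha g hg, ← add_smul]
    congr 1
    rw [h.val_mul hg hg', h.val_mul hg' hj, add_comm (χ g).val (_ % d), carry_assoc,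
      add_comm ((((χ g).val + (χ g').val) % d + (χ j).val) / d), carry_assoc]
    congr 1
    ring

theorem beta_triv_kernel (a : C) : Triv2 H' (beta χ a) :=
  ⟨0, L.const₁_const 0, fun g hg g' hg' => by
    simp [beta, carry, (h.ker g (h.le hg)).mpr hg, (h.ker g' (h.le hg')).mpr hg', d₁_apply]⟩

/-- The class of a norm vanishes. -/
theorem beta_nm {y : C} (hy : y ∈ fixPts C H') : Triv2 H (beta χ (nm H H' y)) := by
  obtain ⟨σ, hσ, hσ1⟩ := h.surj
  let S : ℕ → C := fun n => ∑ i ∈ Finset.range n, σ ^ i • y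
  obtain ⟨N, hN, hc⟩ := h.const
  refine ⟨fun g => S (χ g).val, ⟨N, hN, fun g s hs => by simp only [hc g s hs]⟩,
    fun g hg g' hg' => ?_⟩
  have hd : σ ^ d • y = y := hy _ (h.mem_of_pow hσ hσ1)
  have e1 : g • S (χ g').val = S ((χ g).val + (χ g').val) - S (χ g).val := by
    simp only [S, Finset.smul_sum, h.smul_pow_fixed hσ hσ1 hy hg]
    rw [Finset.sum_range_add, add_sub_cancel_left]
  have hper : ∀ r, r < d → S (d + r) = nm H H' y + S r := fun r _ => by
    simp only [S, h.nm_eq_range hσ hσ1 hy, Finset.sum_range_add]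
    congr 1
    refine Finset.sum_congr rfl fun i _ => ?_
    rw [add_comm d i, pow_add, mul_smul, hd]
  have hlt : (χ g).val + (χ g').val < d + d := Nat.add_lt_add (ZMod.val_lt _) (ZMod.val_lt _)
  have key : S ((χ g).val + (χ g').val) =
      carry χ g g' • nm H H' y + S (χ (g * g')).val := by
    rw [h.val_mul hg hg', carry]
    rcases lt_or_ge ((χ g).val + (χ g').val) d with hl | hl
    · rw [Nat.div_eq_of_lt hl, Nat.mod_eq_of_lt hl, zero_nsmul, zero_add]
    · obtain ⟨r, hr⟩ := Nat.exists_eq_add_of_le hl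
      have hrd : r < d := by omega
      rw [hr, hper r hrd, Nat.add_div_left _ (NeZero.pos d), Nat.div_eq_of_lt hrd,
        Nat.add_mod_left, Nat.mod_eq_of_lt hrd, zero_add, one_nsmul]
  rw [d₁_apply, e1, key]
  simp only [beta]
  abel

/-- Kernels of restriction consist of classes of fixed points, up to multiples prime to `p`. -/
theorem exists_beta_of_triv2 (hC : L.Smooth C) {p : ℕ}
    (h1 : ∀ f, L.Const₁ f → Coc1 H' f → ∃ m : ℕ, m.Coprime p ∧ Triv1 H' ((m • f : L.G → C)))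
    {z : L.G × L.G → C} (hz : z ∈ Zc L C H) (hz' : Triv2 H' z) :
    ∃ m : ℕ, m.Coprime p ∧ ∃ a ∈ fixPts C H, Triv2 H (m • z - beta χ a) := by
  classical
  obtain ⟨σ, hσ, hσ1⟩ := h.surj
  obtain ⟨b₀, hb₀, e₀⟩ := hz'
  -- vanishing on the kernel
  set z₀ := z - L.d₁ C b₀ with hz₀
  have hz₀m : z₀ ∈ Zc L C H := sub_mem hz ⟨hb₀.d₁ hC, coc2_d₁ H b₀⟩
  have z₀0 : ∀ x ∈ H', ∀ y ∈ H', z₀ (x, y) = 0 := fun x hx y hy => sub_eq_zero.mpr (e₀ x hx y hy)
  -- vanishing on the right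
  obtain ⟨Nz, hNz, hzc⟩ := hz₀m.1
  obtain ⟨Nχ, hNχ, hχc⟩ := h.const
  obtain ⟨N, hN, hNH, hN'⟩ := level_le_of_isOpen h.isOpen (L.inf Nz Nχ hNz hNχ)
  let rep : L.G → L.G := fun g => σ ^ (χ g).val
  let b₁ : L.G → C := (H : Set L.G).indicator fun g => z₀ (rep g, (rep g)⁻¹ * g)
  have hb₁ : L.Const₁ b₁ := const₁_of_subgroup (h.isOpen.of_le h.le) ⟨N, hN, fun g s hs => by
    simp only [rep, hχc g s (hN' hs).2]
    have := hzc (rep g) ((rep g)⁻¹ * g) 1 Nz.one_mem s (hN' hs).1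
    rwa [mul_one, mul_assoc] at this⟩
  set z₁ := z₀ + L.d₁ C b₁ with hz₁
  have hz₁m : z₁ ∈ Zc L C H := add_mem hz₀m ⟨hb₁.d₁ hC, coc2_d₁ H b₁⟩
  have hb₁k : ∀ k ∈ H', b₁ k = 0 := fun k hk => by
    simp only [b₁]
    rw [Set.indicator_of_mem (show k ∈ (H : Set L.G) from h.le hk),
      show rep k = 1 by simp only [rep, (h.ker k (h.le hk)).mpr hk, ZMod.val_zero, pow_zero]]
    simpa using z₀0 1 H'.one_mem k hk
  have hr : ∀ g ∈ H, ∀ k ∈ H', z₁ (g, k) = 0 := fun g hg k hk => by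
    have hgk : g * k ∈ H := mul_mem hg (h.le hk)
    have hrep : rep (g * k) = rep g := by
      simp only [rep, h.add g hg k (h.le hk), (h.ker k (h.le hk)).mpr hk, add_zero]
    have hk0 : (rep g)⁻¹ * g ∈ H' := h.decomp hσ hσ1 hg
    have c := hz₀m.2 (rep g) (pow_mem hσ _) ((rep g)⁻¹ * g) (h.le hk0) k (h.le hk)
    rw [mul_inv_cancel_left, z₀0 _ hk0 k hk, smul_zero, zero_add] at c
    rw [hz₁, Pi.add_apply, d₁_apply, hb₁k k hk, smul_zero, zero_sub]
    simp only [b₁, Set.indicator_of_mem (show g * k ∈ (H : Set L.G) from hgk),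
      Set.indicator_of_mem (show g ∈ (H : Set L.G) from hg), hrep]
    rw [← mul_assoc (rep g)⁻¹ g k] 
    rw [show z₀ (rep g, (rep g)⁻¹ * g * k) = z₀ (g, k) + z₀ (rep g, (rep g)⁻¹ * g) from c]
    abel
  have hinv : ∀ g ∈ H, ∀ g' ∈ H, ∀ k ∈ H', z₁ (g, g' * k) = z₁ (g, g') := fun g hg g' hg' k hk => by
    have c := hz₁m.2 g hg g' hg' k (h.le hk)
    rwa [hr g' hg' k hk, smul_zero, zero_add, hr _ (mul_mem hg hg') k hk, zero_add] at c
  -- vanishing on the left
  let f : ZMod d → L.G → C := fun j k => z₁ (k, σ ^ j.val)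
  have hfc : ∀ j, L.Const₁ (f j) := fun j => by
    obtain ⟨N₁, hN₁, hc₁⟩ := hz₁m.1
    refine ⟨N₁, hN₁, fun k s hs => ?_⟩
    have := hc₁ k (σ ^ j.val) s hs 1 N₁.one_mem
    rwa [mul_one] at this
  have hfcoc : ∀ j, Coc1 H' (f j) := fun j k hk k' hk' => by
    have hs := pow_mem hσ j.val
    have c := hz₁m.2 k (h.le hk) k' (h.le hk') (σ ^ j.val) hs
    rw [show k' * σ ^ j.val = σ ^ j.val * ((σ ^ j.val)⁻¹ * k' * σ ^ j.val) by group,
      hinv k (h.le hk) _ hs _ (h.conj_mem hs hk'), hr k (h.le hk) k' hk', add_zero] at c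
    exact c.symm.trans (add_comm _ _)
  choose m hm hmf using fun j => h1 (f j) (hfc j) (hfcoc j)
  have hc : ∀ j, ∃ c : C, (j = 0 → c = 0) ∧ ∀ k ∈ H', (∏ i, m i) • f j k = k • c - c := by
    intro j
    rcases eq_or_ne j 0 with rfl | hj
    · refine ⟨0, fun _ => rfl, fun k hk => ?_⟩
      rw [show f 0 k = 0 by simpa [f] using hr k (h.le hk) 1 H'.one_mem, smul_zero, smul_zero,
        sub_zero]
    · obtain ⟨c, hc⟩ := hmf j
      obtain ⟨e, he⟩ := Finset.dvd_prod_of_mem m (Finset.mem_univ j)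
      refine ⟨e • c, fun h0 => absurd h0 hj, fun k hk => ?_⟩
      rw [he, mul_comm, mul_smul, ← smul_comm e k c, ← smul_sub, ← hc k hk]
      rfl
  choose c hc0 hcf using hc
  set M := ∏ i, m i
  refine ⟨M, Nat.Coprime.prod_left fun i _ => hm i, ?_⟩
  let b₂ : L.G → C := fun g => c (χ g)
  have hb₂ : L.Const₁ b₂ := ⟨Nχ, hNχ, fun g s hs => by simp only [b₂, hχc g s hs]⟩
  set z₂ := M • z₁ - L.d₁ C b₂ with hz₂
  have hz₂m : z₂ ∈ Zc L C H := sub_mem (nsmul_mem hz₁m M) ⟨hb₂.d₁ hC, coc2_d₁ H b₂⟩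
  have b₂k : ∀ k ∈ H', b₂ k = 0 := fun k hk => hc0 _ ((h.ker k (h.le hk)).mpr hk)
  have hr₂ : ∀ g ∈ H, ∀ k ∈ H', z₂ (g, k) = 0 := fun g hg k hk => by
    rw [hz₂, Pi.sub_apply, Pi.smul_apply, hr g hg k hk, smul_zero, d₁_apply, b₂k k hk, smul_zero]
    simp [b₂, h.add g hg k (h.le hk), (h.ker k (h.le hk)).mpr hk]
  have hl₂ : ∀ k ∈ H', ∀ g ∈ H, z₂ (k, g) = 0 := fun k hk g hg => by
    have hs := pow_mem hσ (χ g).val
    have e : g = σ ^ (χ g).val * ((σ ^ (χ g).val)⁻¹ * g) := by group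
    have e1 : z₁ (k, g) = f (χ g) k := by
      conv_lhs => rw [e, hinv k (h.le hk) _ hs _ (h.decomp hσ hσ1 hg)]
    rw [hz₂, Pi.sub_apply, Pi.smul_apply, d₁_apply, b₂k k hk, add_zero, e1, hcf _ k hk]
    simp [b₂, h.add k (h.le hk) g hg, (h.ker k (h.le hk)).mpr hk]
  have hR : ∀ g ∈ H, ∀ g' ∈ H, ∀ k ∈ H', z₂ (g, g' * k) = z₂ (g, g') := fun g hg g' hg' k hk => by
    have c := hz₂m.2 g hg g' hg' k (h.le hk)
    rwa [hr₂ g' hg' k hk, smul_zero, zero_add, hr₂ _ (mul_mem hg hg') k hk, zero_add] at c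
  have hL : ∀ g ∈ H, ∀ g' ∈ H, ∀ k ∈ H', z₂ (g * k, g') = z₂ (g, g') := fun g hg g' hg' k hk => by
    have c := hz₂m.2 g hg k (h.le hk) g' hg'
    rw [hl₂ k hk g' hg', smul_zero, zero_add, hr₂ g hg k hk, add_zero] at c
    rw [← c, show k * g' = g' * (g'⁻¹ * k * g') by group, hR g hg g' hg' _ (h.conj_mem hg' hk)]
  have hfix : ∀ g ∈ H, ∀ g' ∈ H, z₂ (g, g') ∈ fixPts C H' := fun g hg g' hg' k hk => by
    have c := hz₂m.2 k (h.le hk) g hg g' hg'
    rw [hl₂ k hk _ (mul_mem hg hg'), hl₂ k hk g hg, add_zero, add_zero] at c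
    rw [c, show k * g = g * (g⁻¹ * k * g) by group, hL g hg g' hg' _ (h.conj_mem hg hk)]
  -- the cyclic computation
  have hZ : ∀ g ∈ H, ∀ g' ∈ H, z₂ (g, g') = z₂ (σ ^ (χ g).val, σ ^ (χ g').val) :=
    fun g hg g' hg' => by
    conv_lhs => rw [show g = σ ^ (χ g).val * ((σ ^ (χ g).val)⁻¹ * g) by group,
      show g' = σ ^ (χ g').val * ((σ ^ (χ g').val)⁻¹ * g') by group]
    rw [hR _ (mul_mem (pow_mem hσ _) (h.le (h.decomp hσ hσ1 hg))) _ (pow_mem hσ _) _
      (h.decomp hσ hσ1 hg'), hL _ (pow_mem hσ _) _ (pow_mem hσ _) _ (h.decomp hσ hσ1 hg)]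
  let S : ℕ → C := fun n => ∑ i ∈ Finset.range n, z₂ (σ ^ i, σ)
  have hσd := h.mem_of_pow hσ hσ1
  have hS : ∀ i j : ℕ, σ ^ i • S j + z₂ (σ ^ i, σ ^ j) = S (i + j) - S i := by
    intro i j
    induction j with
    | zero => simpa [S] using hr₂ _ (pow_mem hσ i) 1 H'.one_mem
    | succ j ih =>
      have c := hz₂m.2 _ (pow_mem hσ i) _ (pow_mem hσ j) σ hσ
      rw [← pow_succ, ← pow_add] at c
      rw [← add_assoc i j 1]
      simp only [S, Finset.sum_range_succ, smul_add] at ih ⊢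
      rw [add_assoc, c, ← add_assoc, add_comm _ (z₂ (σ ^ (i + j), σ)), add_assoc, ih]
      abel
  refine ⟨S d, fun g hg => ?_, ?_⟩
  · have h1 := hS (χ g).val d
    rw [hr₂ _ (pow_mem hσ _) _ hσd, add_zero] at h1
    have hsd : S d ∈ fixPts C H' := sum_mem fun i _ => hfix _ (pow_mem hσ i) σ hσ
    rw [h.smul_eq_pow hσ hσ1 hsd hg, h1, sub_eq_iff_eq_add']
    simp only [S]
    rw [add_comm (χ g).val d, Finset.sum_range_add, add_comm]
    congr 1
    refine Finset.sum_congr rfl fun i _ => ?_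
    rw [add_comm d i, pow_add, hL _ (pow_mem hσ i) σ hσ _ hσd]
  · have hSfix : ∀ n, S n ∈ fixPts C H' := fun n =>
      sum_mem fun i _ => hfix _ (pow_mem hσ i) σ hσ
    have hmain : Triv2 H (z₂ - beta χ (S d)) := by
      refine ⟨fun g => -S (χ g).val, ⟨Nχ, hNχ, fun g s hs => by simp only [hχc g s hs]⟩,
        fun g hg g' hg' => ?_⟩
      have hper : ∀ r, S (d + r) = S d + S r := fun r => by
        simp only [S, Finset.sum_range_add]
        congr 1
        refine Finset.sum_congr rfl fun i _ => ?_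
        rw [add_comm d i, pow_add, hL _ (pow_mem hσ i) σ hσ _ hσd]
      have key : S ((χ g).val + (χ g').val) = carry χ g g' • S d + S (χ (g * g')).val := by
        have hlt : (χ g).val + (χ g').val < d + d :=
          Nat.add_lt_add (ZMod.val_lt _) (ZMod.val_lt _)
        rw [h.val_mul hg hg', carry]
        rcases lt_or_ge ((χ g).val + (χ g').val) d with hl | hl
        · rw [Nat.div_eq_of_lt hl, Nat.mod_eq_of_lt hl, zero_nsmul, zero_add]
        · obtain ⟨r, hr⟩ := Nat.exists_eq_add_of_le hl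
          have hrd : r < d := by omega
          rw [hr, hper r, Nat.add_div_left _ (NeZero.pos d), Nat.div_eq_of_lt hrd,
            Nat.add_mod_left, Nat.mod_eq_of_lt hrd, zero_add, one_nsmul]
      have h1 := hS (χ g).val (χ g').val
      rw [key, ← h.smul_eq_pow hσ hσ1 (hSfix _) hg, ← hZ g hg g' hg'] at h1
      rw [d₁_apply, Pi.sub_apply, smul_neg, eq_sub_of_add_eq' h1]
      simp only [beta]
      abel
    have hM : M • z - beta χ (S d) =
        (z₂ - beta χ (S d)) + M • L.d₁ C b₀ - M • L.d₁ C b₁ + L.d₁ C b₂ := by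
      rw [hz₂, hz₁, hz₀, smul_add, smul_sub]
      abel
    rw [hM]
    exact ((hmain.add ((triv2_d₁ H hb₀).nsmul M)).sub ((triv2_d₁ H hb₁).nsmul M)).add
      (triv2_d₁ H hb₂)

/-- A fixed point whose class vanishes is a norm, up to multiples prime to `p`. -/
theorem exists_nm_of_beta {p : ℕ}
    (h1 : ∀ f, L.Const₁ f → Coc1 H' f → ∃ m : ℕ, m.Coprime p ∧ Triv1 H' ((m • f : L.G → C)))
    {a : C} (ha : a ∈ fixPts C H) (hb : Triv2 H (beta χ a)) :
    ∃ m : ℕ, m.Coprime p ∧ ∃ y ∈ fixPts C H', m • a = nm H H' y := by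
  obtain ⟨σ, hσ, hσ1⟩ := h.surj
  rcases eq_or_ne d 1 with rfl | hd1
  · refine ⟨1, Nat.coprime_one_left p, a, fixPts_anti h.le ha, ?_⟩
    rw [one_smul, h.nm_eq_range hσ hσ1 (fixPts_anti h.le ha)]
    simp
  obtain ⟨b, hbc, e⟩ := hb
  have hv : ∀ k ∈ H', χ k = 0 := fun k hk => (h.ker k (h.le hk)).mpr hk
  have hb' : Coc1 H' b := fun g hg g' hg' => by
    have h0 := e g (h.le hg) g' (h.le hg')
    simp only [beta, carry, hv g hg, hv g' hg', ZMod.val_zero, add_zero, Nat.zero_div, zero_smul,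
      d₁_apply] at h0
    rw [eq_comm, sub_add_eq_add_sub, sub_eq_zero] at h0
    rw [← h0, add_comm]
  obtain ⟨m, hm, c, hc⟩ := h1 b hbc hb'
  let B : L.G → C := fun g => m • b g - (g • c - c)
  have hBk : ∀ k ∈ H', B k = 0 := fun k hk => sub_eq_zero.mpr (hc k hk)
  have hB : ∀ g ∈ H, ∀ g' ∈ H,
      g • B g' - B (g * g') + B g = carry χ g g' • (m • a) := fun g hg g' hg' => by
    rw [smul_comm (carry χ g g') m a, show carry χ g g' • a = beta χ a (g, g') from rfl,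
      e g hg g' hg', d₁_apply]
    simp only [B, smul_sub, smul_add, mul_smul, smul_comm g m]
    abel
  have hBR : ∀ g ∈ H, ∀ k ∈ H', B (g * k) = B g := fun g hg k hk => by
    have h0 := hB g hg k (h.le hk)
    rw [hBk k hk, smul_zero, carry, hv k hk, ZMod.val_zero, add_zero,
      Nat.div_eq_of_lt (ZMod.val_lt _), zero_smul, zero_sub, neg_add_eq_zero] at h0
    exact h0
  have hBf : ∀ g ∈ H, B g ∈ fixPts C H' := fun g hg k hk => by
    have h0 := hB k (h.le hk) g hg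
    rw [hBk k hk, add_zero, carry, hv k hk, ZMod.val_zero, zero_add,
      Nat.div_eq_of_lt (ZMod.val_lt _), zero_smul, sub_eq_zero,
      show k * g = g * (g⁻¹ * k * g) by group, hBR g hg _ (h.conj_mem hg hk)] at h0
    exact h0
  refine ⟨m, hm, B σ, hBf σ hσ, ?_⟩
  have hd : 0 < d := NeZero.pos d
  have hval : ∀ i < d, (χ (σ ^ i)).val = i := fun i hi => by
    rw [h.map_pow hσ hσ1, ZMod.val_natCast, Nat.mod_eq_of_lt hi]
  have hBS : ∀ i < d, B (σ ^ i) = ∑ j ∈ Finset.range i, σ ^ j • B σ := by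
    intro i hi
    induction i with
    | zero => simpa using hBk 1 H'.one_mem
    | succ i ih =>
      have h0 := hB σ hσ (σ ^ i) (pow_mem hσ i)
      have h2 : (χ σ).val ≤ 1 := by
        rw [hσ1, ZMod.val_one_eq_one_mod]; exact Nat.mod_le 1 d
      rw [carry, hval i (by omega), Nat.div_eq_of_lt (by omega : (χ σ).val + i < d), zero_smul,
        ← pow_succ', sub_add_eq_add_sub, sub_eq_zero] at h0
      rw [← h0, ih (by omega), Finset.sum_range_succ', pow_zero, one_smul, Finset.smul_sum]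
      simp only [← mul_smul, ← pow_succ']
  rw [h.nm_eq_range hσ hσ1 (hBf σ hσ)]
  have h1 : 1 < d := by omega
  have h0 := hB σ hσ (σ ^ (d - 1)) (pow_mem hσ _)
  rw [← pow_succ', show d - 1 + 1 = d by omega, hBk _ (h.mem_of_pow hσ hσ1), sub_zero,
    carry, hval (d - 1) (by omega), hσ1, ZMod.val_one_eq_one_mod, Nat.mod_eq_of_lt h1,
    show 1 + (d - 1) = d by omega, Nat.div_self hd, one_smul, hBS (d - 1) (by omega),
    Finset.smul_sum] at h0
  rw [← h0]
  conv_rhs => rw [show d = d - 1 + 1 by omega, Finset.sum_range_succ', pow_zero, one_smul]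
  simp only [← mul_smul, ← pow_succ']

end IsCyc

end Fermat.Agent.GD
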