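import Fermat.Agent.GD.Local.Residue
import Fermat.Agent.DS.FrobConj

/-!
# Frobenius elements at conjugate places, unramified levels and open subgroups
-/

set_option autoImplicit false
set_option linter.unusedSectionVars false
set_option linter.style.haveILetI false

noncomputable section

namespace Fermat.Agent.GD

open IsLocalRing
open Fermat.Agent.Galois
open scoped Pointwise

local notation "ℚb" => AlgebraicClosure ℚ

theorem frobeniusAt_iff {A : ValuationSubring ℚb} {q : ℕ} {σ : GQ} :
    A.IsFrobeniusAt σ q ↔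
      σ ∈ A.decompositionSubgroup ℚ ∧ ∀ x ∈ A, σ x - x ^ q ∈ A.nonunits := by
  constructor
  · rintro ⟨hd, hres⟩
    refine ⟨hd, fun x hx => ?_⟩
    have h := hres (residue A ⟨x, hx⟩)
    rw [residue_smul_eq hd, ← map_pow, ← sub_eq_zero, ← map_sub, residue_eq_zero_iff,
      ← ValuationSubring.coe_mem_nonunits_iff] at h
    simpa using h
  · rintro ⟨hd, h⟩
    refine ⟨hd, fun r => ?_⟩
    obtain ⟨⟨x, hx⟩, rfl⟩ := residue_surjective r
    rw [residue_smul_eq hd, ← map_pow, ← sub_eq_zero, ← map_sub, residue_eq_zero_iff,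
      ← ValuationSubring.coe_mem_nonunits_iff]
    simpa using h x hx

/-- A conjugate of a Frobenius element is one at the conjugate place. -/
theorem frobeniusAt_conj {A : ValuationSubring ℚb} {q : ℕ} {σ : GQ} (h : A.IsFrobeniusAt σ q)
    (g : GQ) : (g • A).IsFrobeniusAt (g * σ * g⁻¹) q := by
  obtain ⟨hd, hres⟩ := frobeniusAt_iff.mp h
  refine frobeniusAt_iff.mpr ⟨?_, fun x hx => ?_⟩
  · show g * σ * g⁻¹ ∈ MulAction.stabilizer GQ (g • A)
    rw [MulAction.mem_stabilizer_iff, mul_smul, mul_smul, inv_smul_smul]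
    exact congrArg _ hd
  · rw [ValuationSubring.mem_pointwise_smul_iff_inv_smul_mem] at hx
    have h1 := (mem_nonunits_smul_iff g A _).mpr (hres _ hx)
    rw [map_sub, map_pow] at h1
    convert h1 using 2
    · rfl
    · show x ^ q = (g (g⁻¹ x)) ^ q
      rw [← AlgEquiv.mul_apply, mul_inv_cancel, AlgEquiv.one_apply]

theorem decomposition_smul {A : ValuationSubring ℚb} {g d : GQ}
    (hd : d ∈ (g • A).decompositionSubgroup ℚ) : g⁻¹ * d * g ∈ A.decompositionSubgroup ℚ := by
  show g⁻¹ * d * g ∈ MulAction.stabilizer GQ A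
  rw [MulAction.mem_stabilizer_iff, mul_smul, mul_smul,
    show d • g • A = g • A from hd, inv_smul_smul]

theorem liesOverPrime_smul {A : ValuationSubring ℚb} {q : ℕ} (h : A.LiesOverPrime q) (g : GQ) :
    (g • A).LiesOverPrime q := by
  show (q : ℚb) ∈ (g • A).nonunits
  rw [← map_natCast g q]
  exact (mem_nonunits_smul_iff g A _).mpr h

/-- Every element of a decomposition group is a power of a Frobenius element modulo an
unramified level. -/
theorem exists_pow_frobenius {q : Nat.Primes} {N : Subgroup (LD (some q)).G} (hN : Unram N)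
    {σ : (LD (some q)).G} (hσ : (placeAt q).IsFrobeniusAt (toGQ σ) q) (d : (LD (some q)).G) :
    ∃ i : ℕ, d⁻¹ * σ ^ i ∈ N := by
  haveI := hN.2.1
  haveI := finiteIndex_of_isOpen hN.1
  letI : Field (Res N) := (isField_res hN).toField
  haveI : Finite (Res N) := Nat.finite_of_card_ne_zero (by
    rw [card_res hN.1]; exact pow_ne_zero _ q.2.ne_zero)
  haveI : Fact (q : ℕ).Prime := ⟨q.2⟩
  haveI : CharP (Res N) (q : ℕ) := by
    refine (CharP.charP_iff_prime_eq_zero q.2).mpr ?_
    rw [← map_natCast (Ideal.Quotient.mk _), Ideal.Quotient.eq_zero_iff_mem]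
    exact Ideal.mem_span_singleton_self _
  letI : Algebra (ZMod q) (Res N) := ZMod.algebra _ _
  have hfr : ∀ y : Res N, actRes N σ y = y ^ (q : ℕ) := by
    intro y
    obtain ⟨x, rfl⟩ := Ideal.Quotient.mk_surjective y
    rw [actRes_mk, ← map_pow, Ideal.Quotient.eq, mem_span_q_iff hN]
    push_cast
    exact (frobeniusAt_iff.mp hσ).2 (x : ℚb) x.2.1
  let dd : Res N ≃ₐ[ZMod q] Res N := AlgEquiv.ofRingEquiv (f := actRes N d) fun z => by
    obtain ⟨n, rfl⟩ := ZMod.natCast_zmod_surjective z
    rw [map_natCast, map_natCast]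
  obtain ⟨i, hi⟩ := (FiniteField.bijective_frobeniusAlgEquivOfAlgebraic_pow (ZMod q) (Res N)).2 dd
  have hpow : ∀ (j : ℕ) (y : Res N), actRes N (σ ^ j) y = y ^ (q : ℕ) ^ j := by
    intro j
    induction j with
    | zero => intro y; rw [pow_zero, map_one]; simp
    | succ j ih =>
      intro y
      rw [pow_succ σ j, map_mul, RingAut.mul_apply, hfr, ih, ← pow_mul, pow_succ']
  refine ⟨i.1, toGQ_mem_of_fix hN fun y => ?_⟩
  have h1 : actRes N d y = y ^ (q : ℕ) ^ (i.1 : ℕ) := by
    have h2 := DFunLike.congr_fun hi y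
    simp only [AlgEquiv.coe_pow, FiniteField.coe_frobeniusAlgEquivOfAlgebraic_iterate,
      ZMod.card] at h2
    exact h2.symm
  rw [map_mul, RingAut.mul_apply, hpow, map_inv]
  show (actRes N d)⁻¹ (y ^ _) = y
  rw [← h1]
  exact (actRes N d).symm_apply_apply y

/-- An open subgroup of the global group is the group fixing its field. -/
theorem fixingSubgroup_fixedField_open {T : Finset Nat.Primes} {H : Subgroup (LT T).G}
    (hH : (LT T).IsOpen H) :
    (IntermediateField.fixedField (show Subgroup GQ from H)).fixingSubgroup =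
      (show Subgroup GQ from H) := by
  obtain ⟨_, ⟨F, hF, rfl, -⟩, hle⟩ := hH
  haveI := hF.1
  have ho : IsOpen ((show Subgroup GQ from H) : Set GQ) := by
    let U : Subgroup GQ := H
    let V : Subgroup GQ := F.fixingSubgroup
    have hVU : V ≤ U := hle
    exact Subgroup.isOpen_mono (G := GQ) (H₁ := V) (H₂ := U) hVU F.fixingSubgroup_isOpen
  exact InfiniteGalois.fixingSubgroup_fixedField
    (⟨show Subgroup GQ from H, Subgroup.isClosed_of_isOpen _ ho⟩ : ClosedSubgroup GQ)

/-- An element fixed by the part of an open subgroup in a decomposition group lies in the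
compositum of the henselisation with the fixed field. -/
theorem mem_adjoin_fixedField {T : Finset Nat.Primes} {H : Subgroup (LT T).G}
    (hH : (LT T).IsOpen H) (A : ValuationSubring ℚb) {x : ℚb}
    (hx : ∀ σ : GQ, σ ∈ A.decompositionSubgroup ℚ → σ ∈ (show Subgroup GQ from H) → σ x = x) :
    x ∈ IntermediateField.adjoin (decField A)
      ((IntermediateField.fixedField (show Subgroup GQ from H) : IntermediateField ℚ ℚb) : Set ℚb) := by
  haveI : Algebra.IsAlgebraic ℚ ℚb := isAlgebraic_qbar
  set F₀ := IntermediateField.fixedField (show Subgroup GQ from H)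
  set E := IntermediateField.adjoin (decField A) (F₀ : Set ℚb)
  haveI : IsGalois (decField A) ℚb := inferInstance
  rw [← InfiniteGalois.fixedField_fixingSubgroup E, IntermediateField.mem_fixedField_iff]
  intro σ hσ
  have hd : σ.restrictScalars ℚ ∈ A.decompositionSubgroup ℚ :=
    isHens_decField A fun z => σ.commutes z
  refine hx (σ.restrictScalars ℚ) hd ?_
  rw [← fixingSubgroup_fixedField_open hH, IntermediateField.mem_fixingSubgroup_iff]
  exact fun y hy => (IntermediateField.mem_fixingSubgroup_iff E σ).mp hσ y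
    (IntermediateField.subset_adjoin _ _ hy)

end Fermat.Agent.GD
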