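import Fermat.Agent.GD.Local.Bridge
import Fermat.Agent.GD.Local.Units
import Fermat.Agent.DS.FrobConj

/-!
# The cyclotomic layer: the logarithm modulo `p^n` and its character of the Galois group
-/

set_option autoImplicit false
set_option linter.unusedSectionVars false
set_option linter.style.haveILetI false

noncomputable section

namespace Fermat.Agent.GD

open Fermat.Agent.Galois (GQ)
open Fermat.Agent.GalRep.Level (cycM cycM_spec cycM_castHom cycM_eq_of_root)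

local notation "ℚb" => AlgebraicClosure ℚ

variable (p : ℕ) [hp : Fact p.Prime]

theorem coprime_one_add_pow (n : ℕ) : (1 + p).Coprime (p ^ (n + 1)) :=
  Nat.Coprime.pow_right _ (by simp)

/-- The principal unit generating the logarithm. -/
def gen1 (n : ℕ) : (ZMod (p ^ (n + 1)))ˣ := ZMod.unitOfCoprime (1 + p) (coprime_one_add_pow p n)

theorem orderOf_gen1 (hp2 : p ≠ 2) (n : ℕ) : orderOf (gen1 p n) = p ^ n := by
  rw [← orderOf_units, gen1, ZMod.coe_unitOfCoprime, Nat.cast_add, Nat.cast_one]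
  exact ZMod.orderOf_one_add_prime hp.out hp2 n

theorem exists_log (hp2 : p ≠ 2) (n : ℕ) (u : (ZMod (p ^ (n + 1)))ˣ) :
    ∃ j : ℕ, u ^ (p - 1) = gen1 p n ^ j := by
  set φ := ZMod.unitsMap (dvd_pow_self p n.succ_ne_zero : p ∣ p ^ (n + 1))
  have hsurj : Function.Surjective φ := ZMod.unitsMap_surjective _
  have hcard : Nat.card φ.ker = p ^ n := by
    have h1 := Subgroup.index_mul_card φ.ker
    rw [Subgroup.index_ker, MonoidHom.range_eq_top.mpr hsurj, Subgroup.card_top,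
      Nat.card_eq_fintype_card (α := (ZMod p)ˣ), Nat.card_eq_fintype_card (α := (ZMod (p ^ (n + 1)))ˣ),
      ZMod.card_units_eq_totient, ZMod.card_units_eq_totient, Nat.totient_prime hp.out,
      Nat.totient_prime_pow hp.out n.succ_pos, Nat.succ_sub_one, mul_comm (p ^ n)] at h1
    exact Nat.eq_of_mul_eq_mul_left (by have := hp.out.two_le; omega) h1
  have hgen : gen1 p n ∈ φ.ker := by
    refine MonoidHom.mem_ker.mpr (Units.ext ?_)
    simp [φ, ZMod.unitsMap_def, gen1]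
  have heq : Subgroup.zpowers (gen1 p n) = φ.ker :=
    Subgroup.eq_of_le_of_card_ge (Subgroup.zpowers_le.mpr hgen)
      (le_of_eq (by rw [hcard, Nat.card_zpowers, orderOf_gen1 p hp2]))
  have hu : u ^ (p - 1) ∈ φ.ker := by
    rw [MonoidHom.mem_ker, map_pow]
    exact ZMod.units_pow_card_sub_one_eq_one p _
  rw [← heq] at hu
  obtain ⟨j, hj⟩ := mem_powers_iff_mem_zpowers.mpr hu
  exact ⟨j, hj.symm⟩

/-- The logarithm: `u ^ (p - 1) = (1 + p) ^ log u`. -/
def cycLog (n : ℕ) (u : (ZMod (p ^ (n + 1)))ˣ) : ZMod (p ^ n) :=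
  open scoped Classical in
  if h : ∃ j : ℕ, u ^ (p - 1) = gen1 p n ^ j then (h.choose : ZMod (p ^ n)) else 0

variable {p}

theorem cycLog_eq (hp2 : p ≠ 2) {n : ℕ} {u : (ZMod (p ^ (n + 1)))ˣ} {j : ℕ}
    (h : u ^ (p - 1) = gen1 p n ^ j) : cycLog p n u = j := by
  have hex : ∃ j : ℕ, u ^ (p - 1) = gen1 p n ^ j := ⟨j, h⟩
  rw [cycLog, dif_pos hex, ZMod.natCast_eq_natCast_iff', ← orderOf_gen1 p hp2 n]
  exact pow_eq_pow_iff_modEq.mp (hex.choose_spec.symm.trans h)

theorem cycLog_mul (hp2 : p ≠ 2) (n : ℕ) (u v : (ZMod (p ^ (n + 1)))ˣ) :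
    cycLog p n (u * v) = cycLog p n u + cycLog p n v := by
  obtain ⟨i, hi⟩ := exists_log p hp2 n u
  obtain ⟨j, hj⟩ := exists_log p hp2 n v
  rw [cycLog_eq hp2 hi, cycLog_eq hp2 hj, ← Nat.cast_add,
    cycLog_eq hp2 (j := i + j) (by rw [mul_pow, hi, hj]; exact (pow_add _ _ _).symm)]

theorem cycLog_eq_zero (hp2 : p ≠ 2) {n : ℕ} {u : (ZMod (p ^ (n + 1)))ˣ} (h : u ^ (p - 1) = 1) :
    cycLog p n u = 0 := by
  rw [cycLog_eq hp2 (j := 0) (by rw [h, pow_zero]), Nat.cast_zero]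

theorem cycLog_pow (hp2 : p ≠ 2) (n : ℕ) (u : (ZMod (p ^ (n + 1)))ˣ) (j : ℕ) :
    cycLog p n (u ^ j) = j • cycLog p n u := by
  induction j with
  | zero => rw [pow_zero, cycLog_eq_zero hp2 (one_pow _), zero_smul]
  | succ j ih => rw [pow_succ, cycLog_mul hp2, ih, succ_nsmul]

theorem cycLog_surjective (hp2 : p ≠ 2) (n : ℕ) : Function.Surjective (cycLog p n) := by
  have h2 := hp.out.two_le
  have hc : (p - 1).Coprime (p ^ n) := Nat.Coprime.pow_right _
    (Nat.coprime_comm.mp (hp.out.coprime_iff_not_dvd.mpr fun h => absurd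
      (Nat.le_of_dvd (Nat.sub_pos_of_lt h2) h) (Nat.not_le.mpr (Nat.sub_lt hp.out.pos Nat.one_pos))))
  intro x
  refine ⟨gen1 p n ^ (((ZMod.unitOfCoprime _ hc)⁻¹ : (ZMod (p ^ n))ˣ) * x : ZMod (p ^ n)).val, ?_⟩
  rw [cycLog_pow hp2, cycLog_eq hp2 (j := p - 1) rfl, nsmul_eq_mul, ZMod.natCast_zmod_val,
    mul_right_comm, ← ZMod.coe_unitOfCoprime (p - 1) hc, Units.inv_mul, one_mul]

theorem cycLog_cast (hp2 : p ≠ 2) {m n : ℕ} (h : m ≤ n) (u : (ZMod (p ^ (n + 1)))ˣ) :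
    ZMod.castHom (pow_dvd_pow p h) (ZMod (p ^ m)) (cycLog p n u) =
      cycLog p m (ZMod.unitsMap (pow_dvd_pow p (Nat.succ_le_succ h)) u) := by
  obtain ⟨j, hj⟩ := exists_log p hp2 n u
  rw [cycLog_eq hp2 hj, cycLog_eq hp2 (j := j) ?_, map_natCast]
  rw [← map_pow, hj, map_pow]
  congr 1
  refine Units.ext ?_
  rw [ZMod.unitsMap_def, Units.coe_map]
  simp only [gen1, ZMod.coe_unitOfCoprime]
  exact map_natCast (ZMod.castHom (pow_dvd_pow p (Nat.succ_le_succ h)) (ZMod (p ^ (m + 1)))) (1 + p)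

variable (p)

/-- The logarithm of a natural number, zero unless it is prime to `p`. -/
def natLog (n m : ℕ) : ZMod (p ^ n) :=
  if h : m.Coprime (p ^ (n + 1)) then cycLog p n (ZMod.unitOfCoprime m h) else 0

theorem natLog_self (n : ℕ) : natLog p n p = 0 := by
  rw [natLog, dif_neg]
  rw [Nat.coprime_pow_right_iff n.succ_pos, Nat.coprime_self]
  exact hp.out.ne_one

variable {p}

theorem natLog_cast (hp2 : p ≠ 2) {m n : ℕ} (h : m ≤ n) (a : ℕ) :
    ZMod.castHom (pow_dvd_pow p h) (ZMod (p ^ m)) (natLog p n a) = natLog p m a := by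
  by_cases ha : a.Coprime p
  · rw [natLog, natLog, dif_pos (ha.pow_right _), dif_pos (ha.pow_right _), cycLog_cast hp2 h]
    congr 1
    exact Units.ext (by simp [ZMod.unitsMap_def])
  · rw [natLog, natLog, dif_neg (by rwa [Nat.coprime_pow_right_iff n.succ_pos]),
      dif_neg (by rwa [Nat.coprime_pow_right_iff m.succ_pos]), map_zero]

variable (p)

/-- The cyclotomic layer. -/
def chiCyc (n : ℕ) (g : GQ) : ZMod (p ^ n) := cycLog p n (cycM (p ^ (n + 1)) g)

variable {p}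

theorem chiCyc_mul (hp2 : p ≠ 2) (n : ℕ) (g h : GQ) :
    chiCyc p n (g * h) = chiCyc p n g + chiCyc p n h := by
  rw [chiCyc, map_mul, cycLog_mul hp2]; rfl

theorem chiCyc_eq_zero (hp2 : p ≠ 2) {n : ℕ} {g : GQ} (h : cycM (p ^ (n + 1)) g = 1) :
    chiCyc p n g = 0 := cycLog_eq_zero hp2 (by rw [h, one_pow])

theorem chiCyc_inv (hp2 : p ≠ 2) (n : ℕ) (g : GQ) : chiCyc p n g⁻¹ = -chiCyc p n g := by
  have h := chiCyc_mul hp2 n g⁻¹ g
  rw [inv_mul_cancel, chiCyc_eq_zero hp2 (map_one _)] at h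
  exact eq_neg_of_add_eq_zero_left h.symm

theorem chiCyc_cast (hp2 : p ≠ 2) {m n : ℕ} (h : m ≤ n) (g : GQ) :
    ZMod.castHom (pow_dvd_pow p h) (ZMod (p ^ m)) (chiCyc p n g) = chiCyc p m g := by
  rw [chiCyc, cycLog_cast hp2 h, chiCyc]
  congr 1
  exact cycM_castHom (pow_dvd_pow p (Nat.succ_le_succ h)) g

theorem chiCyc_frobenius {n : ℕ} {A : ValuationSubring ℚb} {ℓ : ℕ} (hℓ : ℓ.Prime)
    (hA : A.LiesOverPrime ℓ) (hne : ℓ ≠ p) {σ : GQ} (hσ : A.IsFrobeniusAt σ ℓ) :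
    chiCyc p n σ = natLog p n ℓ := by
  have hc : ℓ.Coprime (p ^ (n + 1)) :=
    Nat.Coprime.pow_right _ ((Nat.coprime_primes hℓ hp.out).mpr hne)
  rw [natLog, dif_pos hc, chiCyc]
  congr 1
  refine Units.ext ?_
  rw [ZMod.coe_unitOfCoprime]
  exact DS.cycM_frobenius hℓ hA
    (fun h => hne ((Nat.prime_dvd_prime_iff_eq hℓ hp.out).mp (hℓ.dvd_of_dvd_pow h))) hσ

/-! ## The levels of roots of unity -/

theorem exists_cyc_field (T : Finset Nat.Primes) (hT : (⟨p, hp.out⟩ : Nat.Primes) ∈ T) (k : ℕ) :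
    ∃ N : Subgroup (LT T).G, (LT T).IsLevel N ∧ ∀ g : GQ, g ∈ N ↔ cycM (p ^ (k + 1)) g = 1 := by
  obtain ⟨ζ, hζ⟩ := HasEnoughRootsOfUnity.exists_primitiveRoot ℚb (p ^ (k + 1))
  set F := IntermediateField.adjoin ℚ ({ζ} : Set ℚb)
  haveI : FiniteDimensional ℚ F :=
    IntermediateField.adjoin.finiteDimensional ((hζ.isIntegral (NeZero.pos _)).tower_top)
  have hiff : ∀ g : GQ, g ∈ F.fixingSubgroup ↔ cycM (p ^ (k + 1)) g = 1 := by
    intro g
    haveI : Fact (1 < p ^ (k + 1)) := ⟨Nat.one_lt_pow k.succ_ne_zero hp.out.one_lt⟩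
    constructor
    · intro hg
      refine cycM_eq_of_root g hζ ?_
      rw [Units.val_one, ZMod.val_one, pow_one]
      exact (IntermediateField.mem_fixingSubgroup_iff F g).mp hg ζ
        (IntermediateField.mem_adjoin_simple_self ℚ ζ)
    · intro hg
      have h1 : F ≤ IntermediateField.fixedField (Subgroup.zpowers g) := by
        rw [IntermediateField.adjoin_simple_le_iff]
        rintro ⟨τ, hτ⟩
        refine (Subgroup.zpowers_le (H := MulAction.stabilizer GQ ζ)).mpr ?_ hτ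
        show g ζ = ζ
        rw [cycM_spec g hζ.pow_eq_one, hg, Units.val_one, ZMod.val_one, pow_one]
      rw [IntermediateField.mem_fixingSubgroup_iff]
      exact fun x hx => h1 hx ⟨g, Subgroup.mem_zpowers g⟩
  have hn : F.fixingSubgroup.Normal := by
    refine ⟨fun g hg c => (hiff _).mpr ?_⟩
    rw [map_mul, map_mul, (hiff g).mp hg, mul_one, ← map_mul, mul_inv_cancel, map_one]
  refine ⟨F.fixingSubgroup, ⟨F, ⟨inferInstance, fun q hq A hA σ hσ => (hiff σ).mpr ?_⟩, rfl, hn⟩,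
    hiff⟩
  refine DS.cycM_inertia q.2 hA (fun h => hq ?_) hσ
  have : (q : ℕ) = p := (Nat.prime_dvd_prime_iff_eq q.2 hp.out).mp (q.2.dvd_of_dvd_pow h)
  rwa [show q = ⟨p, hp.out⟩ from Subtype.ext this]

theorem chiCyc_const (hp2 : p ≠ 2) (T : Finset Nat.Primes) (hT : (⟨p, hp.out⟩ : Nat.Primes) ∈ T)
    (n : ℕ) : (LT T).Const₁ (chiCyc p n) := by
  obtain ⟨N, hN, h⟩ := exists_cyc_field T hT n
  refine ⟨N, hN, fun g s hs => ?_⟩
  exact (chiCyc_mul hp2 n g s).trans (by rw [chiCyc_eq_zero hp2 ((h s).mp hs), add_zero])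

theorem exists_decomp_cycM_aux (pp : Nat.Primes) (hpp : (pp : ℕ) = p) (k M : ℕ) [NeZero M]
    (hM : M = p ^ (k + 1)) (a : (ZMod M)ˣ) : ∃ d ∈ decomp (some pp), cycM M d = a := by
  classical
  obtain ⟨ζ, hζ⟩ := HasEnoughRootsOfUnity.exists_primitiveRoot ℚb M
  set I := (decomp (some pp)).map (cycM M)
  suffices hI : I = ⊤ by
    obtain ⟨d, hd, e⟩ : a ∈ I := hI ▸ Subgroup.mem_top a
    exact ⟨d, hd, e⟩
  have hA : (placeAt pp).LiesOverPrime p := hpp ▸ placeAt_liesOverPrime pp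
  set A := placeAt pp
  have hM1 : 1 < M := hM ▸ Nat.one_lt_pow k.succ_ne_zero hp.out.one_lt
  have hζA : ∀ i : ℕ, ζ ^ i ∈ A := fun i =>
    Galois.integralClosure_le A ⟨ζ ^ i, (hζ.isIntegral (NeZero.pos M)).pow i⟩
  have key : ∀ i j : ℕ, i.Coprime M → A.valuation (ζ ^ (i * j) - 1) ≤ A.valuation (ζ ^ i - 1) := by
    intro i j _
    rw [pow_mul, ← mul_geom_sum (ζ ^ i) j, map_mul]
    exact mul_le_of_le_one_right' ((A.valuation_le_one_iff _).mpr
      (sum_mem fun l _ => by rw [← pow_mul]; exact hζA _))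
  have hval : ∀ i : ℕ, i.Coprime M → A.valuation (ζ ^ i - 1) = A.valuation (ζ - 1) := by
    intro i hi
    refine le_antisymm (by simpa using key 1 i (Nat.coprime_one_left M)) ?_
    obtain ⟨j, -, hj⟩ := (hζ.pow_of_coprime i hi).eq_pow_of_pow_eq_one hζ.pow_eq_one
    conv_lhs => rw [← hj, ← pow_mul]
    exact key i j hi
  set v := A.valuation (ζ - 1)
  have hv0 : v ≠ 0 := by simpa [v, sub_eq_zero] using hζ.ne_one hM1
  have hvp : v ^ M.totient = A.valuation (p : ℚb) := by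
    have h1 : ∏ μ ∈ primitiveRoots M ℚb, (1 - μ) = (p : ℚb) := by
      rw [← Polynomial.eval_one_cyclotomic_prime_pow (R := ℚb) k, ← hM,
        Polynomial.cyclotomic_eq_prod_X_sub_primitiveRoots hζ, Polynomial.eval_prod]
      simp
    rw [← h1, map_prod, Finset.prod_congr rfl fun μ hμ => ?_, Finset.prod_const,
      hζ.card_primitiveRoots]
    obtain ⟨i, hi, hic, rfl⟩ := hζ.isPrimitiveRoot_iff.mp
      ((mem_primitiveRoots (NeZero.pos M)).mp hμ)
    rw [Valuation.map_sub_swap, hval i hic]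
  have hv1 : v < 1 := by
    refine not_le.mp fun h => ?_
    have := one_le_pow_of_one_le' h M.totient
    rw [hvp] at this
    exact absurd (natCast_val_lt_one hA) (not_lt.mpr this)
  -- the fixed product
  set x : ℚb := ∏ b : I, (ζ ^ ((b : (ZMod M)ˣ) : ZMod M).val - 1) with hx
  have hterm : ∀ b : I, A.valuation (ζ ^ ((b : (ZMod M)ˣ) : ZMod M).val - 1) = v :=
    fun b => hval _ (ZMod.val_coe_unit_coprime _)
  have hx0 : x ≠ 0 := Finset.prod_ne_zero_iff.mpr fun b _ h => hv0 (by rw [← hterm b, h, map_zero])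
  have hxD : x ∈ decField A := by
    rintro ⟨d, hd⟩
    show d x = x
    let bd : I := ⟨cycM M d, Subgroup.mem_map_of_mem _ hd⟩
    rw [hx, map_prod]
    refine Eq.trans (Finset.prod_congr rfl fun b _ => ?_)
      (Equiv.prod_comp (Equiv.mulLeft bd) fun b : I => ζ ^ ((b : (ZMod M)ˣ) : ZMod M).val - 1)
    rw [map_sub, map_one, map_pow, cycM_spec d hζ.pow_eq_one, ← pow_mul]
    show ζ ^ _ - 1 = ζ ^ ((cycM M d * b : (ZMod M)ˣ) : ZMod M).val - 1
    rw [Units.val_mul, ZMod.val_mul, ← pow_eq_pow_mod _ hζ.pow_eq_one]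
  obtain ⟨j, hj⟩ := exists_val_eq_zpow hp.out hA hxD hx0
  have hvx : A.valuation x = v ^ Fintype.card I := by
    rw [hx, map_prod, Finset.prod_congr rfl fun b _ => hterm b, Finset.prod_const, Finset.card_univ]
  rw [hvx, ← hvp, ← zpow_natCast, ← zpow_natCast, ← zpow_mul] at hj
  have e := zpow_right_injective₀ (zero_lt_iff.mpr hv0) hv1.ne hj
  have hpos : 0 < Fintype.card I := Fintype.card_pos
  have hle : Fintype.card I ≤ M.totient := by
    rw [← ZMod.card_units_eq_totient M]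
    exact Fintype.card_le_of_injective _ Subtype.val_injective
  have hj1 : 1 ≤ j := by
    by_contra h
    have : (M.totient : ℤ) * j ≤ 0 := mul_nonpos_of_nonneg_of_nonpos (Int.natCast_nonneg _) (by omega)
    omega
  have hcard : Fintype.card I = M.totient := by
    refine le_antisymm hle ?_
    have : (M.totient : ℤ) ≤ (M.totient : ℤ) * j :=
      le_mul_of_one_le_right (Int.natCast_nonneg _) hj1
    omega
  refine Subgroup.eq_top_of_card_eq _ ?_
  rw [Nat.card_eq_fintype_card, Nat.card_eq_fintype_card, hcard, ZMod.card_units_eq_totient]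

/-- The decomposition group at `p` takes every cyclotomic exponent. -/
theorem exists_decomp_cycM (pp : Nat.Primes) (hpp : (pp : ℕ) = p) (k : ℕ)
    (a : (ZMod (p ^ (k + 1)))ˣ) : ∃ d ∈ decomp (some pp), cycM (p ^ (k + 1)) d = a :=
  exists_decomp_cycM_aux pp hpp k _ rfl a

theorem exists_decomp_chiCyc (hp2 : p ≠ 2) (pp : Nat.Primes) (hpp : (pp : ℕ) = p) (n : ℕ)
    (x : ZMod (p ^ n)) : ∃ d ∈ decomp (some pp), chiCyc p n d = x := by
  obtain ⟨u, rfl⟩ := cycLog_surjective hp2 n x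
  obtain ⟨d, hd, e⟩ := exists_decomp_cycM pp hpp n u
  exact ⟨d, hd, by rw [chiCyc, e]⟩

end Fermat.Agent.GD
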