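import Fermat.Agent.GD.Global.ClassFormation.Layers
import Mathlib.Topology.Instances.AddCircle.Defs

/-!
# The invariant map of a formation
-/

set_option autoImplicit false
set_option linter.unusedSectionVars false
set_option linter.style.haveILetI false

noncomputable section

namespace Fermat.Agent.GD

universe u w

variable {L : LevelGroup.{u}} {C : Type w} [AddCommGroup C] [DistribMulAction L.G C] {p : ℕ}
  [hp : Fact p.Prime]

theorem IsCyc.relIndex_eq {H H' : Subgroup L.G} {d : ℕ} [NeZero d] {χ : L.G → ZMod d}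
    (h : IsCyc H H' d χ) : H'.relIndex H = d := by
  let φ : H →* Multiplicative (ZMod d) := MonoidHom.mk' (fun g => Multiplicative.ofAdd (χ g))
    fun g g' => by rw [← ofAdd_add, Subgroup.coe_mul, h.add g g.2 g' g'.2]
  have hker : φ.ker = H'.subgroupOf H := by
    ext g
    rw [MonoidHom.mem_ker, Subgroup.mem_subgroupOf, ← h.ker g g.2]
    exact ofAdd_eq_one
  have hsurj : Function.Surjective φ := fun x => by
    obtain ⟨σ, hσ, hσ1⟩ := h.surj
    refine ⟨⟨σ ^ (Multiplicative.toAdd x).val, pow_mem hσ _⟩, ?_⟩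
    show Multiplicative.ofAdd (χ _) = x
    rw [h.map_pow hσ hσ1, ZMod.natCast_zmod_val, ofAdd_toAdd]
  rw [Subgroup.relIndex, ← hker, Subgroup.index_ker, Set.range_eq_univ.mpr hsurj |> fun e =>
    (show Nat.card φ.range = Nat.card (Multiplicative (ZMod d)) by
      rw [MonoidHom.range_eq_top.mpr hsurj]
      exact Subgroup.card_top), Nat.card_congr Multiplicative.toAdd, Nat.card_zmod]

theorem IsCyc.normal {H H' : Subgroup L.G} {d : ℕ} [NeZero d] {χ : L.G → ZMod d}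
    (h : IsCyc H H' d χ) : (H'.subgroupOf H).Normal := ⟨fun k hk g => by
  rw [Subgroup.mem_subgroupOf] at hk ⊢
  simpa using h.conj_mem (inv_mem g.2) hk⟩

theorem exists_isCyc_prime {P P₁ : Subgroup L.G} (hle : P₁ ≤ P) (hP₁ : L.IsOpen P₁)
    (hn : (P₁.subgroupOf P).Normal) (hidx : P₁.relIndex P = p) :
    ∃ χ : L.G → ZMod p, IsCyc P P₁ p χ := by
  classical
  have hcard : Nat.card (P ⧸ P₁.subgroupOf P) = p := hidx
  haveI : IsCyclic (P ⧸ P₁.subgroupOf P) := isCyclic_of_prime_card hcard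
  obtain ⟨e⟩ : Nonempty (Multiplicative (ZMod p) ≃* P ⧸ P₁.subgroupOf P) :=
    ⟨mulEquivOfPrimeCardEq (p := p) (by rw [Nat.card_congr Multiplicative.toAdd, Nat.card_zmod])
      hcard⟩
  let χ : L.G → ZMod p := fun g =>
    if hg : g ∈ P then Multiplicative.toAdd (e.symm ((⟨g, hg⟩ : P) : P ⧸ P₁.subgroupOf P)) else 0
  have hχ : ∀ g (hg : g ∈ P),
      χ g = Multiplicative.toAdd (e.symm ((⟨g, hg⟩ : P) : P ⧸ P₁.subgroupOf P)) :=
    fun g hg => dif_pos hg
  refine ⟨χ, fun g hg h hh => ?_, fun g hg => ?_, ?_, hle, hP₁, ?_⟩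
  · rw [hχ g hg, hχ h hh, hχ _ (mul_mem hg hh), ← toAdd_mul, ← map_mul]
    rfl
  · rw [hχ g hg, toAdd_eq_zero, MulEquiv.map_eq_one_iff, QuotientGroup.eq_one_iff,
      Subgroup.mem_subgroupOf]
  · obtain ⟨x, hx⟩ := QuotientGroup.mk_surjective (e (Multiplicative.ofAdd 1))
    exact ⟨x, x.2, by rw [hχ _ x.2, hx, MulEquiv.symm_apply_apply, toAdd_ofAdd]⟩
  · obtain ⟨N, hN, hNle⟩ := hP₁
    refine ⟨N, hN, fun g s hs => ?_⟩
    have hsP : s ∈ P := hle (hNle hs)
    by_cases hg : g ∈ P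
    · rw [hχ g hg, hχ _ (mul_mem hg hsP)]
      congr 2
      rw [QuotientGroup.eq, Subgroup.mem_subgroupOf]
      simpa using inv_mem (hNle hs)
    · simp only [χ, dif_neg hg, dif_neg fun h => hg ((P.mul_mem_cancel_right hsP).mp h)]

namespace Formation

variable (F : Formation L C p)

/-- Reciprocity of a subgroup: reciprocity of the norm. -/
def recH (n : ℕ) {H : Subgroup L.G} (hH : L.IsOpen H) : fixPts C H →+ ZMod (p ^ n) :=
  (F.recip n).comp (AddMonoidHom.mk' (fun a => ⟨nm ⊤ H (a : C), nm_mem hH a.2⟩)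
    fun _ _ => Subtype.ext (nm_add hH _ _))

theorem recH_apply (n : ℕ) {H : Subgroup L.G} (hH : L.IsOpen H) (a : fixPts C H) :
    F.recH n hH a = F.recip n ⟨nm ⊤ H (a : C), nm_mem hH a.2⟩ := rfl

theorem recH_cast {m n : ℕ} (h : m ≤ n) {H : Subgroup L.G} (hH : L.IsOpen H) (a : fixPts C H) :
    ZMod.castHom (pow_dvd_pow p h) (ZMod (p ^ m)) (F.recH n hH a) = F.recH m hH a :=
  F.recip_cast m n h _

theorem recH_top (n : ℕ) (a : fixPts C (⊤ : Subgroup L.G)) :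
    F.recH n (top_open L) a = F.recip n a := by
  rw [recH_apply]
  congr 1
  refine Subtype.ext ?_
  show nm ⊤ ⊤ (a : C) = a
  rw [nm_of_fixed (top_open L) a.2, Subgroup.relIndex_self, one_smul]

theorem recH_res (n : ℕ) {H K : Subgroup L.G} (hH : L.IsOpen H) (hK : L.IsOpen K) (hKH : K ≤ H)
    {a : C} (ha : a ∈ fixPts C H) :
    F.recH n hK ⟨a, fixPts_anti hKH ha⟩ = K.relIndex H • F.recH n hH ⟨a, ha⟩ := by
  rw [recH_apply, recH_apply, ← map_nsmul]
  congr 1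
  refine Subtype.ext ?_
  show nm ⊤ K a = K.relIndex H • nm ⊤ H a
  rw [← nm_trans le_top hKH hH hK (fixPts_anti hKH ha), nm_of_fixed hK ha, nm_nsmul hH]

theorem recH_norm (n : ℕ) {H : Subgroup L.G} (hH : L.IsOpen H) {y : C}
    (hy : y ∈ fixPts C (H ⊓ F.gam n)) :
    F.recH n hH ⟨nm H (H ⊓ F.gam n) y, nm_mem (hH.inf (F.gam_open n)) hy⟩ = 0 := by
  have hΓ := F.gam_open n
  have hHΓ := hH.inf hΓ
  rw [recH_apply]
  have e : nm ⊤ H (nm H (H ⊓ F.gam n) y) = nm ⊤ (F.gam n) (nm (F.gam n) (H ⊓ F.gam n) y) := by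
    rw [nm_trans le_top inf_le_left hH hHΓ hy, nm_trans le_top inf_le_right hΓ hHΓ hy]
  have hy' : nm (F.gam n) (H ⊓ F.gam n) y ∈ fixPts C (F.gam n) := nm_mem hHΓ hy
  rw [← F.recip_norm n _ hΓ (fun g => Iff.rfl) _ hy' (nm_mem hΓ hy')]
  congr 1
  exact Subtype.ext e

theorem exists_recH (n : ℕ) {H : Subgroup L.G} (hH : L.IsOpen H) {h : L.G} (hh : h ∈ H) :
    ∃ a, F.recH n hH a = F.chi n h := by
  obtain ⟨a, ha, hna, e⟩ := F.recip_gen H hH h hh n
  exact ⟨⟨a, ha⟩, e⟩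

theorem eq_zero_of_coprime_smul {n m : ℕ} (hm : m.Coprime p) {x : ZMod (p ^ n)}
    (h : m • x = 0) : x = 0 := by
  rw [nsmul_eq_mul, ← ZMod.coe_unitOfCoprime m (hm.pow_right n), Units.mul_right_eq_zero] at h
  exact h

/-- The class of a fixed point in the layer. -/
def clsB (n : ℕ) {H : Subgroup L.G} (hH : L.IsOpen H) : fixPts C H →+ Cls L C H :=
  mkCls.comp (AddMonoidHom.mk' (fun a => ⟨beta (F.chi n) (a : C), F.beta_mem_Zc hH a.2⟩)
    fun _ _ => Subtype.ext (beta_add _ _ _))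

theorem clsB_eq_zero {n : ℕ} {H : Subgroup L.G} {hH : L.IsOpen H} {a : fixPts C H} :
    F.clsB n hH a = 0 ↔ Triv2 H (beta (F.chi n) (a : C)) := mkCls_eq_zero

theorem recH_eq_zero_of_cls {n : ℕ} {H : Subgroup L.G} (hH : L.IsOpen H) {a : fixPts C H}
    (h : Triv2 H (beta (F.chi n) (a : C))) : F.recH n hH a = 0 := by
  obtain ⟨t, ht⟩ := F.exists_isExp n H
  obtain ⟨m, hm, y, hy, e⟩ := (F.isCyc hH ht).exists_nm_of_beta (p := p)
    (fun f hf hc => F.h1_primary (hH.inf (F.gam_open n)) hf hc) a.2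
    (h.congr fun g hg g' hg' => (F.beta_chiH_congr ht (a : C) g hg g' hg').symm)
  refine eq_zero_of_coprime_smul hm ?_
  rw [← map_nsmul, show m • a = ⟨nm H (H ⊓ F.gam n) y, nm_mem (hH.inf (F.gam_open n)) hy⟩ from
    Subtype.ext e]
  exact F.recH_norm n hH hy

include F in
theorem card_Kr_prime {P P₁ : Subgroup L.G} (hle : P₁ ≤ P) (hP₁ : L.IsOpen P₁) (hP : P ≤ F.mu)
    (hn : (P₁.subgroupOf P).Normal) (hidx : P₁.relIndex P = p) :
    Finite (Kr (C := C) hle) ∧ Nat.card (Kr (C := C) hle) ≤ p := by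
  obtain ⟨χ, hχ⟩ := exists_isCyc_prime hle hP₁ hn hidx
  let φ : fixPts C P →+ Cls L C P := mkCls.comp (AddMonoidHom.mk'
    (fun a => ⟨beta χ (a : C), hχ.beta_mem a.2⟩) fun _ _ => Subtype.ext (beta_add _ _ _))
  have hker : normSub C P P₁ ≤ φ.ker := by
    rw [normSub, AddSubgroup.closure_le]
    rintro c ⟨y, hy, hc⟩
    show φ c = 0
    refine mkCls_eq_zero.mpr ?_
    show Triv2 P (beta χ (c : C))
    rw [hc]
    exact hχ.beta_nm hy
  have hrange : Kr (C := C) hle ≤ φ.range := by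
    intro x hx
    obtain ⟨z, rfl⟩ := QuotientAddGroup.mk'_surjective _ x
    have hz := (mem_Kr hle (z := z)).mp hx
    obtain ⟨m, hm, a, ha, e⟩ := hχ.exists_beta_of_triv2 F.smooth (p := p)
      (fun f hf hc => F.h1_primary hP₁ hf hc) z.2 hz
    have h1 : m • mkCls z = φ ⟨a, ha⟩ := by
      rw [← sub_eq_zero, ← map_nsmul]
      show mkCls _ - mkCls _ = 0
      rw [← map_sub]
      exact mkCls_eq_zero.mpr e
    have h2 : p • mkCls z = 0 := by
      rw [← map_nsmul]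
      exact mkCls_eq_zero.mpr (hidx ▸ nsmul_triv2_of_triv2 F.smooth hP₁ hle z.2.2 z.2.1 hz)
    show mkCls z ∈ φ.range
    rw [← one_zsmul (mkCls z), show (1 : ℤ) = m.gcdA p * m + m.gcdB p * p by
      rw [show m.gcdA p * m + m.gcdB p * p = (m.gcd p : ℤ) by rw [Nat.gcd_eq_gcd_ab]; ring,
        hm.gcd_eq_one, Nat.cast_one], add_zsmul, mul_zsmul, mul_zsmul, natCast_zsmul, natCast_zsmul,
      h2, smul_zero, add_zero, h1, ← map_zsmul]
    exact ⟨_, rfl⟩
  have hq := F.cyc_card P P₁ hP₁ hle hP hn hidx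
  haveI : Finite (fixPts C P ⧸ normSub C P P₁) :=
    Nat.finite_of_card_ne_zero (by rw [hq]; exact hp.out.ne_zero)
  let ψ := QuotientAddGroup.lift (normSub C P P₁) φ hker
  have hsurj : ∀ x ∈ φ.range, x ∈ Set.range ψ := by
    rintro _ ⟨a, rfl⟩
    exact ⟨a, rfl⟩
  choose g hg using fun x : Kr (C := C) hle => hsurj x.1 (hrange x.2)
  have hinj : Function.Injective g := fun x y h => Subtype.ext (by rw [← hg x, ← hg y, h])
  haveI := Finite.of_injective g hinj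
  exact ⟨inferInstance, (Nat.card_le_card_of_injective g hinj).trans hq.le⟩

include F in
theorem card_Kr_pgroup : ∀ (k : ℕ) (P N : Subgroup L.G) (hle : N ≤ P), P ≤ F.mu → L.IsOpen N →
    (N.subgroupOf P).Normal → N.relIndex P = p ^ k →
    Finite (Kr (C := C) hle) ∧ Nat.card (Kr (C := C) hle) ≤ p ^ k := by
  intro k
  induction k with
  | zero =>
    intro P N hle _ _ _ hk
    have hPN : P ≤ N := Subgroup.relIndex_eq_one.mp (by rw [hk, pow_zero])
    have h0 : ∀ x : Kr (C := C) hle, x = 0 := fun x => by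
      obtain ⟨x, hx⟩ := x
      obtain ⟨z, rfl⟩ := QuotientAddGroup.mk'_surjective _ x
      exact Subtype.ext (mkCls_eq_zero.mpr (((mem_Kr hle (z := z)).mp hx).mono hPN))
    haveI : Subsingleton (Kr (C := C) hle) := ⟨fun a b => by rw [h0 a, h0 b]⟩
    exact ⟨inferInstance, by rw [pow_zero, Nat.card_unique]⟩
  | succ k ih =>
    intro P N hle hP hN hn hk
    obtain ⟨P₁, h1, h2, h3, h4, h5, h6⟩ := exists_step hle hn hk
    obtain ⟨i1, c1⟩ := F.card_Kr_prime h2 (hN.of_le h1) hP h5 h6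
    obtain ⟨i2, c2⟩ := ih P₁ N h1 (h2.trans hP) hN h3 h4
    obtain ⟨i3, c3⟩ := card_Kr_le (C := C) h2 h1
    exact ⟨i3, c3.trans ((Nat.mul_le_mul c1 c2).trans (pow_succ' p k).ge)⟩

/-- In the layer, below `mu`, a class is determined by its reciprocity. -/
theorem triv2_of_recH_mu {n : ℕ} {P : Subgroup L.G} (hP : L.IsOpen P) (hmu : P ≤ F.mu)
    {a : fixPts C P} (h : F.recH n hP a = 0) : Triv2 P (beta (F.chi n) (a : C)) := by
  obtain ⟨t, ht⟩ := F.exists_isExp n P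
  have hc := F.isCyc hP ht
  obtain ⟨hfin, hcard⟩ := F.card_Kr_pgroup (n - t) P (P ⊓ F.gam n) inf_le_left hmu
    (hP.inf (F.gam_open n)) hc.normal hc.relIndex_eq
  have hmem : ∀ b, F.clsB n hP b ∈ Kr (C := C) (inf_le_left : P ⊓ F.gam n ≤ P) := fun b =>
    (mem_Kr _).mpr ((hc.beta_triv_kernel (b : C)).congr fun g hg g' hg' =>
      F.beta_chiH_congr ht (b : C) g hg.1 g' hg'.1)
  haveI : Finite (F.clsB n hP).range := Finite.of_injective
    (β := Kr (C := C) (inf_le_left : P ⊓ F.gam n ≤ P))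
    (fun x => ⟨x.1, by obtain ⟨b, hb⟩ := x.2; exact hb ▸ hmem b⟩)
    fun x y h => Subtype.ext (congrArg Subtype.val h :)
  let Φ : (F.clsB n hP).range → (F.recH n hP).range := fun x =>
    ⟨F.recH n hP x.2.choose, _, rfl⟩
  have hΦ : ∀ b, Φ ⟨F.clsB n hP b, b, rfl⟩ = ⟨F.recH n hP b, b, rfl⟩ := fun b => by
    refine Subtype.ext (sub_eq_zero.mp ?_)
    rw [← map_sub]
    refine F.recH_eq_zero_of_cls hP ((F.clsB_eq_zero (hH := hP)).mp ?_)
    rw [map_sub, sub_eq_zero]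
    exact (⟨F.clsB n hP b, b, rfl⟩ : (F.clsB n hP).range).2.choose_spec
  have hsurj : Function.Surjective Φ := by
    rintro ⟨_, b, rfl⟩
    exact ⟨⟨_, b, rfl⟩, hΦ b⟩
  obtain ⟨htn, -, σ, hσ, hσt⟩ := ht
  obtain ⟨a₁, ha₁⟩ := F.exists_recH n hP hσ
  have hlow : p ^ (n - t) ≤ Nat.card (F.recH n hP).range := by
    have hi : Function.Injective (fun j : Fin (p ^ (n - t)) =>
        (⟨(j : ℕ) • F.recH n hP a₁, (j : ℕ) • a₁, map_nsmul _ _ _⟩ : (F.recH n hP).range)) := by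
      intro i j e
      have e' : ((i * p ^ t : ℕ) : ZMod (p ^ n)) = ((j * p ^ t : ℕ) : ZMod (p ^ n)) := by
        simpa [ha₁, hσt, nsmul_eq_mul] using congrArg Subtype.val e
      have hb : ∀ l : Fin (p ^ (n - t)), (l : ℕ) * p ^ t < p ^ n := fun l =>
        lt_of_lt_of_eq (Nat.mul_lt_mul_of_pos_right l.2 (pow_pos hp.out.pos t))
          (by rw [← pow_add, Nat.sub_add_cancel htn])
      rw [ZMod.natCast_eq_natCast_iff', Nat.mod_eq_of_lt (hb i), Nat.mod_eq_of_lt (hb j)] at e'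
      exact Fin.ext (Nat.eq_of_mul_eq_mul_right (pow_pos hp.out.pos t) e')
    simpa using Nat.card_le_card_of_injective _ hi
  have hup : Nat.card (F.clsB n hP).range ≤ p ^ (n - t) :=
    le_trans (Nat.card_le_card_of_injective
      (fun x => (⟨x.1, by obtain ⟨b, hb⟩ := x.2; exact hb ▸ hmem b⟩ :
        Kr (C := C) (inf_le_left : P ⊓ F.gam n ≤ P)))
      fun x y h => Subtype.ext (congrArg Subtype.val h :)) hcard
  have hbij := hsurj.bijective_of_nat_card_le (hup.trans hlow)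
  have h0 := hbij.1 (a₁ := ⟨_, a, rfl⟩) (a₂ := ⟨_, 0, rfl⟩) (by
    rw [hΦ, hΦ]
    exact Subtype.ext (h.trans (map_zero _).symm))
  exact (F.clsB_eq_zero (hH := hP)).mp ((congrArg Subtype.val h0).trans (map_zero _))

/-- In the layer, a class is determined by its reciprocity. -/
theorem triv2_of_recH {n : ℕ} {H : Subgroup L.G} (hH : L.IsOpen H) {a : fixPts C H}
    (h : F.recH n hH a = 0) : Triv2 H (beta (F.chi n) (a : C)) := by
  haveI := L.normal _ F.mu_level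
  have hK : L.IsOpen (H ⊓ F.mu) := hH.inf F.mu_open
  have h1 : Triv2 (H ⊓ F.mu) (beta (F.chi n) (a : C)) :=
    F.triv2_of_recH_mu hK inf_le_right (a := ⟨a, fixPts_anti inf_le_left a.2⟩)
      (by rw [F.recH_res n hH hK inf_le_left a.2, Subtype.coe_eta, h, smul_zero])
  have hm := F.beta_mem_Zc (n := n) hH a.2
  obtain ⟨t, ht⟩ := F.exists_isExp n H
  have hc := F.isCyc hH ht
  refine Triv2.of_coprime ?_ (nsmul_triv2_of_triv2 F.smooth hK inf_le_left hm.2 hm.1 h1)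
    (nsmul_triv2_of_triv2 F.smooth (hH.inf (F.gam_open n)) inf_le_left hm.2 hm.1
      ((hc.beta_triv_kernel (a : C)).congr fun g hg g' hg' =>
        F.beta_chiH_congr ht (a : C) g hg.1 g' hg'.1))
  rw [hc.relIndex_eq, Subgroup.inf_relIndex_left]
  exact Nat.Coprime.pow_right _ ((Nat.Prime.coprime_iff_not_dvd hp.out).mpr fun hd =>
    F.mu_index (hd.trans (Subgroup.relIndex_dvd_index_of_normal F.mu H))).symm

/-- A class dying on a `p`-level dies in the layer. -/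
theorem exists_triv2_gam {P N : Subgroup L.G} (hle : N ≤ P) (hP : P ≤ F.mu) (hN : L.IsOpen N)
    (hn : (N.subgroupOf P).Normal) {k : ℕ} (hk : N.relIndex P = p ^ k) {z : L.G × L.G → C}
    (hz : z ∈ Zc L C P) (hzN : Triv2 N z) : ∃ n, Triv2 (P ⊓ F.gam n) z := by
  have hPo : L.IsOpen P := hN.of_le hle
  haveI := hPo.finiteIndex
  obtain ⟨v, u, hu, hv⟩ := Nat.exists_eq_pow_mul_and_not_dvd P.index_ne_zero_of_finite p
    hp.out.ne_one
  obtain ⟨g, hg⟩ := F.chi_surj (v + k) 1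
  obtain ⟨a₁, ha₁⟩ := F.exists_recH (v + k) (top_open L) (Subgroup.mem_top g)
  rw [hg, F.recH_top] at ha₁
  have hfix : ∀ K, (a₁ : C) ∈ fixPts C K := fun K => fixPts_anti le_top a₁.2
  have hrec : ∀ (K : Subgroup L.G) (hK : L.IsOpen K) (j : ℕ),
      F.recH (v + k) hK ⟨j • (a₁ : C), nsmul_mem (hfix K) j⟩ =
        ((j * K.index : ℕ) : ZMod (p ^ (v + k))) := fun K hK j => by
    rw [show (⟨j • (a₁ : C), nsmul_mem (hfix K) j⟩ : fixPts C K) = j • ⟨_, hfix K⟩ from rfl,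
      map_nsmul, F.recH_res _ (top_open L) hK le_top a₁.2, Subtype.coe_eta, F.recH_top, ha₁,
      Subgroup.relIndex_top_right, smul_smul, nsmul_eq_mul, mul_one]
  obtain ⟨hfin, hcard⟩ := F.card_Kr_pgroup k P N hle hP hN hn hk
  have hNidx : N.index = p ^ (v + k) * u := by
    rw [← Subgroup.relIndex_mul_index hle, hk, hv, pow_add]; ring
  have hNa : ∀ j : ℕ, Triv2 N (beta (F.chi (v + k)) (j • (a₁ : C))) := fun j =>
    F.triv2_of_recH hN (a := ⟨_, nsmul_mem (hfix N) j⟩) (by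
      rw [hrec N hN j, hNidx, ← mul_assoc, mul_comm j, mul_assoc, Nat.cast_mul,
        ZMod.natCast_self, zero_mul])
  let ι : Fin (p ^ k) → Kr (C := C) hle := fun j =>
    ⟨F.clsB (v + k) hPo ⟨(j : ℕ) • (a₁ : C), nsmul_mem (hfix P) _⟩,
      (mem_Kr hle).mpr (hNa j)⟩
  have hι : Function.Injective ι := by
    intro i j e
    have e1 : F.clsB (v + k) hPo ⟨(i : ℕ) • (a₁ : C), nsmul_mem (hfix P) _⟩ =
        F.clsB (v + k) hPo ⟨(j : ℕ) • (a₁ : C), nsmul_mem (hfix P) _⟩ := congrArg Subtype.val e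
    rw [← sub_eq_zero, ← map_sub, clsB_eq_zero] at e1
    have e2 := F.recH_eq_zero_of_cls hPo e1
    rw [map_sub, hrec P hPo, hrec P hPo, sub_eq_zero, hv, ← mul_assoc, ← mul_assoc, Nat.cast_mul,
      Nat.cast_mul (_ * _) u] at e2
    have hcop : u.Coprime (p ^ (v + k)) :=
      Nat.Coprime.pow_right _ ((Nat.Prime.coprime_iff_not_dvd hp.out).mpr hu).symm
    rw [← ZMod.coe_unitOfCoprime u hcop, Units.mul_left_inj, ZMod.natCast_eq_natCast_iff'] at e2
    have hb : ∀ l : Fin (p ^ k), (l : ℕ) * p ^ v < p ^ (v + k) := fun l =>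
      lt_of_lt_of_eq (Nat.mul_lt_mul_of_pos_right l.2 (pow_pos hp.out.pos v))
        (by rw [← pow_add, add_comm])
    rw [Nat.mod_eq_of_lt (hb i), Nat.mod_eq_of_lt (hb j)] at e2
    exact Fin.ext (Nat.eq_of_mul_eq_mul_right (pow_pos hp.out.pos v) e2)
  have hbij := hι.bijective_of_nat_card_le (by simpa using hcard)
  obtain ⟨j, hj⟩ := hbij.2 ⟨mkCls ⟨z, hz⟩, (mem_Kr hle).mpr hzN⟩
  refine ⟨v + k, ?_⟩
  have h1 : Triv2 P (beta (F.chi (v + k)) ((j : ℕ) • (a₁ : C)) - z) := by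
    have e1 : F.clsB (v + k) hPo ⟨(j : ℕ) • (a₁ : C), nsmul_mem (hfix P) _⟩ - mkCls ⟨z, hz⟩ = 0 :=
      sub_eq_zero.mpr (congrArg Subtype.val hj)
    rw [show F.clsB (v + k) hPo ⟨(j : ℕ) • (a₁ : C), nsmul_mem (hfix P) _⟩ =
      mkCls ⟨beta (F.chi (v + k)) ((j : ℕ) • (a₁ : C)), F.beta_mem_Zc hPo (nsmul_mem (hfix P) _)⟩
      from rfl, ← map_sub] at e1
    exact mkCls_eq_zero.mp e1
  obtain ⟨t, ht⟩ := F.exists_isExp (v + k) P
  have h2 := (((F.isCyc hPo ht).beta_triv_kernel ((j : ℕ) • (a₁ : C))).congr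
    fun g hg g' hg' => F.beta_chiH_congr ht _ g hg.1 g' hg'.1).sub (h1.mono inf_le_left)
  rwa [sub_sub_cancel] at h2

/-- Every class is, up to multiples prime to `p`, the class of a fixed point in the layer. -/
theorem exists_beta {H : Subgroup L.G} (hH : L.IsOpen H) {z : L.G × L.G → C}
    (hz : z ∈ Zc L C H) :
    ∃ m n : ℕ, m.Coprime p ∧ ∃ a ∈ fixPts C H, Triv2 H (m • z - beta (F.chi n) a) := by
  obtain ⟨N, hN, hle, hzN⟩ := exists_level_triv2 F.smooth hH hz.1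
  obtain ⟨P, k, h1, h2, h3, h4, h5⟩ :=
    F.exists_sylow (N := N ⊓ F.mu) hH (L.inf _ _ hN F.mu_level) (inf_le_inf hle le_rfl)
  have hPH : P ≤ H := h2.trans inf_le_left
  obtain ⟨n, hn⟩ := F.exists_triv2_gam h1 (h2.trans inf_le_right)
    ⟨_, L.inf _ _ hN F.mu_level, le_rfl⟩ h3 h4 (z := z) ⟨hz.1, hz.2.mono hPH⟩
    (hzN.mono inf_le_left)
  have hPo : L.IsOpen P := ⟨_, L.inf _ _ hN F.mu_level, h1⟩
  obtain ⟨t, ht⟩ := F.exists_isExp n H
  obtain ⟨t', ht'⟩ := F.exists_isExp n P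
  have hcH := F.isCyc hH ht
  have hcP := F.isCyc hPo ht'
  set m₀ := (P ⊓ F.gam n).relIndex (H ⊓ F.gam n)
  have htt : t ≤ t' := by
    obtain ⟨σ, hσ, hσt⟩ := ht'.2.2
    rcases eq_or_lt_of_le ht'.1 with rfl | hlt
    · exact ht.1
    have h := ht.2.1 σ (hPH hσ)
    rw [hσt, ZMod.val_natCast, Nat.mod_eq_of_lt (Nat.pow_lt_pow_right hp.out.one_lt hlt)] at h
    exact (Nat.pow_dvd_pow_iff_le_right hp.out.one_lt).mp h
  have hm₀ : m₀.Coprime p := by
    have e1 := Subgroup.relIndex_mul_relIndex (P ⊓ F.gam n) (H ⊓ F.gam n) H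
      (inf_le_inf hPH le_rfl) inf_le_left
    have e2 := Subgroup.relIndex_mul_relIndex (P ⊓ F.gam n) P H inf_le_left hPH
    rw [hcH.relIndex_eq] at e1
    rw [hcP.relIndex_eq, ← e1, show n - t = (t' - t) + (n - t') by have := ht'.1; omega, pow_add,
      ← mul_assoc, mul_comm (p ^ (n - t'))] at e2
    have e3 := Nat.eq_of_mul_eq_mul_right (pow_pos hp.out.pos _) e2
    refine ((Nat.Prime.coprime_iff_not_dvd hp.out).mpr fun hd => ?_).symm
    exact (Nat.Prime.coprime_iff_not_dvd hp.out).mp h5.symm (e3 ▸ hd.mul_right _)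
  have h6 := nsmul_triv2_of_triv2 F.smooth (hPo.inf (F.gam_open n)) (inf_le_inf hPH le_rfl)
    (hz.2.mono inf_le_left) hz.1 hn
  obtain ⟨m, hm, a, ha, e⟩ := hcH.exists_beta_of_triv2 F.smooth (p := p)
    (fun f hf hc => F.h1_primary (hH.inf (F.gam_open n)) hf hc) (nsmul_mem hz m₀) h6
  refine ⟨m * m₀, n, hm.mul_left hm₀, a, ha, ?_⟩
  rw [mul_smul]
  exact e.congr fun g hg g' hg' => by
    rw [Pi.sub_apply, Pi.sub_apply, F.beta_chiH_congr ht a g hg g' hg']

end Formation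

end Fermat.Agent.GD
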