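import Fermat.Agent.GD.Global.ClassFormation.Cyclic

/-!
# A class formation from the two inequalities and a cyclotomic layer
-/

set_option autoImplicit false
set_option linter.unusedSectionVars false
set_option linter.style.haveILetI false

noncomputable section

namespace Fermat.Agent.GD

universe u w

theorem top_open (L : LevelGroup.{u}) : L.IsOpen (⊤ : Subgroup L.G) :=
  ⟨_, L.exists_level.choose_spec, le_top⟩

/-- The norms inside the fixed points. -/
def normSub {L : LevelGroup.{u}} (C : Type w) [AddCommGroup C] [DistribMulAction L.G C]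
    (H H' : Subgroup L.G) : AddSubgroup (fixPts C H) :=
  AddSubgroup.closure {c | ∃ y ∈ fixPts C H', (c : C) = nm H H' y}

/-- The data: two inequalities below a subgroup of index prime to `p`, and a layer with
reciprocity. -/
structure Formation (L : LevelGroup.{u}) (C : Type w) [AddCommGroup C] [DistribMulAction L.G C]
    (p : ℕ) where
  smooth : L.Smooth C
  mu : Subgroup L.G
  mu_level : L.IsLevel mu
  mu_index : ¬ p ∣ mu.index
  chi : ∀ n, L.G → ZMod (p ^ n)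
  chi_add : ∀ n g h, chi n (g * h) = chi n g + chi n h
  chi_surj : ∀ n, Function.Surjective (chi n)
  chi_cast : ∀ m n (h : m ≤ n) g, ZMod.castHom (pow_dvd_pow p h) (ZMod (p ^ m)) (chi n g) = chi m g
  chi_const : ∀ n, L.Const₁ (chi n)
  recip : ∀ n, fixPts C (⊤ : Subgroup L.G) →+ ZMod (p ^ n)
  recip_cast : ∀ m n (h : m ≤ n) a,
    ZMod.castHom (pow_dvd_pow p h) (ZMod (p ^ m)) (recip n a) = recip m a
  recip_norm : ∀ n (K : Subgroup L.G), L.IsOpen K → (∀ g, g ∈ K ↔ chi n g = 0) →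
    ∀ y ∈ fixPts C K, ∀ hy : nm (⊤ : Subgroup L.G) K y ∈ fixPts C (⊤ : Subgroup L.G),
      recip n ⟨_, hy⟩ = 0
  recip_gen : ∀ H : Subgroup L.G, L.IsOpen H → ∀ h ∈ H, ∀ n,
    ∃ a ∈ fixPts C H, ∃ ha : nm (⊤ : Subgroup L.G) H a ∈ fixPts C (⊤ : Subgroup L.G),
      recip n ⟨_, ha⟩ = chi n h
  cyc_card : ∀ H H' : Subgroup L.G, L.IsOpen H' → H' ≤ H → H ≤ mu → (H'.subgroupOf H).Normal →
    H'.relIndex H = p → Nat.card (fixPts C H ⧸ normSub C H H') = p
  cyc_h1 : ∀ H H' : Subgroup L.G, L.IsOpen H' → H' ≤ H → H ≤ mu → (H'.subgroupOf H).Normal →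
    H'.relIndex H = p → ∀ f : L.G → C, L.Const₁ f → Coc1 H f → (∀ k ∈ H', f k = 0) → Triv1 H f

variable {L : LevelGroup.{u}} {C : Type w} [AddCommGroup C] [DistribMulAction L.G C] {p : ℕ}
  [hp : Fact p.Prime] (F : Formation L C p)

namespace Formation

/-- The kernel of the layer. -/
def gam (n : ℕ) : Subgroup L.G where
  carrier := {g | F.chi n g = 0}
  one_mem' := by
    have h := F.chi_add n 1 1
    rw [mul_one, left_eq_add] at h
    exact h
  mul_mem' := fun {a b} (ha : F.chi n a = 0) (hb : F.chi n b = 0) => by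
    show F.chi n (a * b) = 0
    rw [F.chi_add, ha, hb, add_zero]
  inv_mem' := fun {a} (ha : F.chi n a = 0) => by
    show F.chi n a⁻¹ = 0
    have h := F.chi_add n a⁻¹ a
    have h1 := F.chi_add n 1 1
    rw [mul_one, left_eq_add] at h1
    rw [inv_mul_cancel, h1, ha, add_zero] at h
    exact h.symm

theorem mem_gam {n : ℕ} {g : L.G} : g ∈ F.gam n ↔ F.chi n g = 0 := Iff.rfl

theorem chi_one (n : ℕ) : F.chi n 1 = 0 := (F.gam n).one_mem

theorem chi_pow (n : ℕ) (g : L.G) (j : ℕ) : F.chi n (g ^ j) = j • F.chi n g := by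
  induction j with
  | zero => rw [pow_zero, chi_one, zero_nsmul]
  | succ j ih => rw [pow_succ, F.chi_add, ih, succ_nsmul]

theorem gam_open (n : ℕ) : L.IsOpen (F.gam n) := by
  obtain ⟨N, hN, h⟩ := F.chi_const n
  refine ⟨N, hN, fun s hs => ?_⟩
  have := h 1 s hs
  rwa [one_mul, chi_one] at this

theorem mu_open : L.IsOpen F.mu := ⟨_, F.mu_level, le_rfl⟩

/-! ## The layer on an open subgroup -/

/-- The exponent of the image of a subgroup in the layer. -/
def IsExp (n : ℕ) (H : Subgroup L.G) (t : ℕ) : Prop :=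
  t ≤ n ∧ (∀ g ∈ H, p ^ t ∣ (F.chi n g).val) ∧ ∃ σ ∈ H, F.chi n σ = ((p ^ t : ℕ) : ZMod (p ^ n))

theorem exists_isExp (n : ℕ) (H : Subgroup L.G) : ∃ t, F.IsExp n H t := by
  classical
  have hex : ∃ t, ∃ g ∈ H, F.chi n g = ((p ^ t : ℕ) : ZMod (p ^ n)) :=
    ⟨n, 1, H.one_mem, by rw [chi_one, ZMod.natCast_self]⟩
  refine ⟨Nat.find hex, Nat.find_le ⟨1, H.one_mem, by rw [chi_one, ZMod.natCast_self]⟩,
    fun g hg => ?_, Nat.find_spec hex⟩
  set v := (F.chi n g).val
  rcases Nat.eq_zero_or_pos v with h0 | h0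
  · rw [h0]; exact dvd_zero _
  obtain ⟨s, u, hu, hv⟩ := Nat.exists_eq_pow_mul_and_not_dvd h0.ne' p hp.out.ne_one
  have hsn : s ≤ n := by
    by_contra hc
    have h1 : p ^ n ≤ v :=
      Nat.le_of_dvd h0 (hv ▸ dvd_mul_of_dvd_left (pow_dvd_pow p (not_le.mp hc).le) u)
    exact absurd (ZMod.val_lt (F.chi n g)) (not_lt.mpr h1)
  have hcop : u.Coprime (p ^ n) :=
    Nat.Coprime.pow_right _ ((Nat.Prime.coprime_iff_not_dvd hp.out).mpr hu).symm
  set j := (ZMod.unitOfCoprime u hcop)⁻¹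
  have h1 : F.chi n (g ^ (j : ZMod (p ^ n)).val) = ((p ^ s : ℕ) : ZMod (p ^ n)) := by
    rw [chi_pow, nsmul_eq_mul, ZMod.natCast_zmod_val,
      show F.chi n g = ((v : ℕ) : ZMod (p ^ n)) from (ZMod.natCast_zmod_val _).symm, hv,
      Nat.cast_mul, ← ZMod.coe_unitOfCoprime u hcop, mul_left_comm, Units.inv_mul, mul_one]
  exact (pow_dvd_pow p (Nat.find_le ⟨_, pow_mem hg _, h1⟩)).trans (hv ▸ dvd_mul_right _ _)

/-- The layer on a subgroup, normalised. -/
def chiH (n t : ℕ) (g : L.G) : ZMod (p ^ (n - t)) := (((F.chi n g).val / p ^ t : ℕ) : ZMod _)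

theorem val_div_lt {n t : ℕ} (ht : t ≤ n) (g : L.G) :
    (F.chi n g).val / p ^ t < p ^ (n - t) := by
  rw [Nat.div_lt_iff_lt_mul (pow_pos hp.out.pos t), ← pow_add, Nat.sub_add_cancel ht]
  exact ZMod.val_lt _

theorem isCyc {n t : ℕ} {H : Subgroup L.G} (hH : L.IsOpen H) (ht : F.IsExp n H t) :
    IsCyc H (H ⊓ F.gam n) (p ^ (n - t)) (F.chiH n t) := by
  obtain ⟨htn, hdvd, σ, hσ, hσt⟩ := ht
  have hpt := pow_pos hp.out.pos t
  refine ⟨fun g hg h hh => ?_, fun g hg => ⟨fun h0 => ⟨hg, ?_⟩, fun h0 => ?_⟩, ⟨σ, hσ, ?_⟩,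
    inf_le_left, hH.inf (F.gam_open n), ?_⟩
  · obtain ⟨a, ha⟩ := hdvd g hg
    obtain ⟨b, hb⟩ := hdvd h hh
    simp only [chiH]
    rw [← Nat.cast_add, F.chi_add, ZMod.val_add, ha, hb, Nat.mul_div_cancel_left _ hpt,
      Nat.mul_div_cancel_left _ hpt, ← mul_add,
      show p ^ n = p ^ t * p ^ (n - t) by rw [← pow_add, Nat.add_sub_cancel' htn],
      Nat.mul_mod_mul_left, Nat.mul_div_cancel_left _ hpt, ZMod.natCast_mod]
  · rw [chiH, ZMod.natCast_eq_zero_iff] at h0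
    have h1 := Nat.eq_zero_of_dvd_of_lt h0 (F.val_div_lt htn g)
    have h2 := Nat.div_mul_cancel (hdvd g hg)
    rw [h1, zero_mul] at h2
    exact (ZMod.val_eq_zero _).mp h2.symm
  · rw [chiH, F.mem_gam.mp h0.2, ZMod.val_zero, Nat.zero_div, Nat.cast_zero]
  · rw [chiH, hσt]
    rcases eq_or_lt_of_le htn with rfl | h
    · have : Subsingleton (ZMod (p ^ (t - t))) := by
        rw [Nat.sub_self, pow_zero]; infer_instance
      exact Subsingleton.elim _ _
    · rw [ZMod.val_natCast, Nat.mod_eq_of_lt (Nat.pow_lt_pow_right hp.out.one_lt h),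
        Nat.div_self hpt, Nat.cast_one]
  · obtain ⟨N, hN, h⟩ := F.chi_const n
    exact ⟨N, hN, fun g s hs => by simp only [chiH, h g s hs]⟩

theorem carry_chiH {n t : ℕ} {H : Subgroup L.G} (ht : F.IsExp n H t) {g h : L.G} (hg : g ∈ H)
    (hh : h ∈ H) : carry (F.chiH n t) g h = carry (F.chi n) g h := by
  obtain ⟨htn, hdvd, -⟩ := ht
  have hpt := pow_pos hp.out.pos t
  obtain ⟨a, ha⟩ := hdvd g hg
  obtain ⟨b, hb⟩ := hdvd h hh
  have hval : ∀ x, (F.chiH n t x).val = (F.chi n x).val / p ^ t := fun x => by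
    rw [chiH, ZMod.val_natCast, Nat.mod_eq_of_lt (F.val_div_lt htn x)]
  simp only [carry, hval]
  rw [ha, hb, Nat.mul_div_cancel_left _ hpt, Nat.mul_div_cancel_left _ hpt, ← mul_add,
    show p ^ n = p ^ t * p ^ (n - t) by rw [← pow_add, Nat.add_sub_cancel' htn],
    Nat.mul_div_mul_left _ _ hpt]

theorem beta_chiH_congr {n t : ℕ} {H : Subgroup L.G} (ht : F.IsExp n H t) (a : C) :
    ∀ g ∈ H, ∀ h ∈ H, beta (F.chi n) a (g, h) = beta (F.chiH n t) a (g, h) := fun g hg h hh => by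
  simp only [beta, F.carry_chiH ht hg hh]

theorem beta_mem_Zc {n : ℕ} {H : Subgroup L.G} (hH : L.IsOpen H) {a : C}
    (ha : a ∈ fixPts C H) : beta (F.chi n) a ∈ Zc L C H := by
  obtain ⟨t, ht⟩ := F.exists_isExp n H
  obtain ⟨-, h2⟩ := (F.isCyc hH ht).beta_mem ha
  obtain ⟨N, hN, h⟩ := F.chi_const n
  refine ⟨⟨N, hN, fun g g' s hs s' hs' => by simp only [beta, carry, h g s hs, h g' s' hs']⟩,
    fun g hg g' hg' j hj => ?_⟩
  rw [F.beta_chiH_congr ht a g' hg' j hj, F.beta_chiH_congr ht a g hg _ (mul_mem hg' hj),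
    F.beta_chiH_congr ht a _ (mul_mem hg hg') j hj, F.beta_chiH_congr ht a g hg g' hg']
  exact h2 g hg g' hg' j hj

/-- Changing the layer. -/
theorem beta_level {m n : ℕ} (hmn : m ≤ n) {H : Subgroup L.G} {a : C} (ha : a ∈ fixPts C H) :
    Triv2 H (beta (F.chi n) (p ^ (n - m) • a) - beta (F.chi m) a) := by
  obtain ⟨N, hN, hc⟩ := F.chi_const n
  refine ⟨fun g => ((F.chi n g).val / p ^ m) • a, ⟨N, hN, fun g s hs => by simp only [hc g s hs]⟩,
    fun g hg h hh => ?_⟩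
  have hP : p ^ n = p ^ m * p ^ (n - m) := by rw [← pow_add, Nat.add_sub_cancel' hmn]
  have hval : ∀ x, (F.chi m x).val = (F.chi n x).val % p ^ m := fun x => by
    rw [← F.chi_cast m n hmn x, ZMod.castHom_apply, ZMod.cast_eq_val, ZMod.val_natCast]
  set x := (F.chi n g).val
  set y := (F.chi n h).val
  have key : x / p ^ m + y / p ^ m + (x % p ^ m + y % p ^ m) / p ^ m =
      (F.chi n (g * h)).val / p ^ m + p ^ (n - m) * ((x + y) / p ^ n) := by
    have hpm := pow_pos hp.out.pos m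
    have e1 : x + y = (x % p ^ m + y % p ^ m) + p ^ m * (x / p ^ m + y / p ^ m) := by
      conv_lhs => rw [← Nat.mod_add_div x (p ^ m), ← Nat.mod_add_div y (p ^ m)]
      ring
    have e2 : x + y = (F.chi n (g * h)).val + p ^ m * (p ^ (n - m) * ((x + y) / p ^ n)) := by
      rw [← mul_assoc, ← hP, F.chi_add, ZMod.val_add]
      exact (Nat.mod_add_div _ _).symm
    have e3 := congrArg (· / p ^ m) (e1.symm.trans e2)
    simp only [Nat.add_mul_div_left _ _ hpm] at e3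
    omega
  rw [d₁_apply, smul_comm g, ha g hg, Pi.sub_apply]
  simp only [beta, carry, hval, smul_smul]
  have h2 := congrArg (fun k => k • a) key
  simp only [add_smul, mul_comm (p ^ (n - m))] at h2
  rw [sub_eq_iff_eq_add]
  rw [← sub_eq_zero] at h2 ⊢
  rw [← neg_eq_zero, ← h2]
  abel

/-! ## The vanishing of the first cohomology -/

theorem exists_step {P N : Subgroup L.G} (hle : N ≤ P) (hn : (N.subgroupOf P).Normal) {k : ℕ}
    (hk : N.relIndex P = p ^ (k + 1)) :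
    ∃ P₁ : Subgroup L.G, N ≤ P₁ ∧ P₁ ≤ P ∧ (N.subgroupOf P₁).Normal ∧
      N.relIndex P₁ = p ^ k ∧ (P₁.subgroupOf P).Normal ∧ P₁.relIndex P = p := by
  have hcard : Nat.card (P ⧸ N.subgroupOf P) = p ^ (k + 1) := hk
  haveI : Finite (P ⧸ N.subgroupOf P) :=
    Nat.finite_of_card_ne_zero (by rw [hcard]; exact pow_ne_zero _ hp.out.ne_zero)
  obtain ⟨K, hK⟩ := Sylow.exists_subgroup_card_pow_prime p
    (show p ^ k ∣ Nat.card (P ⧸ N.subgroupOf P) by rw [hcard]; exact pow_dvd_pow p k.le_succ)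
  have hKi : K.index = p := by
    have h := K.index_mul_card
    rw [hK, hcard, pow_succ'] at h
    exact Nat.eq_of_mul_eq_mul_right (pow_pos hp.out.pos k) h
  haveI hKn : K.Normal := Subgroup.normal_of_index_eq_minFac_card (by
    rw [hKi, hcard, Nat.pow_minFac (Nat.succ_ne_zero k), hp.out.minFac_eq])
  let J : Subgroup P := K.comap (QuotientGroup.mk' _)
  have hNJ : N.subgroupOf P ≤ J := fun x hx => by
    show QuotientGroup.mk' _ x ∈ K
    rw [show QuotientGroup.mk' (N.subgroupOf P) x = 1 from (QuotientGroup.eq_one_iff x).mpr hx]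
    exact K.one_mem
  have hN₁ : N ≤ J.map P.subtype := fun x hx =>
    ⟨⟨x, hle hx⟩, hNJ (Subgroup.mem_subgroupOf.mpr hx), rfl⟩
  have hJ : (J.map P.subtype).subgroupOf P = J :=
    Subgroup.comap_map_eq_self_of_injective P.subtype_injective J
  have hidx : (J.map P.subtype).relIndex P = p := by
    rw [Subgroup.relIndex, hJ, Subgroup.index_comap_of_surjective _ (QuotientGroup.mk'_surjective _),
      hKi]
  refine ⟨J.map P.subtype, hN₁, Subgroup.map_subtype_le J, ⟨fun x hx y => ?_⟩, ?_, ?_, hidx⟩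
  · have hy : ((y : J.map P.subtype) : L.G) ∈ P := Subgroup.map_subtype_le J y.2
    have := hn.conj_mem ⟨x, hle hx⟩ hx ⟨y, hy⟩
    exact this
  · have h := Subgroup.relIndex_mul_relIndex N _ P hN₁ (Subgroup.map_subtype_le J)
    rw [hidx, hk, pow_succ] at h
    exact Nat.eq_of_mul_eq_mul_right hp.out.pos h
  · rw [hJ]; infer_instance

theorem triv1_of_pgroup : ∀ (k : ℕ) (P N : Subgroup L.G), P ≤ F.mu → N ≤ P → L.IsOpen N →
    (N.subgroupOf P).Normal → N.relIndex P = p ^ k →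
    ∀ f : L.G → C, L.Const₁ f → Coc1 P f → Triv1 N f → Triv1 P f := by
  intro k
  induction k with
  | zero =>
    intro P N _ _ _ _ hk f _ _ ⟨c, hc⟩
    exact ⟨c, fun g hg => hc g (Subgroup.relIndex_eq_one.mp (by rw [hk, pow_zero]) hg)⟩
  | succ k ih =>
    intro P N hP hle hN hn hk f hfc hf hfN
    obtain ⟨P₁, h1, h2, h3, h4, h5, h6⟩ := exists_step hle hn hk
    obtain ⟨c, hc⟩ := ih P₁ N (h2.trans hP) h1 hN h3 h4 f hfc (hf.mono h2) hfN
    obtain ⟨Nc, hNc, hfix⟩ := F.smooth c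
    have hc1 : L.Const₁ fun g : L.G => g • c - c :=
      ⟨Nc, hNc, fun g s hs => by simp only [mul_smul, hfix s hs]⟩
    obtain ⟨e, he⟩ := F.cyc_h1 P P₁ (hN.of_le h1) h2 hP h5 h6 (fun g => f g - (g • c - c))
      (hfc.comp₂ L hc1 (· - ·))
      (fun g hg h hh => by simp only [hf g hg h hh, mul_smul, smul_sub]; abel)
      (fun g hg => sub_eq_zero.mpr (hc g hg))
    refine ⟨c + e, fun g hg => ?_⟩
    rw [eq_add_of_sub_eq (he g hg), smul_add]
    abel

theorem exists_sylow {H N : Subgroup L.G} (hH : L.IsOpen H) (hN : L.IsLevel N)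
    (hle : N ≤ H ⊓ F.mu) :
    ∃ (P : Subgroup L.G) (k : ℕ), N ≤ P ∧ P ≤ H ⊓ F.mu ∧ (N.subgroupOf P).Normal ∧
      N.relIndex P = p ^ k ∧ (P.relIndex H).Coprime p := by
  haveI := L.normal N hN
  haveI := L.finiteIndex N hN
  set H₀ := H ⊓ F.mu
  haveI : Finite (H₀ ⧸ N.subgroupOf H₀) := inferInstance
  obtain ⟨S⟩ : Nonempty (Sylow p (H₀ ⧸ N.subgroupOf H₀)) := inferInstance
  let J : Subgroup H₀ := (S : Subgroup (H₀ ⧸ N.subgroupOf H₀)).comap (QuotientGroup.mk' _)
  have hNJ : N ≤ J.map H₀.subtype := fun x hx => ⟨⟨x, hle hx⟩, by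
    show QuotientGroup.mk' (N.subgroupOf H₀) ⟨x, hle hx⟩ ∈ (S : Subgroup (H₀ ⧸ N.subgroupOf H₀))
    rw [show QuotientGroup.mk' (N.subgroupOf H₀) ⟨x, hle hx⟩ = 1 from
      (QuotientGroup.eq_one_iff _).mpr (Subgroup.mem_subgroupOf.mpr hx)]
    exact one_mem _, rfl⟩
  have hJidx : (J.map H₀.subtype).relIndex H₀ = (S : Subgroup (H₀ ⧸ N.subgroupOf H₀)).index := by
    rw [Subgroup.relIndex, show (J.map H₀.subtype).subgroupOf H₀ = J from
      Subgroup.comap_map_eq_self_of_injective H₀.subtype_injective J,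
      Subgroup.index_comap_of_surjective _ (QuotientGroup.mk'_surjective _)]
  have hmul := Subgroup.relIndex_mul_relIndex N _ H₀ hNJ (Subgroup.map_subtype_le J)
  obtain ⟨k, hk⟩ := IsPGroup.iff_card.mp S.isPGroup'
  refine ⟨J.map H₀.subtype, k, hNJ, Subgroup.map_subtype_le J, inferInstance, ?_, ?_⟩
  · rw [hJidx, show N.relIndex H₀ = (S : Subgroup (H₀ ⧸ N.subgroupOf H₀)).index * p ^ k by
      rw [Subgroup.relIndex, Subgroup.index, ← hk, ← Subgroup.index_mul_card (S : Subgroup (H₀ ⧸ N.subgroupOf H₀))],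
      mul_comm] at hmul
    exact Nat.eq_of_mul_eq_mul_left (Nat.pos_of_ne_zero Subgroup.index_ne_zero_of_finite) hmul
  · rw [← Subgroup.relIndex_mul_relIndex _ H₀ H (Subgroup.map_subtype_le J) inf_le_left, hJidx]
    refine Nat.Coprime.mul_left ((Nat.Prime.coprime_iff_not_dvd hp.out).mpr ?_).symm
      ((Nat.Prime.coprime_iff_not_dvd hp.out).mpr fun hd => ?_).symm
    · exact S.not_dvd_index
    · rw [Subgroup.inf_relIndex_left] at hd
      haveI := L.normal _ F.mu_level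
      exact F.mu_index (hd.trans (Subgroup.relIndex_dvd_index_of_normal F.mu H))

include F in
/-- The first cohomology of an open subgroup has order prime to `p`. -/
theorem h1_primary {H : Subgroup L.G} (hH : L.IsOpen H) {f : L.G → C} (hfc : L.Const₁ f)
    (hf : Coc1 H f) : ∃ m : ℕ, m.Coprime p ∧ Triv1 H ((m • f : L.G → C)) := by
  obtain ⟨N, hN, hle, c, hc⟩ := exists_level_triv1 hH hfc hf
  set N' := N ⊓ F.mu
  have hN' : L.IsLevel N' := L.inf _ _ hN F.mu_level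
  obtain ⟨P, k, h1, h2, h3, h4, h5⟩ :=
    F.exists_sylow (N := N') hH hN' (inf_le_inf hle le_rfl)
  have ht := F.triv1_of_pgroup k P N' (h2.trans inf_le_right) h1 ⟨_, hN', le_rfl⟩ h3 h4 f hfc
    (hf.mono (h2.trans inf_le_left)) ⟨c, fun g hg => hc g hg.1⟩
  exact ⟨_, h5, nsmul_triv1_of_triv1 ⟨_, hN', h1⟩ (h2.trans inf_le_left) hf ht⟩

end Formation

end Fermat.Agent.GD
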