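import Fermat.Agent.GD.Local.Bridge
import Fermat.Agent.GD.Local.Units

/-!
# Orders, residues and approximation over the henselisation of `ℚ`
-/

set_option autoImplicit false
set_option linter.unusedSectionVars false
set_option linter.style.haveILetI false

noncomputable section

namespace Fermat.Agent.GD

open Fermat.Agent.Galois (GQ)

local notation "ℚb" => AlgebraicClosure ℚ

/-- The order, for the elements whose value is a power of that of `q`. -/
def ordAt (A : ValuationSubring ℚb) (q : ℕ) (x : ℚb) : ℤ :=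
  open scoped Classical in
  if h : ∃ k : ℤ, A.valuation x = A.valuation (q : ℚb) ^ k then h.choose else 0

/-- The units of the henselisation. -/
def decU (A : ValuationSubring ℚb) : Subgroup ℚbˣ :=
  (decField A).toSubfield.toSubring.toSubmonoid.units

theorem mem_decU {A : ValuationSubring ℚb} {x : ℚbˣ} : x ∈ decU A ↔ (x : ℚb) ∈ decField A :=
  ⟨fun h => h.1, fun h => ⟨h, by
    show ((x⁻¹ : ℚbˣ) : ℚb) ∈ decField A
    rw [Units.val_inv_eq_inv_val]
    exact inv_mem h⟩⟩

variable {A : ValuationSubring (AlgebraicClosure ℚ)} {q : ℕ} (hq : q.Prime)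
  (hA : A.LiesOverPrime q)

include hq hA

theorem ordAt_eq {x : ℚb} {k : ℤ} (h : A.valuation x = A.valuation (q : ℚb) ^ k) :
    ordAt A q x = k := by
  have hex : ∃ k : ℤ, A.valuation x = A.valuation (q : ℚb) ^ k := ⟨k, h⟩
  rw [ordAt, dif_pos hex]
  exact val_zpow_injective hq hA (hex.choose_spec.symm.trans h)

theorem ordAt_of_val_one {x : ℚb} (h : A.valuation x = 1) : ordAt A q x = 0 :=
  ordAt_eq hq hA (by rw [h, zpow_zero])

theorem ordAt_mul {x y : ℚb} (hx : ∃ k : ℤ, A.valuation x = A.valuation (q : ℚb) ^ k)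
    (hy : ∃ k : ℤ, A.valuation y = A.valuation (q : ℚb) ^ k) :
    ordAt A q (x * y) = ordAt A q x + ordAt A q y := by
  obtain ⟨i, hi⟩ := hx
  obtain ⟨j, hj⟩ := hy
  rw [ordAt_eq hq hA hi, ordAt_eq hq hA hj,
    ordAt_eq hq hA (k := i + j) (by rw [map_mul, hi, hj, zpow_add₀ (natCast_val_ne_zero hq)])]

theorem val_zpow_le_of_le {i j : ℤ} (h : i ≤ j) :
    A.valuation (q : ℚb) ^ j ≤ A.valuation (q : ℚb) ^ i := by
  obtain ⟨d, rfl⟩ : ∃ d : ℕ, j = i + d := ⟨(j - i).toNat, by omega⟩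
  rw [zpow_add₀ (natCast_val_ne_zero hq), zpow_natCast]
  exact mul_le_of_le_one_right' (pow_le_one₀ zero_le (natCast_val_lt_one hA).le)

theorem dvd_of_nonunit {n : ℤ} (h : A.valuation (n : ℚb) < 1) : (q : ℤ) ∣ n := by
  refine (Galois.intCast_mem_placeCenter hq hA n).mp ?_
  rw [Galois.mem_placeCenter_iff, ValuationSubring.mem_nonunits_iff]
  simpa using h

theorem dvd_of_val_le {n : ℤ} {k : ℕ}
    (h : A.valuation (n : ℚb) ≤ A.valuation (q : ℚb) ^ k) : (q : ℤ) ^ k ∣ n := by
  induction k generalizing n with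
  | zero => simp
  | succ k ih =>
    obtain ⟨m, rfl⟩ := dvd_of_nonunit hq hA (lt_of_le_of_lt h
      (pow_lt_one₀ zero_le (natCast_val_lt_one hA) k.succ_ne_zero))
    rw [Int.cast_mul, Int.cast_natCast, map_mul, pow_succ'] at h
    rw [pow_succ']
    exact mul_dvd_mul_left _ (ih ((mul_le_mul_iff_right₀
      (zero_lt_iff.mpr (natCast_val_ne_zero hq))).mp h))

/-- Integers of the henselisation are congruent to rational integers. -/
theorem exists_int_val_le {x : ℚb} (hxA : x ∈ A) (hxD : x ∈ decField A) (k : ℕ) :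
    ∃ a : ℤ, A.valuation (x - a) ≤ A.valuation (q : ℚb) ^ k := by
  induction k with
  | zero => exact ⟨0, by simpa using (A.valuation_le_one_iff x).mpr hxA⟩
  | succ k ih =>
    obtain ⟨a, ha⟩ := ih
    have hq0 : (q : ℚb) ≠ 0 := Nat.cast_ne_zero.mpr hq.ne_zero
    set y := (x - a) / (q : ℚb) ^ k
    have hyA : y ∈ A := (A.valuation_le_one_iff y).mp (by
      rw [map_div₀, map_pow]
      exact div_le_one_of_le₀ ha zero_le)
    have hyD : y ∈ decField A :=
      div_mem (sub_mem hxD (intCast_mem _ a)) (pow_mem (natCast_mem _ q) k)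
    obtain ⟨b, hb⟩ := exists_int_sub_mem_nonunits hq hA hyD hyA
    rw [ValuationSubring.mem_nonunits_iff] at hb
    refine ⟨a + (q : ℤ) ^ k * b, ?_⟩
    rw [show x - ((a + (q : ℤ) ^ k * b : ℤ) : ℚb) = (q : ℚb) ^ k * (y - b) by
      simp only [y]; push_cast; field_simp; ring, map_mul, map_pow, pow_succ]
    refine mul_le_mul' le_rfl ?_
    rcases eq_or_ne (y - (b : ℚb)) 0 with h0 | h0
    · rw [h0, map_zero]; exact zero_le
    obtain ⟨j, hj⟩ := exists_val_eq_zpow hq hA (sub_mem hyD (intCast_mem _ b)) h0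
    rw [hj] at hb ⊢
    have hj1 : 1 ≤ j := by
      by_contra hlt
      refine absurd hb (not_lt.mpr ?_)
      exact (zpow_zero _).ge.trans (val_zpow_le_of_le hq hA (by omega))
    exact (val_zpow_le_of_le hq hA hj1).trans (zpow_one _).le

/-- The residue of an integer of the henselisation modulo `q^k`. -/
def resZMod (k : ℕ) (x : zH A) : ZMod (q ^ k) :=
  ((exists_int_val_le hq hA x.2.1 x.2.2 k).choose : ZMod (q ^ k))

theorem resZMod_eq {k : ℕ} {x : zH A} {a : ℤ}
    (h : A.valuation ((x : ℚb) - a) ≤ A.valuation (q : ℚb) ^ k) : resZMod hq hA k x = a := by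
  have hs := (exists_int_val_le hq hA x.2.1 x.2.2 k).choose_spec
  rw [resZMod, ← sub_eq_zero, ← Int.cast_sub, ZMod.intCast_zmod_eq_zero_iff_dvd, Nat.cast_pow]
  refine dvd_of_val_le hq hA ?_
  refine le_trans ?_ ((A.valuation.map_sub _ _).trans (max_le h hs))
  rw [Int.cast_sub, show ∀ b : ℤ, (b : ℚb) - (a : ℚb) = ((x : ℚb) - a) - ((x : ℚb) - b) from
    fun b => (sub_sub_sub_cancel_left _ _ _).symm]

/-- The residue map modulo `q^k`. -/
def resHom (k : ℕ) : zH A →+* ZMod (q ^ k) where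
  toFun := resZMod hq hA k
  map_one' := by rw [resZMod_eq hq hA (a := 1) (by simp), Int.cast_one]
  map_zero' := by rw [resZMod_eq hq hA (a := 0) (by simp), Int.cast_zero]
  map_add' x y := by
    obtain ⟨a, ha⟩ := exists_int_val_le hq hA x.2.1 x.2.2 k
    obtain ⟨b, hb⟩ := exists_int_val_le hq hA y.2.1 y.2.2 k
    rw [resZMod_eq hq hA ha, resZMod_eq hq hA hb, resZMod_eq hq hA (a := a + b) ?_, Int.cast_add]
    rw [Int.cast_add, Subring.coe_add, add_sub_add_comm]
    exact (A.valuation.map_add _ _).trans (max_le ha hb)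
  map_mul' x y := by
    obtain ⟨a, ha⟩ := exists_int_val_le hq hA x.2.1 x.2.2 k
    obtain ⟨b, hb⟩ := exists_int_val_le hq hA y.2.1 y.2.2 k
    rw [resZMod_eq hq hA ha, resZMod_eq hq hA hb, resZMod_eq hq hA (a := a * b) ?_, Int.cast_mul]
    rw [Int.cast_mul, Subring.coe_mul,
      show (x : ℚb) * y - a * b = x * (y - b) + (x - a) * b by ring]
    refine (A.valuation.map_add _ _).trans (max_le ?_ ?_)
    · rw [map_mul]
      exact (mul_le_of_le_one_left' ((A.valuation_le_one_iff _).mpr x.2.1)).trans hb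
    · rw [map_mul]
      exact (mul_le_of_le_one_right' ((A.valuation_le_one_iff _).mpr (intCast_mem _ b))).trans ha

theorem resHom_eq {k : ℕ} {x : zH A} {a : ℤ}
    (h : A.valuation ((x : ℚb) - a) ≤ A.valuation (q : ℚb) ^ k) : resHom hq hA k x = a :=
  resZMod_eq hq hA h

theorem exists_val_decU (x : decU A) :
    ∃ k : ℤ, A.valuation ((x : ℚbˣ) : ℚb) = A.valuation (q : ℚb) ^ k :=
  exists_val_eq_zpow hq hA (mem_decU.mp x.2) (x : ℚbˣ).ne_zero

theorem ordAt_coe_mul (x y : decU A) :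
    ordAt A q (((x * y : decU A) : ℚbˣ) : ℚb) =
      ordAt A q ((x : ℚbˣ) : ℚb) + ordAt A q ((y : ℚbˣ) : ℚb) :=
  ordAt_mul hq hA (exists_val_decU hq hA x) (exists_val_decU hq hA y)

theorem val_unitPart (x : decU A) :
    A.valuation (((x : ℚbˣ) : ℚb) / (q : ℚb) ^ ordAt A q ((x : ℚbˣ) : ℚb)) = 1 := by
  obtain ⟨k, hk⟩ := exists_val_decU hq hA x
  rw [map_div₀, map_zpow₀, ordAt_eq hq hA hk, hk,
    div_self (zpow_ne_zero _ (natCast_val_ne_zero hq))]

/-- The unit part, as an integer of the henselisation. -/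
def unitPart (x : decU A) : zH A :=
  ⟨((x : ℚbˣ) : ℚb) / (q : ℚb) ^ ordAt A q ((x : ℚbˣ) : ℚb),
    (A.valuation_le_one_iff _).mp (val_unitPart hq hA x).le,
    show _ ∈ decField A from div_mem (mem_decU.mp x.2) (zpow_mem (natCast_mem _ q) _)⟩

theorem coe_unitPart (x : decU A) :
    (unitPart hq hA x : ℚb) = ((x : ℚbˣ) : ℚb) / (q : ℚb) ^ ordAt A q ((x : ℚbˣ) : ℚb) := rfl

theorem coe_unitPart_of_unit (x : decU A) (h : A.valuation ((x : ℚbˣ) : ℚb) = 1) :
    (unitPart hq hA x : ℚb) = ((x : ℚbˣ) : ℚb) := by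
  rw [coe_unitPart, ordAt_of_val_one hq hA h, zpow_zero, div_one]

theorem unitPart_mul (x y : decU A) :
    unitPart hq hA (x * y) = unitPart hq hA x * unitPart hq hA y := Subtype.ext (by
  rw [Subring.coe_mul, coe_unitPart, coe_unitPart, coe_unitPart, ordAt_coe_mul hq hA,
    zpow_add₀ (Nat.cast_ne_zero.mpr hq.ne_zero), div_mul_div_comm]
  rfl)

theorem unitPart_one : unitPart hq hA 1 = 1 := Subtype.ext (by
  rw [coe_unitPart_of_unit hq hA 1 (by simp)]; rfl)

/-- The residue of the unit part modulo `q^k`. -/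
def unitRes (k : ℕ) : decU A →* (ZMod (q ^ k))ˣ :=
  MonoidHom.toHomUnits
    { toFun := fun x => resHom hq hA k (unitPart hq hA x)
      map_one' := by rw [unitPart_one hq hA, map_one]
      map_mul' := fun x y => by rw [unitPart_mul hq hA, map_mul] }

theorem coe_unitRes (k : ℕ) (x : decU A) :
    (unitRes hq hA k x : ZMod (q ^ k)) = resHom hq hA k (unitPart hq hA x) := rfl

theorem unitRes_eq_intCast {k : ℕ} (x : decU A) {a : ℤ}
    (h : A.valuation ((x : ℚbˣ) : ℚb) = 1)
    (ha : A.valuation (((x : ℚbˣ) : ℚb) - a) ≤ A.valuation (q : ℚb) ^ k) :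
    (unitRes hq hA k x : ZMod (q ^ k)) = a := by
  rw [coe_unitRes, resHom_eq hq hA (a := a) (by rwa [coe_unitPart_of_unit hq hA x h])]

theorem unitRes_eq_one {k : ℕ} (hk : k ≠ 0) (x : decU A)
    (hx : A.valuation (((x : ℚbˣ) : ℚb) - 1) ≤ A.valuation (q : ℚb) ^ k) :
    unitRes hq hA k x = 1 := by
  refine Units.ext ((unitRes_eq_intCast hq hA x (a := 1) ?_ (by simpa using hx)).trans Int.cast_one)
  have h1 : A.valuation (((x : ℚbˣ) : ℚb) - 1) < A.valuation (1 : ℚb) := by
    rw [map_one]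
    exact lt_of_le_of_lt hx (pow_lt_one₀ zero_le (natCast_val_lt_one hA) hk)
  have h2 := Valuation.map_add_eq_of_lt_left _ h1
  rwa [add_sub_cancel, map_one] at h2

theorem unitRes_cast {m k : ℕ} (h : m ≤ k) (x : decU A) :
    ZMod.unitsMap (pow_dvd_pow q h) (unitRes hq hA k x) = unitRes hq hA m x := by
  refine Units.ext ?_
  obtain ⟨a, ha⟩ := exists_int_val_le hq hA (unitPart hq hA x).2.1 (unitPart hq hA x).2.2 k
  rw [ZMod.unitsMap_def, Units.coe_map, coe_unitRes, coe_unitRes, resHom_eq hq hA ha,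
    resHom_eq hq hA (a := a) (ha.trans (pow_le_pow_of_le_one zero_le
      (natCast_val_lt_one hA).le h))]
  exact map_intCast (ZMod.castHom (pow_dvd_pow q h) (ZMod (q ^ m))) a

/-! ## Approximation -/

theorem exists_val_bound (x : ℚb) : ∃ M : ℕ, A.valuation x ≤ A.valuation (q : ℚb) ^ (-(M : ℤ)) := by
  rcases eq_or_ne x 0 with rfl | hx
  · exact ⟨0, by simp⟩
  haveI : Algebra.IsAlgebraic ℚ ℚb := Galois.isAlgebraic_qbar
  haveI : FiniteDimensional (decField A) (IntermediateField.adjoin (decField A) ({x} : Set ℚb)) :=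
    IntermediateField.adjoin.finiteDimensional
      (Algebra.IsIntegral.isIntegral (R := ℚ) x).tower_top
  set E := IntermediateField.adjoin (decField A) ({x} : Set ℚb)
  obtain ⟨k, hk⟩ := exists_val_pow_eq hq hA E (IntermediateField.mem_adjoin_simple_self _ x) hx
  refine ⟨k.natAbs, not_lt.mp fun h => ?_⟩
  have h1 : (1 : _) ≤ A.valuation x :=
    ((zpow_zero _).ge.trans (val_zpow_le_of_le hq hA (by omega))).trans h.le
  have h2 := le_self_pow h1 (Module.finrank_pos (R := decField A) (M := E)).ne'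
  rw [hk] at h2
  exact absurd (lt_of_lt_of_le h h2) (not_lt.mpr (val_zpow_le_of_le hq hA (by omega)))

/-- Rational numbers are dense in the henselisation. -/
theorem exists_rat_near {x : ℚb} (hx : x ∈ decField A) (N : ℕ) :
    ∃ r : ℚ, A.valuation (x - r) ≤ A.valuation (q : ℚb) ^ N := by
  rcases eq_or_ne x 0 with rfl | hx0
  · exact ⟨0, by simp⟩
  let u : decU A := ⟨Units.mk0 x hx0, mem_decU.mpr hx⟩
  set j := ordAt A q x with hj
  obtain ⟨a, ha⟩ := exists_int_val_le hq hA (unitPart hq hA u).2.1 (unitPart hq hA u).2.2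
    (N + j.natAbs)
  refine ⟨(q : ℚ) ^ j * a, ?_⟩
  have hq0 : (q : ℚb) ^ j ≠ 0 := zpow_ne_zero _ (Nat.cast_ne_zero.mpr hq.ne_zero)
  rw [show x - (((q : ℚ) ^ j * a : ℚ) : ℚb) = (q : ℚb) ^ j * (x / (q : ℚb) ^ j - a) by
    push_cast; rw [mul_sub, mul_div_cancel₀ x hq0], map_mul, map_zpow₀]
  refine (mul_le_mul' le_rfl (show A.valuation (x / (q : ℚb) ^ j - a) ≤ _ from ha)).trans ?_
  rw [← zpow_natCast, ← zpow_natCast, ← zpow_add₀ (natCast_val_ne_zero hq)]
  exact val_zpow_le_of_le hq hA (by omega)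

/-- Elements of a global field are dense in its compositum with the henselisation. -/
theorem exists_global_near (F : IntermediateField ℚ ℚb) {x : ℚb}
    (hx : x ∈ IntermediateField.adjoin (decField A) (F : Set ℚb)) (N : ℕ) :
    ∃ z ∈ F, A.valuation (x - z) ≤ A.valuation (q : ℚb) ^ N := by
  haveI : Algebra.IsAlgebraic ℚ ℚb := Galois.isAlgebraic_qbar
  rw [← IntermediateField.mem_toSubalgebra,
    IntermediateField.adjoin_toSubalgebra_of_isAlgebraic fun y _ =>
      (Algebra.IsIntegral.isIntegral (R := ℚ) y).tower_top.isAlgebraic] at hx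
  induction hx using Algebra.adjoin_induction generalizing N with
  | mem y hy => exact ⟨y, hy, by simp⟩
  | algebraMap c =>
    obtain ⟨r, hr⟩ := exists_rat_near hq hA (x := (c : ℚb)) c.2 N
    exact ⟨(r : ℚb), SubfieldClass.ratCast_mem F r, hr⟩
  | add a b _ _ iha ihb =>
    obtain ⟨z, hz, hza⟩ := iha N
    obtain ⟨w, hw, hwb⟩ := ihb N
    refine ⟨z + w, add_mem hz hw, ?_⟩
    rw [add_sub_add_comm]
    exact (A.valuation.map_add _ _).trans (max_le hza hwb)
  | mul a b _ _ iha ihb =>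
    obtain ⟨Mb, hMb⟩ := exists_val_bound hq hA b
    obtain ⟨z, hz, hza⟩ := iha (N + Mb)
    obtain ⟨Mz, hMz⟩ := exists_val_bound hq hA z
    obtain ⟨w, hw, hwb⟩ := ihb (N + Mz)
    refine ⟨z * w, mul_mem hz hw, ?_⟩
    rw [show a * b - z * w = (a - z) * b + z * (b - w) by ring]
    refine (A.valuation.map_add _ _).trans (max_le ?_ ?_)
    · rw [map_mul]
      refine (mul_le_mul' hza hMb).trans ?_
      rw [← zpow_natCast, ← zpow_natCast, ← zpow_add₀ (natCast_val_ne_zero hq)]
      exact val_zpow_le_of_le hq hA (by omega)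
    · rw [map_mul]
      refine (mul_le_mul' hMz hwb).trans ?_
      rw [← zpow_natCast, ← zpow_natCast, ← zpow_add₀ (natCast_val_ne_zero hq)]
      exact val_zpow_le_of_le hq hA (by omega)

end Fermat.Agent.GD
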