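import Fermat.Agent.GD.Global.ClassFormation.CycLog
import Fermat.Agent.GD.Global.ClassFormation.LocalRes

/-!
# The reciprocity function on rational ideles and the product formula
-/

set_option autoImplicit false
set_option linter.unusedSectionVars false
set_option linter.style.haveILetI false

noncomputable section

namespace Fermat.Agent.GD

open Fermat.Agent.Galois (GQ)

local notation "ℚb" => AlgebraicClosure ℚ

variable (p : ℕ) [hp : Fact p.Prime]

/-- The prime `p` as a place. -/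
def pPrime : Nat.Primes := ⟨p, hp.out⟩

theorem liesOverPrime_pPrime : (placeAt (pPrime p)).LiesOverPrime p :=
  placeAt_liesOverPrime (pPrime p)

/-- The contribution of the place `p`: the logarithm of the unit part. -/
def pTerm (n : ℕ) (x : ℚbˣ) : ZMod (p ^ n) :=
  open scoped Classical in
  if h : x ∈ decU (placeAt (pPrime p)) then
    cycLog p n (unitRes hp.out (liesOverPrime_pPrime p) (n + 1) ⟨x, h⟩) else 0

/-- The reciprocity function on rational ideles. -/
def recFn (n : ℕ) (f : IdeleFn) : ZMod (p ^ n) :=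
  -pTerm p n (f (some (pPrime p)) 1) +
    ∑ᶠ q : Nat.Primes, ordAt (placeAt q) q ((f (some q) 1 : ℚbˣ) : ℚb) • natLog p n q

/-- An idele with components in the henselisations. -/
def IsRat (f : IdeleFn) : Prop :=
  (∀ q : Nat.Primes, f (some q) 1 ∈ decU (placeAt q)) ∧
    {q : Nat.Primes | f (some q) 1 ∉ (placeAt q).unitGroup}.Finite

variable {p}

theorem val_eq_one_of_unitGroup {A : ValuationSubring ℚb} {x : ℚbˣ} (h : x ∈ A.unitGroup) :
    A.valuation (x : ℚb) = 1 := h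

theorem ordAt_of_unitGroup (q : Nat.Primes) {x : ℚbˣ} (h : x ∈ (placeAt q).unitGroup) :
    ordAt (placeAt q) q (x : ℚb) = 0 :=
  ordAt_of_val_one q.2 (placeAt_liesOverPrime q) (val_eq_one_of_unitGroup h)

theorem finite_support_term {f : IdeleFn} (hf : IsRat f) (n : ℕ) :
    (Function.support fun q : Nat.Primes =>
      ordAt (placeAt q) q ((f (some q) 1 : ℚbˣ) : ℚb) • natLog p n q).Finite :=
  hf.2.subset fun q hq h => hq (by simp only [ordAt_of_unitGroup q h, zero_smul])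

theorem IsRat.mul {f f' : IdeleFn} (hf : IsRat f) (hf' : IsRat f') : IsRat (f * f') :=
  ⟨fun q => mul_mem (hf.1 q) (hf'.1 q), (hf.2.union hf'.2).subset fun q hq => by
    by_contra hc
    simp only [Set.mem_union, Set.mem_ofPred_eq, not_or, not_not] at hc
    exact hq (mul_mem hc.1 hc.2)⟩

theorem pTerm_mul (hp2 : p ≠ 2) (n : ℕ) {x y : ℚbˣ} (hx : x ∈ decU (placeAt (pPrime p)))
    (hy : y ∈ decU (placeAt (pPrime p))) : pTerm p n (x * y) = pTerm p n x + pTerm p n y := by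
  rw [pTerm, pTerm, pTerm, dif_pos hx, dif_pos hy, dif_pos (mul_mem hx hy),
    show (⟨x * y, mul_mem hx hy⟩ : decU (placeAt (pPrime p))) = ⟨x, hx⟩ * ⟨y, hy⟩ from rfl,
    map_mul, cycLog_mul hp2]

theorem pTerm_one (hp2 : p ≠ 2) (n : ℕ) : pTerm p n 1 = 0 := by
  rw [pTerm, dif_pos (one_mem _), show (⟨1, one_mem _⟩ : decU (placeAt (pPrime p))) = 1 from rfl,
    map_one, cycLog_eq_zero hp2 (one_pow _)]

theorem recFn_mul (hp2 : p ≠ 2) (n : ℕ) {f f' : IdeleFn} (hf : IsRat f) (hf' : IsRat f') :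
    recFn p n (f * f') = recFn p n f + recFn p n f' := by
  rw [recFn, recFn, recFn, Pi.mul_apply, Pi.mul_apply, pTerm_mul hp2 n (hf.1 _) (hf'.1 _)]
  have h : ∀ q : Nat.Primes,
      ordAt (placeAt q) q (((f * f') (some q) 1 : ℚbˣ) : ℚb) • natLog p n q =
        ordAt (placeAt q) q ((f (some q) 1 : ℚbˣ) : ℚb) • natLog p n q +
          ordAt (placeAt q) q ((f' (some q) 1 : ℚbˣ) : ℚb) • natLog p n q := fun q => by
    rw [← add_smul]
    congr 1
    exact ordAt_coe_mul q.2 (placeAt_liesOverPrime q) ⟨_, hf.1 q⟩ ⟨_, hf'.1 q⟩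
  rw [finsum_congr h, finsum_add_distrib (finite_support_term hf n) (finite_support_term hf' n)]
  abel

theorem recFn_eq_zero_of_units (hp2 : p ≠ 2) (n : ℕ) {f : IdeleFn}
    (hp1 : f (some (pPrime p)) 1 = 1)
    (hu : ∀ q : Nat.Primes, f (some q) 1 ∈ (placeAt q).unitGroup) : recFn p n f = 0 := by
  rw [recFn, hp1, pTerm_one hp2, neg_zero, zero_add]
  exact finsum_eq_zero_of_forall_eq_zero fun q => by rw [ordAt_of_unitGroup q (hu q), zero_smul]

theorem recFn_single (hp2 : p ≠ 2) (n : ℕ) (q : Nat.Primes) {f : IdeleFn} (k : ℤ)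
    (hp1 : pTerm p n (f (some (pPrime p)) 1) = 0)
    (hk : (placeAt q).valuation ((f (some q) 1 : ℚbˣ) : ℚb) =
      (placeAt q).valuation ((q : ℕ) : ℚb) ^ k)
    (hu : ∀ q' : Nat.Primes, q' ≠ q → f (some q') 1 ∈ (placeAt q').unitGroup) :
    recFn p n f = k • natLog p n q := by
  rw [recFn, hp1, neg_zero, zero_add,
    finsum_eq_single _ q fun q' hq' => by rw [ordAt_of_unitGroup q' (hu q' hq'), zero_smul],
    ordAt_eq q.2 (placeAt_liesOverPrime q) hk]

/-! ## Rational numbers -/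

/-- A nonzero rational number in the units of `ℚ̄`. -/
def ratUnit (r : ℚ) (hr : r ≠ 0) : ℚbˣ :=
  Units.mk0 (algebraMap ℚ ℚb r) ((map_ne_zero_iff _ (algebraMap ℚ ℚb).injective).mpr hr)

theorem ratUnit_mul {r s : ℚ} (hr : r ≠ 0) (hs : s ≠ 0) :
    ratUnit (r * s) (mul_ne_zero hr hs) = ratUnit r hr * ratUnit s hs :=
  Units.ext (map_mul _ r s)

theorem ratUnit_mem_decU (q : Nat.Primes) (r : ℚ) (hr : r ≠ 0) :
    ratUnit r hr ∈ decU (placeAt q) := mem_decU.mpr (IntermediateField.algebraMap_mem _ r)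

theorem val_natCast_eq_one {q : Nat.Primes} {m : ℕ} (h : ¬ (q : ℕ) ∣ m) :
    (placeAt q).valuation (m : ℚb) = 1 := by
  refine le_antisymm (((placeAt q).valuation_le_one_iff _).mpr (natCast_mem _ m))
    (not_lt.mp fun hlt => h ?_)
  have := dvd_of_nonunit q.2 (placeAt_liesOverPrime q) (n := (m : ℤ))
    (by rwa [Int.cast_natCast])
  exact_mod_cast this

theorem diag_one_apply (x : ℚbˣ) (v : Place) : diag x v 1 = x := one_smul GQ x

theorem isRat_diag_ratUnit (r : ℚ) (hr : r ≠ 0) : IsRat (diag (ratUnit r hr)) := by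
  refine ⟨fun q => by rw [diag_one_apply]; exact ratUnit_mem_decU q r hr,
    ((Set.finite_le_nat (max r.num.natAbs r.den)).preimage Subtype.val_injective.injOn).subset
      fun q hq => ?_⟩
  by_contra hlt
  simp only [Set.mem_preimage, Set.mem_ofPred_eq, not_le, max_lt_iff] at hlt
  refine hq ?_
  rw [diag_one_apply]
  show (placeAt q).valuation (algebraMap ℚ ℚb r) = 1
  have h1 : (placeAt q).valuation (r.den : ℚb) = 1 :=
    val_natCast_eq_one fun h => absurd (Nat.le_of_dvd r.den_pos h) (not_le.mpr hlt.2)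
  have h2 : (placeAt q).valuation (r.num.natAbs : ℚb) = 1 :=
    val_natCast_eq_one fun h => absurd (Nat.le_of_dvd
      (Int.natAbs_pos.mpr (Rat.num_ne_zero.mpr hr)) h) (not_le.mpr hlt.1)
  rw [eq_ratCast, Rat.cast_def, map_div₀, h1, div_one]
  rcases Int.natAbs_eq r.num with e | e
  · rw [e, Int.cast_natCast, h2]
  · rw [e, Int.cast_neg, Valuation.map_neg, Int.cast_natCast, h2]

theorem recFn_ratUnit_mul (hp2 : p ≠ 2) (n : ℕ) {r s : ℚ} (hr : r ≠ 0) (hs : s ≠ 0) :
    recFn p n (diag (ratUnit (r * s) (mul_ne_zero hr hs))) =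
      recFn p n (diag (ratUnit r hr)) + recFn p n (diag (ratUnit s hs)) := by
  rw [ratUnit_mul hr hs, map_mul,
    recFn_mul hp2 n (isRat_diag_ratUnit r hr) (isRat_diag_ratUnit s hs)]

theorem recFn_ratUnit_prime (hp2 : p ≠ 2) (n : ℕ) {ℓ : ℕ} (hℓ : ℓ.Prime)
    (h0 : (ℓ : ℚ) ≠ 0) : recFn p n (diag (ratUnit ℓ h0)) = 0 := by
  have hA := liesOverPrime_pPrime p
  have hcoe : ((ratUnit (ℓ : ℚ) h0 : ℚbˣ) : ℚb) = (ℓ : ℚb) := map_natCast _ ℓ
  have hfin : ∑ᶠ q : Nat.Primes, ordAt (placeAt q) q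
      ((diag (ratUnit (ℓ : ℚ) h0) (some q) 1 : ℚbˣ) : ℚb) • natLog p n q = natLog p n ℓ := by
    let Q : Nat.Primes := ⟨ℓ, hℓ⟩
    refine (finsum_eq_single _ Q fun q hq => ?_).trans ?_
    rotate_left
    · show ordAt (placeAt Q) ℓ _ • natLog p n ℓ = _
      rw [diag_one_apply, hcoe,
        ordAt_eq hℓ (placeAt_liesOverPrime Q) (k := 1) (zpow_one _).symm, one_smul]
    · rw [diag_one_apply, hcoe, ordAt_of_val_one q.2 (placeAt_liesOverPrime q) ?_, zero_smul]
      exact val_natCast_eq_one fun h =>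
        hq (Subtype.ext ((Nat.prime_dvd_prime_iff_eq q.2 hℓ).mp h))
  rw [recFn, hfin, diag_one_apply, pTerm, dif_pos (ratUnit_mem_decU _ _ h0)]
  rcases eq_or_ne ℓ p with rfl | hne
  · rw [natLog_self, add_zero, neg_eq_zero, cycLog_eq_zero hp2]
    refine (congrArg (· ^ _) (Units.ext ?_)).trans (one_pow _)
    rw [coe_unitRes, Units.val_one, ← map_one (resHom hp.out hA (n + 1))]
    congr 1
    refine Subtype.ext ?_
    rw [coe_unitPart]
    show ((ratUnit (ℓ : ℚ) h0 : ℚbˣ) : ℚb) / _ ^ ordAt _ _ ((ratUnit (ℓ : ℚ) h0 : ℚbˣ) : ℚb) = _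
    rw [hcoe, ordAt_eq hp.out hA (k := 1) (zpow_one _).symm, zpow_one]
    exact div_self (Nat.cast_ne_zero.mpr hℓ.ne_zero)
  · have hc : ℓ.Coprime (p ^ (n + 1)) :=
      Nat.Coprime.pow_right _ ((Nat.coprime_primes hℓ hp.out).mpr hne)
    rw [natLog, dif_pos hc, neg_add_eq_zero]
    congr 1
    refine Units.ext ?_
    rw [unitRes_eq_intCast hp.out hA ⟨ratUnit (ℓ : ℚ) h0, ratUnit_mem_decU _ _ h0⟩ (a := (ℓ : ℤ))
      ?_ ?_, Int.cast_natCast, ZMod.coe_unitOfCoprime]
    · show (placeAt (pPrime p)).valuation ((ratUnit (ℓ : ℚ) h0 : ℚbˣ) : ℚb) = 1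
      rw [hcoe]
      exact val_natCast_eq_one fun h => hne ((Nat.prime_dvd_prime_iff_eq hp.out hℓ).mp h).symm
    · rw [Int.cast_natCast, hcoe, sub_self, map_zero]
      exact zero_le

/-- The product formula. -/
theorem recFn_rat (hp2 : p ≠ 2) (n : ℕ) (r : ℚ) (hr : r ≠ 0) :
    recFn p n (diag (ratUnit r hr)) = 0 := by
  have hone : ∀ h : (1 : ℚ) ≠ 0, recFn p n (diag (ratUnit 1 h)) = 0 := fun h => by
    refine recFn_eq_zero_of_units hp2 n ?_ fun q => ?_
    · rw [diag_one_apply]; exact Units.ext (map_one _)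
    · rw [diag_one_apply, show ratUnit 1 h = 1 from Units.ext (map_one _)]
      exact one_mem _
  have hnat : ∀ m : ℕ, ∀ h : (m : ℚ) ≠ 0, recFn p n (diag (ratUnit m h)) = 0 := by
    intro m
    induction m using Nat.recOnMul with
    | zero => exact fun h => absurd Nat.cast_zero h
    | one => simpa only [Nat.cast_one] using hone
    | prime ℓ hℓ => exact recFn_ratUnit_prime hp2 n hℓ
    | mul a b ha hb =>
      intro h
      have h' : (a : ℚ) * b ≠ 0 := by rwa [← Nat.cast_mul]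
      have e : ratUnit ((a * b : ℕ) : ℚ) h = ratUnit ((a : ℚ) * b) h' := by
        simp only [Nat.cast_mul]
      rw [e, recFn_ratUnit_mul hp2 n (left_ne_zero_of_mul h') (right_ne_zero_of_mul h'), ha, hb,
        add_zero]
  have hneg : ∀ h : (-1 : ℚ) ≠ 0, recFn p n (diag (ratUnit (-1) h)) = 0 := fun h => by
    have hcoe : ((ratUnit (-1) h : ℚbˣ) : ℚb) = -1 := by simp [ratUnit]
    rw [recFn, finsum_eq_zero_of_forall_eq_zero fun q => ?_, add_zero, neg_eq_zero]
    · rw [diag_one_apply, pTerm, dif_pos (ratUnit_mem_decU _ _ h), cycLog_eq_zero hp2]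
      have hodd : Even (p - 1) := Nat.Odd.sub_odd (hp.out.odd_of_ne_two hp2) odd_one
      refine (congrArg (· ^ _) (Units.ext ?_ : _ = (-1 : (ZMod (p ^ (n + 1)))ˣ))).trans
        hodd.neg_one_pow
      rw [unitRes_eq_intCast hp.out (liesOverPrime_pPrime p)
        ⟨ratUnit (-1) h, ratUnit_mem_decU _ _ h⟩ (a := -1) ?_ ?_]
      · simp
      · show (placeAt (pPrime p)).valuation ((ratUnit (-1) h : ℚbˣ) : ℚb) = 1
        rw [hcoe, Valuation.map_neg, map_one]
      · rw [hcoe]; simp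
    · rw [diag_one_apply, hcoe, ordAt_of_val_one q.2 (placeAt_liesOverPrime q)
        (by rw [Valuation.map_neg, map_one]), zero_smul]
  have hden : (r.den : ℚ) ≠ 0 := Nat.cast_ne_zero.mpr r.den_nz
  have hnum : (r.num : ℚ) ≠ 0 := Int.cast_ne_zero.mpr (Rat.num_ne_zero.mpr hr)
  have key := recFn_ratUnit_mul hp2 n hr hden
  rw [hnat _ hden, add_zero, show ratUnit (r * r.den) (mul_ne_zero hr hden) = ratUnit r.num hnum by
    simp only [Rat.mul_den_eq_num]] at key
  rw [← key]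
  rcases Int.natAbs_eq r.num with e | e
  · rw [show ratUnit r.num hnum = ratUnit (r.num.natAbs : ℕ) (by
      exact_mod_cast Int.natAbs_ne_zero.mpr (Rat.num_ne_zero.mpr hr)) from
      Units.ext (congrArg (algebraMap ℚ ℚb) (by rw [← Int.cast_natCast (R := ℚ) r.num.natAbs, ← e]))]
    exact hnat _ _
  · have hm : ((r.num.natAbs : ℕ) : ℚ) ≠ 0 :=
      Nat.cast_ne_zero.mpr (Int.natAbs_ne_zero.mpr (Rat.num_ne_zero.mpr hr))
    have h1 : (-1 : ℚ) ≠ 0 := by norm_num
    rw [show ratUnit r.num hnum = ratUnit (-1 * (r.num.natAbs : ℚ)) (mul_ne_zero h1 hm) from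
      Units.ext (congrArg (algebraMap ℚ ℚb) (by rw [e]; push_cast; simp)),
      recFn_ratUnit_mul hp2 n h1 hm, hneg, hnat _ hm, add_zero]

theorem recFn_congr (n : ℕ) {f f' : IdeleFn} (h : ∀ q : Nat.Primes, f (some q) 1 = f' (some q) 1) :
    recFn p n f = recFn p n f' := by
  simp only [recFn, h]

theorem recFn_cast (hp2 : p ≠ 2) {m n : ℕ} (h : m ≤ n) {f : IdeleFn} (hf : IsRat f) :
    ZMod.castHom (pow_dvd_pow p h) (ZMod (p ^ m)) (recFn p n f) = recFn p m f := by
  rw [recFn, recFn, map_add, map_neg, pTerm, pTerm, dif_pos (hf.1 _), dif_pos (hf.1 _),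
    cycLog_cast hp2 h, unitRes_cast hp.out (liesOverPrime_pPrime p) (Nat.succ_le_succ h)]
  congr 1
  refine ((ZMod.castHom (pow_dvd_pow p h) (ZMod (p ^ m))).toAddMonoidHom.map_finsum
    (finite_support_term hf n)).trans (finsum_congr fun q => ?_)
  rw [map_zsmul]
  exact congrArg _ (natLog_cast hp2 h _)

end Fermat.Agent.GD
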