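import Fermat.Agent.GD.Global.Basic
import Fermat.Agent.GD.Global.ClassFormation.RecFn
import Fermat.Agent.GD.Global.ClassFormation.Frob
import Fermat.Agent.GD.Global.ClassFormation.Layers

/-!
# Reciprocity on the fixed idele classes in the cyclotomic layer
-/

set_option autoImplicit false
set_option linter.unusedSectionVars false
set_option linter.style.haveILetI false

noncomputable section

namespace Fermat.Agent.GD

open Fermat.Agent.Galois (GQ)
open Fermat.Agent.GalRep.Level (cycM)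
open scoped Pointwise

local notation "ℚb" => AlgebraicClosure ℚ

variable {p : ℕ} [hp : Fact p.Prime] {T : Finset Nat.Primes}

theorem toClass_mul (f f' : idele T) : toClass T (f * f') = toClass T f + toClass T f' :=
  congrArg Additive.ofMul (map_mul (mkClass T) f f')

theorem smul_toClass (g : (LT T).G) (f : idele T) : g • toClass T f = toClass T (g • f) := rfl

theorem toClass_eq_iff (f f' : idele T) : toClass T f = toClass T f' ↔ f / f' ∈ classKer T :=
  QuotientGroup.eq_iff_div_mem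

/-- The class map as a homomorphism. -/
def toClassHom (T : Finset Nat.Primes) : Additive (idele T) →+ ClassT T :=
  AddMonoidHom.mk' (fun f => toClass T f.toMul) fun f f' => toClass_mul f.toMul f'.toMul

theorem toClass_nm {H K : Subgroup (LT T).G} (hK : (LT T).IsOpen K) (f : idele T) :
    nm H K (toClass T f) = toClassHom T (nm H K (Additive.ofMul f)) := by
  haveI := finite_quot (H := H) hK
  haveI : Fintype (H ⧸ K.subgroupOf H) := Fintype.ofFinite _
  simp only [nm, finsum_eq_sum_of_fintype, map_sum]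
  rfl

/-- The components of a norm. -/
theorem nm_idele_apply {H K : Subgroup (LT T).G} {S : Type*} [Fintype S] (t : S → H)
    (ht : Function.Bijective fun s => (t s : H ⧸ K.subgroupOf H)) {f : idele T}
    (hf : ∀ k ∈ K, k • f = f) (v : Place) (x : GQ) :
    (nm H K (Additive.ofMul f)).toMul.1 v x = ∏ s, f.1 v (x * (show GQ from ((t s : H) : (LT T).G))) := by
  rw [nm_eq_sum t ht (y := Additive.ofMul f) fun k hk => congrArg Additive.ofMul (hf k hk),
    toMul_sum, SubmonoidClass.coe_finsetProd, Finset.prod_apply, Finset.prod_apply]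
  rfl

theorem apply_mul_of_fixed {f : idele T} {g : (LT T).G} (hg : g • f = f) (v : Place) (x : GQ) :
    f.1 v (x * (show GQ from g)) = f.1 v x :=
  congrFun (congrFun (congrArg Subtype.val hg) v) x

theorem isRat_of_fixed {f : idele T} (hf : ∀ g : (LT T).G, g • f = f) : IsRat f.1 := by
  refine ⟨fun q => mem_decU.mpr ?_, f.2.2.2.subset fun q hq => ⟨1, hq⟩⟩
  rintro ⟨d, hd⟩
  show ((d • f.1 (some q) 1 : ℚbˣ) : ℚb) = _
  rw [← f.2.1 (some q) d hd 1, mul_one]
  exact congrArg Units.val ((congrArg (f.1 (some q)) (one_mul d).symm).trans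
    (apply_mul_of_fixed (hf d) (some q) 1))

theorem exists_rat_of_fixed {x : ℚbˣ} (h : ∀ g : GQ, g • x = x) :
    ∃ (r : ℚ) (hr : r ≠ 0), x = ratUnit r hr := by
  obtain ⟨r, hr⟩ : (x : ℚb) ∈ Set.range (algebraMap ℚ ℚb) :=
    (InfiniteGalois.mem_range_algebraMap_iff_fixed _).mpr fun σ => congrArg Units.val (h σ)
  exact ⟨r, fun h0 => x.ne_zero (by rw [← hr, h0, map_zero]), Units.ext hr.symm⟩

/-- Reciprocity kills the trivial fixed classes. -/
theorem recFn_classKer (hp2 : p ≠ 2) (hT : pPrime p ∈ T) (n : ℕ) {f : idele T}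
    (hf : ∀ g : (LT T).G, g • f = f) (hker : f ∈ classKer T) : recFn p n f.1 = 0 := by
  rw [classKer, Subgroup.mem_subgroupOf, Subgroup.mem_sup] at hker
  obtain ⟨_, ⟨x, -, rfl⟩, u, hu, e⟩ := hker
  have hnone : ∀ g : GQ, f.1 none g = g • x := fun g => by
    rw [← e, Pi.mul_apply, Pi.mul_apply, hu.1, mul_one]; rfl
  have hx : ∀ g : GQ, g • x = x := fun g => by
    rw [← hnone g]
    have h1 := (congrArg (f.1 none) (one_mul g).symm).trans
      (apply_mul_of_fixed (hf g) none 1)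
    rw [h1, hnone 1, one_smul]
  obtain ⟨r, hr, rfl⟩ := exists_rat_of_fixed hx
  rw [← e]
  have hu' : IsRat u := ⟨fun q => by
    have h1 : u (some q) 1 = (diag (ratUnit r hr) (some q) 1)⁻¹ * f.1 (some q) 1 := by
      rw [← e, Pi.mul_apply, Pi.mul_apply, inv_mul_cancel_left]
    rw [h1]
    exact mul_mem (inv_mem ((isRat_diag_ratUnit r hr).1 q)) ((isRat_of_fixed hf).1 q),
    Set.finite_empty.subset fun q hq => hq (hu.2.2 q 1)⟩
  rw [recFn_mul hp2 n (isRat_diag_ratUnit r hr) hu', recFn_rat hp2 n r hr, zero_add,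
    recFn_eq_zero_of_units hp2 n (hu.2.1 _ hT 1) fun q => hu.2.2 q 1]

section RecC

variable (hp2 : p ≠ 2) (hT : pPrime p ∈ T)

theorem exists_fixed_lift_top (c : fixPts (ClassT T) (⊤ : Subgroup (LT T).G)) :
    ∃ f : idele T, (∀ g : (LT T).G, g • f = f) ∧ toClass T f = c := by
  obtain ⟨f, hf, e⟩ := exists_fixed_lift T ⊤ (top_open (LT T)) (c : ClassT T) c.2
  exact ⟨f, fun g => hf g trivial, e⟩

include hp2 hT in
theorem recFn_eq_of_class {n : ℕ} {f f' : idele T} (hf : ∀ g : (LT T).G, g • f = f)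
    (hf' : ∀ g : (LT T).G, g • f' = f') (h : toClass T f = toClass T f') :
    recFn p n f.1 = recFn p n f'.1 := by
  have hfix : ∀ g : (LT T).G, g • (f / f') = f / f' := fun g => by rw [smul_div', hf, hf']
  have h0 := recFn_classKer hp2 hT n hfix ((toClass_eq_iff f f').mp h)
  have h1 : (f : IdeleFn) = ((f / f' : idele T) : IdeleFn) * (f' : IdeleFn) :=
    (congrArg Subtype.val (div_mul_cancel f f')).symm
  rw [h1, recFn_mul hp2 n (isRat_of_fixed hfix) (isRat_of_fixed hf'), h0, zero_add]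

/-- Reciprocity on the fixed classes. -/
def recC (n : ℕ) : fixPts (ClassT T) (⊤ : Subgroup (LT T).G) →+ ZMod (p ^ n) :=
  AddMonoidHom.mk' (fun c => recFn p n (exists_fixed_lift_top c).choose.1) fun c c' => by
    obtain ⟨hf, e⟩ := (exists_fixed_lift_top c).choose_spec
    obtain ⟨hf', e'⟩ := (exists_fixed_lift_top c').choose_spec
    obtain ⟨hf'', e''⟩ := (exists_fixed_lift_top (c + c')).choose_spec
    rw [← recFn_mul hp2 n (isRat_of_fixed hf) (isRat_of_fixed hf')]
    exact recFn_eq_of_class hp2 hT hf'' (f' := _ * _) (fun g => by rw [smul_mul', hf, hf'])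
      (by rw [toClass_mul, e, e', e'', AddSubgroup.coe_add])

theorem recC_eq (n : ℕ) (c : fixPts (ClassT T) (⊤ : Subgroup (LT T).G)) {f : idele T}
    (hf : ∀ g : (LT T).G, g • f = f) (h : toClass T f = c) :
    recC hp2 hT n c = recFn p n f.1 :=
  recFn_eq_of_class hp2 hT (exists_fixed_lift_top c).choose_spec.1 hf
    ((exists_fixed_lift_top c).choose_spec.2.trans h.symm)

theorem recC_cast (m n : ℕ) (h : m ≤ n) (c : fixPts (ClassT T) (⊤ : Subgroup (LT T).G)) :
    ZMod.castHom (pow_dvd_pow p h) (ZMod (p ^ m)) (recC hp2 hT n c) = recC hp2 hT m c :=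
  recFn_cast hp2 h (isRat_of_fixed (exists_fixed_lift_top c).choose_spec.1)

end RecC

/-! ## Norms from the layer -/

theorem ordAt_prod {ι : Type*} (q : Nat.Primes) (s : Finset ι) (x : ι → ℚb)
    (h : ∀ i ∈ s, ∃ k : ℤ, (placeAt q).valuation (x i) =
      (placeAt q).valuation ((q : ℕ) : ℚb) ^ k) :
    ordAt (placeAt q) q (∏ i ∈ s, x i) = ∑ i ∈ s, ordAt (placeAt q) q (x i) := by
  classical
  refine ordAt_eq q.2 (placeAt_liesOverPrime q) ?_
  rw [map_prod]
  induction s using Finset.induction_on with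
  | empty => simp
  | insert a s ha ih =>
    obtain ⟨k, hk⟩ := h a (Finset.mem_insert_self a s)
    rw [Finset.prod_insert ha, Finset.sum_insert ha, ih fun i hi => h i (Finset.mem_insert_of_mem hi),
      zpow_add₀ (natCast_val_ne_zero q.2), ordAt_eq q.2 (placeAt_liesOverPrime q) hk, hk]

theorem sum_periodic {N : ℕ} [NeZero N] (w : ZMod N → ℤ) (c : ZMod N) (h : ∀ x, w (x + c) = w x) :
    (∑ x, w x) • c = 0 := by
  have h1 := Equiv.sum_comp (Equiv.addRight c) fun x => w x • x
  simp only [Equiv.coe_addRight, h, smul_add, Finset.sum_add_distrib] at h1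
  rw [← Finset.sum_smul] at h1
  exact left_eq_add.mp h1.symm

/-- The order of a norm from the layer is killed by the logarithm of the prime. -/
theorem ord_norm_natLog (hp2 : p ≠ 2) (n : ℕ) {f : IdeleFn}
    (heq : ∀ v, ∀ d ∈ decomp v, ∀ g, f v (d * g) = d • f v g)
    (hK : ∀ v g k, chiCyc p n k = 0 → f v (g * k) = f v g)
    {gx : ZMod (p ^ n) → GQ} (hgx : ∀ x, chiCyc p n (gx x) = x) (q : Nat.Primes) :
    ordAt (placeAt q) q ((∏ x, f (some q) (gx x) : ℚbˣ) : ℚb) • natLog p n q = 0 := by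
  rcases eq_or_ne (q : ℕ) p with hqp | hqp
  · rw [hqp, natLog_self, smul_zero]
  have hA := placeAt_liesOverPrime q
  have hconst : ∀ g g' : GQ, chiCyc p n g = chiCyc p n g' → f (some q) g = f (some q) g' := by
    intro g g' h
    rw [← hK (some q) g (g⁻¹ * g') (by rw [chiCyc_mul hp2, chiCyc_inv hp2, h, neg_add_cancel]),
      mul_inv_cancel_left]
  have hinert : ∀ τ ∈ (placeAt q).inertiaSubgroupIn ℚ, chiCyc p n τ = 0 := fun τ hτ =>
    chiCyc_eq_zero hp2 (DS.cycM_inertia q.2 hA (fun h => hqp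
      ((Nat.prime_dvd_prime_iff_eq q.2 hp.out).mp (q.2.dvd_of_dvd_pow h))) hτ)
  have hex : ∀ g : GQ, ∃ k : ℤ, (placeAt q).valuation (f (some q) g : ℚb) =
      (placeAt q).valuation ((q : ℕ) : ℚb) ^ k := fun g => by
    refine NewVec.exists_val_eq_zpow_of_fixed q.2 hA (fun τ hτ => ?_) (f (some q) g).ne_zero
    have hd : τ ∈ decomp (some q) := by
      obtain ⟨t, -, rfl⟩ := hτ
      exact t.2
    show ((τ • f (some q) g : ℚbˣ) : ℚb) = _
    rw [← heq (some q) τ hd g, hconst (τ * g) g (by rw [chiCyc_mul hp2, hinert τ hτ, zero_add])]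
  obtain ⟨σ, hσ⟩ := Galois.exists_isFrobeniusAt q.2 hA
  have hchi : chiCyc p n σ = natLog p n q := chiCyc_frobenius q.2 hA hqp hσ
  rw [show ((∏ x, f (some q) (gx x) : ℚbˣ) : ℚb) = ∏ x, (f (some q) (gx x) : ℚb) from
    Units.coe_prod _ _, ordAt_prod q _ _ fun x _ => hex (gx x)]
  refine sum_periodic _ _ fun x => ?_
  rw [hconst (gx (x + natLog p n q)) (σ * gx x) (by rw [hgx, chiCyc_mul hp2, hgx, hchi, add_comm]),
    heq (some q) σ hσ.mem_decompositionSubgroup (gx x)]
  obtain ⟨k, hk⟩ := hex (gx x)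
  rw [ordAt_eq q.2 hA hk, ordAt_eq q.2 hA (k := k)]
  show (placeAt q).valuation (σ (f (some q) (gx x) : ℚb)) = _
  rw [Galois.valuation_apply_eq hσ.mem_decompositionSubgroup, hk]

/-- A norm from the layer of a fixed idele has trivial reciprocity. -/
theorem recFn_norm (hp2 : p ≠ 2) (n : ℕ) {K : Subgroup (LT T).G} (hKo : (LT T).IsOpen K)
    (hK : ∀ g : GQ, g ∈ K ↔ chiCyc p n g = 0) {f : idele T} (hf : ∀ k ∈ K, k • f = f)
    {F : idele T} (hF : ∀ g : (LT T).G, g • F = F)
    {gx : ZMod (p ^ n) → GQ} (hgx : ∀ x, chiCyc p n (gx x) = x)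
    (hgd : ∀ x, gx x ∈ decomp (some (pPrime p)))
    (hval : ∀ v, F.1 v 1 = ∏ x, f.1 v (gx x)) : recFn p n F.1 = 0 := by
  have hA := liesOverPrime_pPrime p
  have heq := f.2.1
  have hfK : ∀ v g k, chiCyc p n k = 0 → f.1 v (g * k) = f.1 v g := fun v g k hk =>
    apply_mul_of_fixed (hf k ((hK k).mpr hk)) v g
  rw [recFn, hval (some (pPrime p)), finsum_eq_zero_of_forall_eq_zero fun q => ?_, add_zero,
    neg_eq_zero]
  swap
  · rw [hval]; exact ord_norm_natLog hp2 n heq hfK hgx q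
  set A := placeAt (pPrime p)
  set x0 : ℚbˣ := f.1 (some (pPrime p)) 1
  have hgxp : ∀ x, f.1 (some (pPrime p)) (gx x) = gx x • x0 := fun x => by
    rw [← heq (some (pPrime p)) (gx x) (hgd x) 1, mul_one]
  -- approximate by a global element
  have hx0 : (x0 : ℚb) ∈ IntermediateField.adjoin (decField A)
      ((IntermediateField.fixedField (show Subgroup GQ from K) : IntermediateField ℚ ℚb) : Set ℚb) :=
    mem_adjoin_fixedField hKo A fun σ hσ hσK => by
      show ((σ • x0 : ℚbˣ) : ℚb) = _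
      rw [← heq (some (pPrime p)) σ hσ 1, mul_one]
      exact congrArg Units.val ((congrArg (f.1 (some (pPrime p))) (one_mul σ).symm).trans
        (apply_mul_of_fixed (hf σ hσK) (some (pPrime p)) 1))
  obtain ⟨M, hM⟩ := exists_val_bound hp.out hA (x0 : ℚb)⁻¹
  obtain ⟨z, hzF, hz⟩ := exists_global_near hp.out hA _ hx0 (n + 1 + M)
  have hε : A.valuation (z / (x0 : ℚb) - 1) ≤ A.valuation (p : ℚb) ^ (n + 1) := by
    rw [show z / (x0 : ℚb) - 1 = -((x0 : ℚb)⁻¹ * ((x0 : ℚb) - z)) by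
      field_simp [x0.ne_zero]; ring, Valuation.map_neg, map_mul]
    refine (mul_le_mul' hM hz).trans (le_of_eq ?_)
    rw [← zpow_natCast, ← zpow_natCast, ← zpow_add₀ (natCast_val_ne_zero hp.out)]
    congr 1
    omega
  have hεlt : A.valuation (z / (x0 : ℚb) - 1) < 1 :=
    lt_of_le_of_lt hε (pow_lt_one₀ zero_le (natCast_val_lt_one hA) n.succ_ne_zero)
  have hzu : A.valuation (z / (x0 : ℚb)) = 1 := by
    have h2 := Valuation.map_add_eq_of_lt_left A.valuation (x := (1 : ℚb)) (y := z / (x0 : ℚb) - 1)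
      (by rw [map_one]; exact hεlt)
    rwa [add_sub_cancel, map_one] at h2
  have hz0 : z ≠ 0 := fun h => by rw [h, zero_div, map_zero] at hzu; exact zero_ne_one hzu
  set zu : ℚbˣ := Units.mk0 z hz0
  have hzK : ∀ k : GQ, chiCyc p n k = 0 → k • zu = zu := fun k hk =>
    Units.ext (hzF ⟨k, (hK k).mpr hk⟩)
  -- the norm of the global element
  set Nz : ℚbˣ := ∏ x, gx x • zu with hNz
  have hNzfix : ∀ g : GQ, g • Nz = Nz := fun g => by
    rw [hNz, Finset.smul_prod']
    refine (Finset.prod_congr rfl fun x _ => ?_).trans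
      (Equiv.prod_comp (Equiv.addLeft (chiCyc p n g)) fun x => gx x • zu)
    rw [smul_smul, Equiv.coe_addLeft]
    set y := gx (chiCyc p n g + x)
    conv_rhs => rw [← hzK (y⁻¹ * (g * gx x))
      (by rw [chiCyc_mul hp2, chiCyc_mul hp2, chiCyc_inv hp2, hgx, hgx, neg_add_cancel]),
      smul_smul, mul_inv_cancel_left]
  obtain ⟨r, hr, hNr⟩ := exists_rat_of_fixed hNzfix
  have hdiag : pTerm p n Nz = 0 := by
    have h := recFn_rat hp2 n r hr
    rw [← hNr, recFn, diag_one_apply, finsum_eq_zero_of_forall_eq_zero fun q => ?_, add_zero,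
      neg_eq_zero] at h
    · exact h
    · rw [diag_one_apply, hNz]
      exact ord_norm_natLog hp2 n (f := diag zu) (fun v d _ g => mul_smul d g zu)
        (fun v g k hk => show (g * k) • zu = g • zu by rw [mul_smul, hzK k hk]) hgx q
  -- compare the two norms
  set R : ℚbˣ := ∏ x, gx x • (zu / x0) with hR
  have hFd : (∏ x, f.1 (some (pPrime p)) (gx x)) ∈ decU A := by
    rw [← hval]; exact (isRat_of_fixed hF).1 _
  have hNd : Nz ∈ decU A := by rw [hNr]; exact ratUnit_mem_decU _ r hr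
  have hFR : (∏ x, f.1 (some (pPrime p)) (gx x)) * R = Nz := by
    rw [hR, hNz, ← Finset.prod_mul_distrib]
    exact Finset.prod_congr rfl fun x _ => by rw [hgxp, ← smul_mul', mul_div_cancel]
  have hRd : R ∈ decU A := by
    rw [← eq_inv_mul_of_mul_eq hFR |>.symm]
    exact mul_mem (inv_mem hFd) hNd
  have hRval : A.valuation ((R : ℚb) - 1) ≤ A.valuation (p : ℚb) ^ (n + 1) := by
    rw [hR, Units.coe_prod]
    refine (Finset.prod_induction _ (fun y : ℚb => A.valuation y ≤ 1 ∧
      A.valuation (y - 1) ≤ A.valuation (p : ℚb) ^ (n + 1)) (fun a b ha hb => ⟨?_, ?_⟩)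
      ⟨by simp, by simp⟩ fun x _ => ?_).2
    · rw [map_mul]; exact mul_le_one' ha.1 hb.1
    · rw [show a * b - 1 = a * (b - 1) + (a - 1) by ring]
      refine (A.valuation.map_add _ _).trans (max_le ?_ ha.2)
      rw [map_mul]
      exact (mul_le_of_le_one_left' ha.1).trans hb.2
    · have he : ((gx x • (zu / x0) : ℚbˣ) : ℚb) = gx x (z / (x0 : ℚb)) := by
        show gx x ((zu / x0 : ℚbˣ) : ℚb) = _
        rw [Units.val_div_eq_div_val]; rfl
      rw [he]
      refine ⟨by rw [Galois.valuation_apply_eq (hgd x), hzu], ?_⟩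
      rwa [← map_one (gx x), ← map_sub, Galois.valuation_apply_eq (hgd x)]
  have hRt : pTerm p n R = 0 := by
    rw [pTerm, dif_pos hRd, cycLog_eq_zero hp2]
    rw [unitRes_eq_one hp.out hA n.succ_ne_zero ⟨R, hRd⟩ hRval, one_pow]
  rw [← hFR, pTerm_mul hp2 n hFd hRd, hRt, add_zero] at hdiag
  exact hdiag

theorem recC_norm (hp2 : p ≠ 2) (hT : pPrime p ∈ T) (n : ℕ) (K : Subgroup (LT T).G)
    (hKo : (LT T).IsOpen K) (hK : ∀ g : (LT T).G, g ∈ K ↔ chiCyc p n g = 0) (y : ClassT T)
    (hy : y ∈ fixPts (ClassT T) K)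
    (hn : nm (⊤ : Subgroup (LT T).G) K y ∈ fixPts (ClassT T) (⊤ : Subgroup (LT T).G)) :
    recC hp2 hT n ⟨_, hn⟩ = 0 := by
  obtain ⟨f, hf, rfl⟩ := exists_fixed_lift T K hKo y hy
  choose gx hgd hgx using fun x => exists_decomp_chiCyc hp2 (pPrime p) rfl n x
  have hfA : Additive.ofMul f ∈ fixPts (Additive (idele T)) K :=
    fun k hk => congrArg Additive.ofMul (hf k hk)
  set F : idele T := (nm (⊤ : Subgroup (LT T).G) K (Additive.ofMul f)).toMul
  have hF : ∀ g : (LT T).G, g • F = F := fun g =>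
    congrArg Additive.toMul (nm_mem hKo hfA g (Subgroup.mem_top g))
  let t : ZMod (p ^ n) → (⊤ : Subgroup (LT T).G) := fun x => ⟨gx x, trivial⟩
  have ht : Function.Bijective fun x => (t x : (⊤ : Subgroup (LT T).G) ⧸ K.subgroupOf ⊤) := by
    refine ⟨fun a b h => ?_, fun c => ?_⟩
    · have h1 : (gx a)⁻¹ * gx b ∈ K := Subgroup.mem_subgroupOf.mp (QuotientGroup.eq.mp h)
      have h2 : chiCyc p n ((gx a)⁻¹ * gx b) = 0 := (hK _).mp h1
      rw [chiCyc_mul hp2, chiCyc_inv hp2, hgx, hgx, neg_add_eq_zero] at h2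
      exact h2
    · refine QuotientGroup.induction_on c fun g => ⟨chiCyc p n (g : (LT T).G), ?_⟩
      refine QuotientGroup.eq.mpr (Subgroup.mem_subgroupOf.mpr ((hK _).mpr ?_))
      show chiCyc p n ((gx (chiCyc p n (g : (LT T).G)))⁻¹ * (show GQ from (g : (LT T).G))) = 0
      rw [chiCyc_mul hp2, chiCyc_inv hp2, hgx, neg_add_cancel]
  rw [recC_eq hp2 hT n ⟨_, hn⟩ hF (toClass_nm (H := (⊤ : Subgroup (LT T).G)) hKo f).symm]
  refine recFn_norm hp2 n hKo hK hf hF hgx hgd fun v => ?_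
  exact (nm_idele_apply t ht hf v 1).trans
    (Finset.prod_congr rfl fun x _ => congrArg (f.1 v) (one_mul _))

/-! ## The layer is generated by norms -/

/-- An idele supported at the places over one place. -/
def singleFn (q : Nat.Primes) (S : GQ → Prop) (x : ℚbˣ) : IdeleFn :=
  open scoped Classical in fun v g => if v = some q ∧ S g then x else 1

theorem recC_gen (hp2 : p ≠ 2) (hT : pPrime p ∈ T) (H : Subgroup (LT T).G)
    (hH : (LT T).IsOpen H) (h : GQ) (hh : h ∈ H) (n : ℕ) :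
    ∃ a ∈ fixPts (ClassT T) H,
      ∃ ha : nm (⊤ : Subgroup (LT T).G) H a ∈ fixPts (ClassT T) (⊤ : Subgroup (LT T).G),
        recC hp2 hT n ⟨_, ha⟩ = chiCyc p n h := by
  classical
  obtain ⟨N₀, hN₀, hle₀⟩ := hH
  obtain ⟨Nc, hNc, hc⟩ := exists_cyc_field T hT n
  have hHo : (LT T).IsOpen H := ⟨N₀, hN₀, hle₀⟩
  obtain ⟨F, hFT, hNF, hNn⟩ := (LT T).inf N₀ Nc hN₀ hNc
  haveI := hFT.1
  obtain ⟨ℓ, hℓ, hbad, A, hA, σ, hσ, τ, hτ⟩ :=
    DS.exists_frobenius_conj F (insert p (T.image Subtype.val)) h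
  simp only [Finset.mem_insert, Finset.mem_image, not_or, not_exists, not_and] at hbad
  set q : Nat.Primes := ⟨ℓ, hℓ⟩
  have hqT : q ∉ T := fun hq => hbad.2 q hq rfl
  set s : GQ := τ * σ * τ⁻¹
  have hs : (τ • A).IsFrobeniusAt s ℓ := frobeniusAt_conj hσ τ
  have hA' : (τ • A).LiesOverPrime ℓ := liesOverPrime_smul hA τ
  have hagree : h⁻¹ * s ∈ F.fixingSubgroup := by
    rw [IntermediateField.mem_fixingSubgroup_iff]
    intro x hx
    rw [AlgEquiv.mul_apply, hτ x hx]
    exact h.symm_apply_apply x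
  have hFN : ∀ g : GQ, g ∈ F.fixingSubgroup → g ∈ N₀ ∧ cycM (p ^ (n + 1)) g = 1 := fun g hg => by
    have : g ∈ N₀ ⊓ Nc := hNF.symm ▸ hg
    exact ⟨this.1, (hc g).mp this.2⟩
  have hsH : s ∈ H := by
    have h1 : h * (h⁻¹ * s) ∈ (show Subgroup GQ from H) :=
      mul_mem hh (hle₀ (hFN _ hagree).1)
    rwa [mul_inv_cancel_left] at h1
  have hchi : chiCyc p n h = natLog p n ℓ := by
    rw [← chiCyc_frobenius hℓ hA' hbad.1 hs]
    have h1 := chiCyc_mul hp2 n h (h⁻¹ * s)
    rw [mul_inv_cancel_left, chiCyc_eq_zero hp2 (hFN _ hagree).2, add_zero] at h1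
    exact h1.symm
  obtain ⟨g, hg⟩ := Galois.exists_smul_eq_of_liesOverPrime hℓ hA' (placeAt_liesOverPrime q)
  have hσ₀ : (placeAt q).IsFrobeniusAt (g * s * g⁻¹) ℓ := by
    rw [hg]; exact frobeniusAt_conj hs g
  -- the decomposition group is inside the conjugate of `H`
  let NL : Subgroup (LD (some q)).G := (show Subgroup GQ from F.fixingSubgroup).subgroupOf (decomp (some q))
  have hFn : (show Subgroup GQ from F.fixingSubgroup).Normal := hNF ▸ hNn
  have hNL : Unram NL := by
    refine ⟨⟨_, ⟨F.fixingSubgroup, ⟨F, hFT.1, rfl, hFn⟩, rfl⟩, le_rfl⟩, ?_, fun t ht => ?_⟩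
    · haveI := hFn
      exact Subgroup.normal_subgroupOf
    · exact Subgroup.mem_subgroupOf.mpr (hFT.2 q hqT (placeAt q) (placeAt_liesOverPrime q) ht)
  have hdH : ∀ d ∈ decomp (some q), g⁻¹ * d * g ∈ (show Subgroup GQ from H) := by
    intro d hd
    obtain ⟨i, hi⟩ := exists_pow_frobenius hNL
      (σ := (⟨g * s * g⁻¹, hσ₀.mem_decompositionSubgroup⟩ : decomp (some q))) hσ₀
      (⟨d, hd⟩ : decomp (some q))
    have hi' : d⁻¹ * (g * s * g⁻¹) ^ i ∈ F.fixingSubgroup := Subgroup.mem_subgroupOf.mp hi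
    set m := d⁻¹ * (g * s * g⁻¹) ^ i
    have e : g⁻¹ * d * g = s ^ i * (g⁻¹ * m⁻¹ * g) := by
      simp only [m, conj_pow]; group
    rw [e]
    refine mul_mem (pow_mem hsH i) (hle₀ (hFN _ ?_).1)
    simpa using hFn.conj_mem _ (inv_mem hi') g⁻¹
  let S : GQ → Prop := fun x => g⁻¹ * x ∈ (show Subgroup GQ from H)
  have hqu : ((ℓ : ℕ) : ℚb) ≠ 0 := Nat.cast_ne_zero.mpr hℓ.ne_zero
  set u : ℚbˣ := Units.mk0 ((ℓ : ℕ) : ℚb) hqu
  have huf : ∀ d : GQ, d • u = u := fun d => Units.ext (map_natCast d ℓ)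
  have hmem : singleFn q S u ∈ idele T := by
    refine ⟨fun v d hd x => ?_, ⟨N₀, hN₀, fun v x t ht => ?_⟩,
      (Set.finite_singleton q).subset fun q' hq' => ?_⟩
    · by_cases hv : v = some q
      · subst hv
        have hiff : S (d * x) ↔ S x := by
          show g⁻¹ * (d * x) ∈ _ ↔ g⁻¹ * x ∈ _
          rw [show g⁻¹ * (d * x) = (g⁻¹ * d * g) * (g⁻¹ * x) by group]
          exact Subgroup.mul_mem_cancel_left _ (hdH d hd)
        by_cases hx : S x
        · simp only [singleFn, hiff, hx, and_self, if_true, huf]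
        · simp only [singleFn, hiff, hx, and_false, if_false, smul_one]
      · simp only [singleFn, hv, false_and, if_false, smul_one]
    · have hiff : S (x * t) ↔ S x := by
        show g⁻¹ * (x * t) ∈ _ ↔ g⁻¹ * x ∈ _
        rw [← mul_assoc]
        exact Subgroup.mul_mem_cancel_right _ (hle₀ ht)
      simp only [singleFn, hiff]
    · obtain ⟨x, hx⟩ := hq'
      by_contra hne
      exact hx (by simp only [singleFn, Option.some.injEq, show q' ≠ q from hne, false_and,
        if_false]; exact one_mem _)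
  set f : idele T := ⟨singleFn q S u, hmem⟩
  have hf : ∀ k ∈ H, k • f = f := by
    intro k hk
    refine Subtype.ext (funext fun v => funext fun x => ?_)
    show singleFn q S u v (x * (show GQ from k)) = singleFn q S u v x
    have hiff : S (x * (show GQ from k)) ↔ S x := by
      show g⁻¹ * (x * _) ∈ _ ↔ g⁻¹ * x ∈ _
      rw [← mul_assoc]
      exact Subgroup.mul_mem_cancel_right _ hk
    simp only [singleFn, hiff]
  have hfA : Additive.ofMul f ∈ fixPts (Additive (idele T)) H :=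
    fun k hk => congrArg Additive.ofMul (hf k hk)
  refine ⟨toClass T f, fun k hk => by rw [smul_toClass, hf k hk],
    nm_mem hHo (fun k hk => by rw [smul_toClass, hf k hk]), ?_⟩
  set Fn : idele T := (nm (⊤ : Subgroup (LT T).G) H (Additive.ofMul f)).toMul
  have hFn' : ∀ g' : (LT T).G, g' • Fn = Fn := fun g' =>
    congrArg Additive.toMul (nm_mem hHo hfA g' (Subgroup.mem_top g'))
  refine Eq.trans (recC_eq hp2 hT n _ hFn' (f := Fn) ?_) ?_
  · exact (toClass_nm (H := (⊤ : Subgroup (LT T).G)) hHo f).symm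
  rw [hchi]
  haveI := finite_quot (H := (⊤ : Subgroup (LT T).G)) hHo
  haveI : Fintype ((⊤ : Subgroup (LT T).G) ⧸ H.subgroupOf ⊤) := Fintype.ofFinite _
  have hval : ∀ v, Fn.1 v 1 = ∏ c : (⊤ : Subgroup (LT T).G) ⧸ H.subgroupOf ⊤,
      singleFn q S u v (show GQ from ((c.out : (⊤ : Subgroup (LT T).G)) : (LT T).G)) := fun v =>
    (nm_idele_apply (fun c => c.out) (by simp [Function.bijective_id]) hf v 1).trans
      (Finset.prod_congr rfl fun c _ => congrArg (singleFn q S u v) (one_mul _))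
  have hone : ∀ q' : Nat.Primes, q' ≠ q → Fn.1 (some q') 1 = 1 := fun q' hq' => by
    rw [hval]
    exact Finset.prod_eq_one fun c _ => by simp [singleFn, hq']
  have hqv : Fn.1 (some q) 1 = u := by
    let g₀ : (⊤ : Subgroup (LT T).G) := ⟨g, trivial⟩
    rw [hval, Finset.prod_eq_single (g₀ : (⊤ : Subgroup (LT T).G) ⧸ H.subgroupOf ⊤)]
    · obtain ⟨k, hk⟩ := QuotientGroup.mk_out_eq_mul (H.subgroupOf ⊤) g₀
      rw [hk]
      have : S (show GQ from ((g₀ * k : (⊤ : Subgroup (LT T).G)) : (LT T).G)) := by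
        show g⁻¹ * (g * _) ∈ _
        rw [inv_mul_cancel_left]
        exact Subgroup.mem_subgroupOf.mp k.2
      simp only [singleFn, this, and_self, if_true]
    · intro c _ hne
      have : ¬ S (show GQ from ((c.out : (⊤ : Subgroup (LT T).G)) : (LT T).G)) := fun hc' => hne
        ((QuotientGroup.out_eq' c).symm.trans
          (QuotientGroup.eq.mpr (Subgroup.mem_subgroupOf.mpr (by
            have h1 := inv_mem hc'
            rw [mul_inv_rev, inv_inv] at h1
            exact h1))))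
      simp only [singleFn, this, and_false, if_false]
    · simp
  rw [recFn_single hp2 n q 1 ?_ ?_ fun q' hq' => ?_, one_smul]
  · rw [hone _ fun h => hbad.1 (congrArg Subtype.val h).symm, pTerm_one hp2]
  · rw [hqv, zpow_one]; rfl
  · rw [hone q' hq']; exact one_mem _

end Fermat.Agent.GD
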